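/-
S56 / F / Defs : FLAT module, foundation (owner helper28).

Function level Hopf orders over a LOCAL base.  Everything lives inside `Qbar`, with the real valued
`p`-adic norm `nrm p` of `S55/Places` (`nrm p x ≤ 1 ↔ x ∈ padicPlace p`), `Dq p`, `Iq p`.

* `R0 p`            : `A ∩ Qbar^{I_p}`, the strictly henselian unramified base (a DVR, uniformiser `p`)
* `Ord R Γ act H`   : `H ⊂ Map(E, Qbar)` is an `R`-order of `Γ`-equivariant functions which separates
                      points and is closed under comultiplication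
                      (`S19.A.FlatOrder ℓ act H` is the case `R = ℤ_(ℓ)`, `Γ = ⊤`)
* `IsBase R Γ`      : `R` is a PID inside `Qbar` whose fraction field is `Qbar^Γ`
* `conn p H`        : the points of the connected component `E⁰ = {x | f x ≡ f 0 mod 𝔪 ∀ f ∈ H}`
* `aug Γ act`       : the augmentation subgroup `I_Γ E`, generated by all `σ x - x`, `σ ∈ Γ`
* `defAct M z`      : the Galois action `(1 + ε z) M` on `E = k² × k²` (`(v, w) = v + ε w`)
-/
import Fermat.Agent.S19.A.Defs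
import Fermat.Agent.S56.Defs
import Fermat.Agent.S55.Places.Norm

set_option autoImplicit false

noncomputable section

namespace Fermat.Agent.S56.F

open Fermat.Agent.S55.Places

/-- `R0 p = A ∩ Qbar^{I_p}`: the integers of the maximal unramified extension (inside `Qbar`). -/
def R0 (p : ℕ) [Fact p.Prime] : Subring Qbar where
  carrier := {x | nrm p x ≤ 1 ∧ ∀ σ ∈ Iq p, σ x = x}
  mul_mem' := by
    rintro a b ⟨ha, ha'⟩ ⟨hb, hb'⟩
    refine ⟨?_, fun σ hσ => by rw [map_mul, ha' σ hσ, hb' σ hσ]⟩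
    rw [nrm_mul]
    exact mul_le_one₀ ha (nrm_nonneg p _) hb
  one_mem' := ⟨by simp [nrm], fun σ _ => map_one σ⟩
  add_mem' := by
    rintro a b ⟨ha, ha'⟩ ⟨hb, hb'⟩
    exact ⟨(nrm_add_le_max p a b).trans (max_le ha hb),
      fun σ hσ => by rw [map_add, ha' σ hσ, hb' σ hσ]⟩
  zero_mem' := ⟨by simp [nrm], fun σ _ => map_zero σ⟩
  neg_mem' := by
    rintro a ⟨ha, ha'⟩
    exact ⟨by rw [nrm_neg]; exact ha, fun σ hσ => by rw [map_neg, ha' σ hσ]⟩

theorem mem_R0 {p : ℕ} [Fact p.Prime] {x : Qbar} :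
    x ∈ R0 p ↔ nrm p x ≤ 1 ∧ ∀ σ ∈ Iq p, σ x = x := Iff.rfl

/-- an `R`-order of `Γ`-equivariant functions on `E`, closed under comultiplication. -/
structure Ord (R : Subring Qbar) (Γ : Subgroup GQ) {E : Type} [AddCommGroup E]
    (act : GQ → E → E) (H : Subalgebra R (E → Qbar)) : Prop where
  equiv : ∀ f ∈ H, ∀ σ ∈ Γ, ∀ x : E, f (act σ x) = σ (f x)
  fg : (Subalgebra.toSubmodule H).FG
  sep : ∀ x y : E, x ≠ y → ∃ f ∈ H, f x ≠ f y
  comul : S19.A.ComulClosed (H : Set (E → Qbar))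

/-- `R ⊂ Qbar` is a PID, fixed by `Γ`, with fraction field `Qbar^Γ`, integrally closed in it. -/
structure IsBase (R : Subring Qbar) (Γ : Subgroup GQ) : Prop where
  pid : IsPrincipalIdealRing R
  fixed : ∀ r ∈ R, ∀ σ ∈ Γ, σ r = r
  frac : ∀ c : Qbar, (∀ σ ∈ Γ, σ c = c) → ∃ d ∈ R, d ≠ 0 ∧ d * c ∈ R
  closed : ∀ c : Qbar, (∀ σ ∈ Γ, σ c = c) → IsIntegral R c → c ∈ R

/-- the points of the connected component. -/
def conn (p : ℕ) [Fact p.Prime] {R : Subring Qbar} {E : Type} [AddCommGroup E]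
    (H : Subalgebra R (E → Qbar)) : Set E :=
  {x | ∀ f ∈ H, nrm p (f x - f 0) < 1}

/-- the augmentation subgroup `I_Γ E`. -/
def aug (Γ : Subgroup GQ) {E : Type} [AddCommGroup E] (act : GQ → E → E) : AddSubgroup E :=
  AddSubgroup.closure {y | ∃ σ ∈ Γ, ∃ x : E, y = act σ x - x}

/-- the augmentation subgroup of a subset `S` (think: a `Γ`-stable subgroup). -/
def augOn (Γ : Subgroup GQ) {E : Type} [AddCommGroup E] (act : GQ → E → E) (S : Set E) :
    AddSubgroup E :=
  AddSubgroup.closure {y | ∃ σ ∈ Γ, ∃ x ∈ S, y = act σ x - x}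

/-- `I'' ⊂ I_p`: the elements of inertia fixing all `p`-th roots of all units of `R0 p`. -/
def Ipeu (p : ℕ) [Fact p.Prime] : Subgroup GQ where
  carrier := {τ | τ ∈ Iq p ∧ ∀ w : Qbar, w ^ p ∈ R0 p → nrm p w = 1 → τ w = w}
  mul_mem' := by
    rintro a b ⟨ha, ha'⟩ ⟨hb, hb'⟩
    exact ⟨mul_mem ha hb, fun w hw h1 => by
      rw [AlgEquiv.mul_apply, hb' w hw h1, ha' w hw h1]⟩
  one_mem' := ⟨one_mem _, fun _ _ _ => rfl⟩
  inv_mem' := by
    rintro a ⟨ha, ha'⟩
    refine ⟨inv_mem ha, fun w hw h1 => ?_⟩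
    have h := ha' w hw h1
    calc a⁻¹ w = a⁻¹ (a w) := by rw [h]
      _ = w := by rw [← AlgEquiv.mul_apply, inv_mul_cancel, AlgEquiv.one_apply]

section defAct

variable {k : Type} [Field k]

/-- the module `E = k[ε]²`, written `(v, w) = v + ε w`. -/
abbrev EE (k : Type) : Type := (Fin 2 → k) × (Fin 2 → k)

/-- the action `(1 + ε z) M` on `E = k[ε]²`. -/
def defAct (M : GQ →* M2 k) (z : GQ → M2 k) (σ : GQ) (v : EE k) : EE k :=
  ((M σ).mulVec v.1, (M σ).mulVec v.2 + (z σ * M σ).mulVec v.1)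

/-- the residual action on `k²`. -/
def resAct (M : GQ →* M2 k) (σ : GQ) (v : Fin 2 → k) : Fin 2 → k := (M σ).mulVec v

end defAct

end Fermat.Agent.S56.F

end
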