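/-
S56 / F / Basic : elementary consequences of the axioms of an order.   TASKS S56/F-Basic-a, -b.

Notation: `h : Ord R Γ act H`, `hR : ∀ r ∈ R, nrm p r ≤ 1`.
All proofs are a few lines from `h.sep`, `h.equiv`, `h.comul` and the ultrametric inequality
(`nrm_sum_le`, `nrm_mul`, `nrm_add_le_max` in `S55/Places/Norm.lean`).
-/
import Fermat.Agent.S56.F.Defs
import Fermat.Agent.S55.Places.Ring

set_option autoImplicit false

noncomputable section

namespace Fermat.Agent.S56.F

open Fermat.Agent.S55.Places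

variable {p : ℕ} [Fact p.Prime] {R : Subring Qbar} {Γ : Subgroup GQ} {E : Type} [AddCommGroup E]
  {act : GQ → E → E} {H : Subalgebra R (E → Qbar)}

/-! ### TASK S56/F-Basic-a : the action is automatically an action by automorphisms -/

/-- two points with the same values are equal. -/
theorem Ord.ext_point (h : Ord R Γ act H) {x y : E} (hxy : ∀ f ∈ H, f x = f y) : x = y := by
  by_contra hne
  obtain ⟨f, hf, hfne⟩ := h.sep x y hne
  exact hfne (hxy f hf)

/-- `f (σ(x+y)) = σ (∑ a_i x b_i y) = ∑ a_i (σ x) b_i (σ y) = f (σ x + σ y)`. -/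
theorem Ord.act_add (h : Ord R Γ act H) {σ : GQ} (hσ : σ ∈ Γ) (x y : E) :
    act σ (x + y) = act σ x + act σ y := by
  apply h.ext_point
  intro f hf
  obtain ⟨ι, _, a, b, ha, hb, hab⟩ := h.comul f hf
  rw [h.equiv f hf σ hσ, hab, hab, map_sum]
  refine Finset.sum_congr rfl fun i _ => ?_
  rw [map_mul, h.equiv (a i) (ha i) σ hσ, h.equiv (b i) (hb i) σ hσ]

theorem Ord.act_zero (h : Ord R Γ act H) {σ : GQ} (hσ : σ ∈ Γ) : act σ 0 = 0 := by
  have h1 := h.act_add hσ 0 0
  rw [add_zero] at h1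
  exact (add_eq_left.1 h1.symm)

theorem Ord.act_neg (h : Ord R Γ act H) {σ : GQ} (hσ : σ ∈ Γ) (x : E) :
    act σ (-x) = -act σ x := by
  have h1 := h.act_add hσ x (-x)
  rw [add_neg_cancel, h.act_zero hσ] at h1
  exact (neg_eq_of_add_eq_zero_right h1.symm).symm

theorem Ord.act_sub (h : Ord R Γ act H) {σ : GQ} (hσ : σ ∈ Γ) (x y : E) :
    act σ (x - y) = act σ x - act σ y := by
  rw [sub_eq_add_neg, h.act_add hσ, h.act_neg hσ, ← sub_eq_add_neg]

theorem Ord.act_nsmul (h : Ord R Γ act H) {σ : GQ} (hσ : σ ∈ Γ) (n : ℕ) (x : E) :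
    act σ (n • x) = n • act σ x := by
  induction n with
  | zero => rw [zero_smul, zero_smul, h.act_zero hσ]
  | succ n ih => rw [succ_nsmul, succ_nsmul, h.act_add hσ, ih]

theorem Ord.act_mul (h : Ord R Γ act H) {σ τ : GQ} (hσ : σ ∈ Γ) (hτ : τ ∈ Γ) (x : E) :
    act (σ * τ) x = act σ (act τ x) := by
  apply h.ext_point
  intro f hf
  rw [h.equiv f hf _ (mul_mem hσ hτ), h.equiv f hf σ hσ, h.equiv f hf τ hτ, AlgEquiv.mul_apply]

theorem Ord.act_one (h : Ord R Γ act H) (x : E) : act 1 x = x := by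
  apply h.ext_point
  intro f hf
  rw [h.equiv f hf _ (one_mem Γ), AlgEquiv.one_apply]

theorem Ord.act_inv_act (h : Ord R Γ act H) {σ : GQ} (hσ : σ ∈ Γ) (x : E) :
    act σ⁻¹ (act σ x) = x := by
  rw [← h.act_mul (inv_mem hσ) hσ, inv_mul_cancel, h.act_one]

theorem Ord.act_act_inv (h : Ord R Γ act H) {σ : GQ} (hσ : σ ∈ Γ) (x : E) :
    act σ (act σ⁻¹ x) = x := by
  rw [← h.act_mul hσ (inv_mem hσ), mul_inv_cancel, h.act_one]

theorem Ord.act_surjective (h : Ord R Γ act H) {σ : GQ} (hσ : σ ∈ Γ) :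
    Function.Surjective (act σ) := by
  exact fun x => ⟨act σ⁻¹ x, h.act_act_inv hσ x⟩

theorem Ord.act_injective (h : Ord R Γ act H) {σ : GQ} (hσ : σ ∈ Γ) :
    Function.Injective (act σ) := by
  intro x y hxy
  rw [← h.act_inv_act hσ x, hxy, h.act_inv_act hσ]

/-- a smaller group of symmetries. -/
theorem Ord.mono (h : Ord R Γ act H) {Γ' : Subgroup GQ} (hΓ : Γ' ≤ Γ) : Ord R Γ' act H :=
  ⟨fun f hf σ hσ x => h.equiv f hf σ (hΓ hσ) x, h.fg, h.sep, h.comul⟩

/-- `σ ∈ Γ` fixes `x` iff it fixes all values `f x`. -/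
theorem Ord.act_eq_iff (h : Ord R Γ act H) {σ : GQ} (hσ : σ ∈ Γ) (x : E) :
    act σ x = x ↔ ∀ f ∈ H, σ (f x) = f x := by
  constructor
  · intro hx f hf
    rw [← h.equiv f hf σ hσ, hx]
  · intro hx
    apply h.ext_point
    intro f hf
    rw [h.equiv f hf σ hσ, hx f hf]

/-! ### TASK S56/F-Basic-b : integrality and the first estimates -/

/-- values are integral: `f ∈ H` is integral over `R` (`H` is a finite `R`-module:
`IsIntegral.of_mem_of_fg`), hence so is `f x` (`IsIntegral.map` with `Pi.evalAlgHom`); a root of a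
monic polynomial with coefficients of norm `≤ 1` has norm `≤ 1`
(`nrm_le_one_of_monic_root` in `S55/Places/Ring.lean`). -/
theorem Ord.nrm_le_one (hR : ∀ r ∈ R, nrm p r ≤ 1) (h : Ord R Γ act H) {f : E → Qbar}
    (hf : f ∈ H) (x : E) : nrm p (f x) ≤ 1 := by
  have h1 : IsIntegral R f := IsIntegral.of_mem_of_fg H h.fg f hf
  have h2 : IsIntegral R (f x) := h1.map (Pi.evalAlgHom R (fun _ : E => Qbar) x)
  obtain ⟨P, hP, hroot⟩ := h2
  refine RingAux.nrm_le_one_of_monic_root (q := p) (P.map (algebraMap R Qbar)) (hP.map _) (fun i => ?_) (f x) ?_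
  · rw [Polynomial.coeff_map]
    exact hR _ (P.coeff i).2
  · rw [Polynomial.eval_map]
    exact hroot

/-- `f (x+y) - f x = ∑ a_i x (b_i y - b_i 0)`. -/
theorem Ord.nrm_translate_le (hR : ∀ r ∈ R, nrm p r ≤ 1) (h : Ord R Γ act H) {t : ℝ} {y : E}
    (hy : ∀ f ∈ H, nrm p (f y - f 0) ≤ t) (x : E) : ∀ f ∈ H, nrm p (f (x + y) - f x) ≤ t := by
  intro f hf
  have ht : 0 ≤ t := (nrm_nonneg p _).trans (hy f hf)
  obtain ⟨ι, _, a, b, ha, hb, hab⟩ := h.comul f hf
  have e : f (x + y) - f x = ∑ i, a i x * (b i y - b i 0) := by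
    have h0 := hab x 0
    rw [add_zero] at h0
    rw [hab x y, h0, ← Finset.sum_sub_distrib]
    exact Finset.sum_congr rfl (fun i _ => by ring)
  rw [e]
  refine nrm_sum_le p _ _ t ht (fun i _ => ?_)
  rw [nrm_mul]
  calc nrm p (a i x) * nrm p (b i y - b i 0) ≤ 1 * t :=
        mul_le_mul (h.nrm_le_one hR (ha i) x) (hy _ (hb i)) (nrm_nonneg p _) zero_le_one
    _ = t := one_mul t

/-- `f y - f 0 = f (-x + (x+y)) - f (-x + x) = ∑ a_i (-x) (b_i (x+y) - b_i x)`. -/
theorem Ord.nrm_le_of_translate (hR : ∀ r ∈ R, nrm p r ≤ 1) (h : Ord R Γ act H) {t : ℝ}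
    {x y : E} (hy : ∀ f ∈ H, nrm p (f (x + y) - f x) ≤ t) : ∀ f ∈ H, nrm p (f y - f 0) ≤ t := by
  intro f hf
  have ht : 0 ≤ t := (nrm_nonneg p _).trans (hy f hf)
  obtain ⟨ι, _, a, b, ha, hb, hab⟩ := h.comul f hf
  have e : f y - f 0 = ∑ i, a i (-x) * (b i (x + y) - b i x) := by
    have h0 := hab (-x) x
    rw [neg_add_cancel] at h0
    have h1 := hab (-x) (x + y)
    rw [neg_add_cancel_left] at h1
    rw [h1, h0, ← Finset.sum_sub_distrib]
    exact Finset.sum_congr rfl (fun i _ => by ring)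
  rw [e]
  refine nrm_sum_le p _ _ t ht (fun i _ => ?_)
  rw [nrm_mul]
  calc nrm p (a i (-x)) * nrm p (b i (x + y) - b i x) ≤ 1 * t :=
        mul_le_mul (h.nrm_le_one hR (ha i) _) (hy _ (hb i)) (nrm_nonneg p _) zero_le_one
    _ = t := one_mul t

/-- second order estimate:
`f (x+y) - f x - f y + f 0 = ∑ (a_i x - a_i 0) (b_i y - b_i 0)`. -/
theorem Ord.second_order (h : Ord R Γ act H) {t s : ℝ} {x y : E}
    (hx : ∀ f ∈ H, nrm p (f x - f 0) ≤ t) (hy : ∀ f ∈ H, nrm p (f y - f 0) ≤ s) :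
    ∀ f ∈ H, nrm p (f (x + y) - f x - f y + f 0) ≤ t * s := by
  intro f hf
  have ht : 0 ≤ t := (nrm_nonneg p _).trans (hx f hf)
  have hs : 0 ≤ s := (nrm_nonneg p _).trans (hy f hf)
  obtain ⟨ι, _, a, b, ha, hb, hab⟩ := h.comul f hf
  have e : f (x + y) - f x - f y + f 0 = ∑ i, (a i x - a i 0) * (b i y - b i 0) := by
    have h1 := hab x 0
    rw [add_zero] at h1
    have h2 := hab 0 y
    rw [zero_add] at h2
    have h3 := hab 0 0
    rw [add_zero] at h3
    rw [hab x y, h1, h2, h3, ← Finset.sum_sub_distrib, ← Finset.sum_sub_distrib,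
      ← Finset.sum_add_distrib]
    exact Finset.sum_congr rfl (fun i _ => by ring)
  rw [e]
  refine nrm_sum_le p _ _ (t * s) (mul_nonneg ht hs) (fun i _ => ?_)
  rw [nrm_mul]
  exact mul_le_mul (hx _ (ha i)) (hy _ (hb i)) (nrm_nonneg p _) ht

/-- the maximum of `|f x - f y|`, `f ∈ H`, is attained (at one of finitely many module generators:
`f = ∑ r_j h_j` gives `|f x - f y| ≤ max_j |h_j x - h_j y|`). -/
theorem Ord.exists_max (hR : ∀ r ∈ R, nrm p r ≤ 1) (h : Ord R Γ act H) (x y : E) :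
    ∃ f ∈ H, ∀ g ∈ H, nrm p (g x - g y) ≤ nrm p (f x - f y) := by
  classical
  obtain ⟨T, hT⟩ := h.fg
  have hTH : ∀ g ∈ T, g ∈ H := by
    intro g hg
    have : g ∈ Subalgebra.toSubmodule H := by
      rw [← hT]
      exact Submodule.subset_span hg
    exact this
  obtain ⟨f, hfT, hmax⟩ := Finset.exists_max_image (insert (0 : E → Qbar) T)
    (fun g => nrm p (g x - g y)) ⟨0, Finset.mem_insert_self _ _⟩
  have hfH : f ∈ H := by
    rcases Finset.mem_insert.1 hfT with rfl | hf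
    · exact H.zero_mem
    · exact hTH f hf
  refine ⟨f, hfH, fun g hg => ?_⟩
  have hg' : g ∈ Submodule.span R (T : Set (E → Qbar)) := by
    rw [hT]
    exact hg
  induction hg' using Submodule.span_induction with
  | mem g hgT => exact hmax g (Finset.mem_insert_of_mem hgT)
  | zero =>
    show nrm p ((0 : Qbar) - 0) ≤ _
    rw [sub_zero, nrm_zero]
    exact nrm_nonneg p _
  | add g g' hgs hgs' ih ih' =>
    have hgH : g ∈ H := by
      have : g ∈ Subalgebra.toSubmodule H := by rw [← hT]; exact hgs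
      exact this
    have hgH' : g' ∈ H := by
      have : g' ∈ Subalgebra.toSubmodule H := by rw [← hT]; exact hgs'
      exact this
    have e : (g + g') x - (g + g') y = (g x - g y) + (g' x - g' y) := by
      simp only [Pi.add_apply]; ring
    rw [e]
    exact (nrm_add_le_max p _ _).trans (max_le (ih hgH) (ih' hgH'))
  | smul r g hgs ih =>
    have hgH : g ∈ H := by
      have : g ∈ Subalgebra.toSubmodule H := by rw [← hT]; exact hgs
      exact this
    have e : (r • g) x - (r • g) y = (r : Qbar) * (g x - g y) := by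
      show (r : Qbar) * g x - (r : Qbar) * g y = _
      ring
    rw [e, nrm_mul]
    calc nrm p (r : Qbar) * nrm p (g x - g y) ≤ 1 * nrm p (f x - f y) :=
          mul_le_mul (hR _ r.2) (ih hgH) (nrm_nonneg p _) zero_le_one
      _ = _ := one_mul _

/-- `f (n x) - f 0 ≡ n (f x - f 0)` modulo `t²`, if `|g x - g 0| ≤ t ≤ 1` for all `g ∈ H`.
Induction on `n` with `second_order` (first prove `|g (n x) - g 0| ≤ t` for all `g`, `n`). -/
theorem Ord.nsmul_estimate (h : Ord R Γ act H) {t : ℝ} (ht : t ≤ 1) {x : E}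
    (hx : ∀ f ∈ H, nrm p (f x - f 0) ≤ t) (n : ℕ) :
    ∀ f ∈ H, nrm p (f (n • x) - f 0 - n * (f x - f 0)) ≤ t * t := by
  have ht0 : ∀ f ∈ H, 0 ≤ t := fun f hf => (nrm_nonneg p _).trans (hx f hf)
  have hA : ∀ n : ℕ, ∀ g ∈ H, nrm p (g (n • x) - g 0) ≤ t := by
    intro n
    induction n with
    | zero =>
      intro g hg
      rw [zero_smul, sub_self, nrm_zero]
      exact ht0 g hg
    | succ n ih =>
      intro g hg
      have h2 := h.second_order ih hx g hg
      have htt : t * t ≤ t := by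
        have := mul_le_mul_of_nonneg_right ht (ht0 g hg)
        rwa [one_mul] at this
      have e : g ((n + 1) • x) - g 0 = (g (n • x + x) - g (n • x) - g x + g 0)
          + ((g (n • x) - g 0) + (g x - g 0)) := by
        rw [succ_nsmul]; ring
      rw [e]
      exact (nrm_add_le_max p _ _).trans (max_le (h2.trans htt)
        ((nrm_add_le_max p _ _).trans (max_le (ih g hg) (hx g hg))))
  induction n with
  | zero =>
    intro f hf
    rw [zero_smul, sub_self, Nat.cast_zero, zero_mul, sub_zero, nrm_zero]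
    exact mul_nonneg (ht0 f hf) (ht0 f hf)
  | succ n ih =>
    intro f hf
    have h2 := h.second_order (hA n) hx f hf
    have e : f ((n + 1) • x) - f 0 - ((n + 1 : ℕ) : Qbar) * (f x - f 0)
        = (f (n • x + x) - f (n • x) - f x + f 0) + (f (n • x) - f 0 - n * (f x - f 0)) := by
      rw [succ_nsmul]; push_cast; ring
    rw [e]
    exact (nrm_add_le_max p _ _).trans (max_le h2 (ih f hf))

end Fermat.Agent.S56.F

end
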