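/-
S56 / F / R0 : the base ring `R0 p = A ∩ Qbar^{I_p}`.     TASK S56/F-R0.

Sources: `S55/Places/Unram.lean` (`nrm_of_unramified` : norms of elements of number fields fixed by
`Iq q` are integral powers of `q`; apply it to `E = ℚ⟮x⟯`, `cyclo_finiteDimensional_adjoin`,
`cyclo_mem_fixingSubgroup_adjoin`), `S55/Places/Ring.lean` (`isPrincipalIdealRing_base` is the same
proof for `ringOf q (Dq q)`; `nrm_le_one_of_monic_root`), `S55/Places/Norm.lean`.
(Alternatively `S19/A/Inst.lean` `unramBase` / `S36/Base/Dvr.lean` via `padicPlace_liesOverPrime`.)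
-/
import Fermat.Agent.S56.F.Basic
import Fermat.Agent.S55.Places.Unram
import Fermat.Agent.S55.Places.Cyclo

set_option autoImplicit false

noncomputable section

namespace Fermat.Agent.S56.F

open Fermat.Agent.S55.Places
open scoped IntermediateField

variable {p : ℕ} [Fact p.Prime]

theorem nrm_le_one_of_mem_R0 : ∀ r ∈ R0 p, nrm p r ≤ 1 := fun _ hr => hr.1

/-- `L0` is unramified: the norm of an `I_p`-fixed element is an integral power of `p`. -/
theorem exists_zpow_of_fixed {x : Qbar} (hx : ∀ σ ∈ Iq p, σ x = x) (h0 : x ≠ 0) :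
    ∃ n : ℤ, nrm p x = (p : ℝ) ^ n := by
  have := cyclo_finiteDimensional_adjoin x
  exact nrm_of_unramified (q := p) (ℚ⟮x⟯ : NF)
    (fun σ hσ => cyclo_mem_fixingSubgroup_adjoin (hx σ hσ))
    (IntermediateField.mem_adjoin_simple_self ℚ x) h0

/-- an `I_p`-fixed element of norm `< 1` has norm `≤ 1/p`. -/
theorem nrm_le_inv_of_fixed {x : Qbar} (hx : ∀ σ ∈ Iq p, σ x = x) (h1 : nrm p x < 1) :
    nrm p x ≤ (p : ℝ)⁻¹ := by
  have hp1 : (1 : ℝ) < p := by exact_mod_cast (Fact.out : p.Prime).one_lt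
  by_cases h0 : x = 0
  · rw [h0, nrm_zero]; positivity
  obtain ⟨n, hn⟩ := exists_zpow_of_fixed hx h0
  rw [hn] at h1 ⊢
  have hn0 : n < 0 := by
    by_contra hcon
    rw [not_lt] at hcon
    have := one_le_zpow₀ hp1.le hcon
    linarith
  rw [← zpow_neg_one]
  exact zpow_le_zpow_right₀ hp1.le (by omega)

/-- an `I_p`-fixed element is `p^n` times a unit of `R0`. -/
theorem exists_zpow_mul_unit {x : Qbar} (hx : ∀ σ ∈ Iq p, σ x = x) (h0 : x ≠ 0) :
    ∃ (n : ℤ) (u : Qbar), u ∈ R0 p ∧ nrm p u = 1 ∧ x = (p : Qbar) ^ n * u := by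
  have hp0 : (0 : ℝ) < p := by exact_mod_cast (Fact.out : p.Prime).pos
  have hpQ : (p : Qbar) ≠ 0 := by exact_mod_cast (Fact.out : p.Prime).ne_zero
  obtain ⟨n, hn⟩ := exists_zpow_of_fixed hx h0
  have hu : nrm p ((p : Qbar) ^ n * x) = 1 := by
    rw [nrm_mul, nrm_zpow, nrm_natCast_self, hn, inv_zpow, inv_mul_cancel₀]
    exact (zpow_pos hp0 n).ne'
  refine ⟨-n, (p : Qbar) ^ n * x, ⟨hu.le, fun σ hσ => ?_⟩, hu, ?_⟩
  · rw [map_mul, hx σ hσ, map_zpow₀, map_natCast]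
  · rw [← mul_assoc, ← zpow_add₀ hpQ, neg_add_cancel, zpow_zero, one_mul]

theorem natCast_mem_R0 (n : ℕ) : (n : Qbar) ∈ R0 p := natCast_mem _ n

/-- every ideal of `R0 p` is generated by a power of `p`. -/
theorem isPrincipalIdealRing_R0 : IsPrincipalIdealRing (R0 p) := by
  classical
  have hp0 : (0 : ℝ) < p := by exact_mod_cast (Fact.out : p.Prime).pos
  have hp1 : (1 : ℝ) < p := by exact_mod_cast (Fact.out : p.Prime).one_lt
  have hpQ : (p : Qbar) ≠ 0 := by exact_mod_cast (Fact.out : p.Prime).ne_zero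
  -- norms of nonzero elements of `R0`
  have key : ∀ y : R0 p, y ≠ 0 → ∃ k : ℕ, nrm p (y : Qbar) = ((p : ℝ)⁻¹) ^ k := by
    intro y hy
    have hy0 : (y : Qbar) ≠ 0 := by simpa using hy
    obtain ⟨n, hn⟩ := exists_zpow_of_fixed y.2.2 hy0
    have hn0 : n ≤ 0 := by
      by_contra hcon
      rw [not_le] at hcon
      have h1 : (1 : ℝ) < (p : ℝ) ^ n := one_lt_zpow₀ hp1 hcon
      have h2 := y.2.1
      rw [hn] at h2
      linarith
    refine ⟨(-n).toNat, ?_⟩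
    rw [hn, inv_pow, ← zpow_natCast, Int.toNat_of_nonneg (by omega), zpow_neg, inv_inv]
  constructor
  intro I
  by_cases hI : I = ⊥
  · rw [hI]; exact ⟨0, by simp⟩
  obtain ⟨x, hxI, hx0⟩ := Submodule.exists_mem_ne_zero_of_ne_bot hI
  have hex : ∃ k : ℕ, ∃ y ∈ I, nrm p (y : Qbar) = ((p : ℝ)⁻¹) ^ k := by
    obtain ⟨k, hk⟩ := key x hx0
    exact ⟨k, x, hxI, hk⟩
  obtain ⟨y, hyI, hy⟩ := Nat.find_spec hex
  set k := Nat.find hex with hk
  have hpk : (0 : ℝ) < ((p : ℝ)⁻¹) ^ k := by positivity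
  have hy0 : (y : Qbar) ≠ 0 := by
    intro h0
    rw [h0, nrm_zero] at hy
    linarith
  -- division inside `R0`
  have hdiv : ∀ a b : R0 p, (b : Qbar) ≠ 0 → nrm p (a : Qbar) ≤ nrm p (b : Qbar) →
      ∃ c : R0 p, a = b * c := by
    intro a b hb hab
    have hb' : 0 < nrm p (b : Qbar) := (nrm_pos_iff p).2 hb
    refine ⟨⟨(a : Qbar) / b, ?_, fun σ hσ => ?_⟩, ?_⟩
    · rw [nrm_div]; exact (div_le_one hb').2 hab
    · rw [map_div₀, a.2.2 σ hσ, b.2.2 σ hσ]
    · apply Subtype.ext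
      show (a : Qbar) = (b : Qbar) * ((a : Qbar) / b)
      rw [mul_div_cancel₀ _ hb]
  have hpkc : (((p : R0 p) ^ k : R0 p) : Qbar) = (p : Qbar) ^ k := by simp
  have hpkn : nrm p (((p : R0 p) ^ k : R0 p) : Qbar) = ((p : ℝ)⁻¹) ^ k := by
    rw [hpkc, nrm_pow, nrm_natCast_self]
  refine ⟨(p : R0 p) ^ k, ?_⟩
  change I = Ideal.span {(p : R0 p) ^ k}
  apply le_antisymm
  · intro z hz
    rw [Ideal.mem_span_singleton']
    by_cases hz0 : z = 0
    · exact ⟨0, by rw [hz0, zero_mul]⟩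
    obtain ⟨j, hj⟩ := key z hz0
    have hle : k ≤ j := Nat.find_min' hex ⟨z, hz, hj⟩
    obtain ⟨c, hc⟩ := hdiv z ((p : R0 p) ^ k) (by rw [hpkc]; exact pow_ne_zero _ hpQ) (by
      rw [hpkn, hj]
      exact pow_le_pow_of_le_one (by positivity) (inv_le_one_of_one_le₀ hp1.le) hle)
    exact ⟨c, by rw [hc, mul_comm]⟩
  · rw [Ideal.span_singleton_le_iff_mem]
    obtain ⟨c, hc⟩ := hdiv ((p : R0 p) ^ k) y hy0 (by rw [hpkn, hy])
    rw [hc]
    exact I.mul_mem_right _ hyI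

/-- **`(R0 p, I_p)` is a base.** -/
theorem isBase_R0 : IsBase (R0 p) (Iq p) := by
  have hp0 : (0 : ℝ) < p := by exact_mod_cast (Fact.out : p.Prime).pos
  have hp1 : (1 : ℝ) < p := by exact_mod_cast (Fact.out : p.Prime).one_lt
  have hpQ : (p : Qbar) ≠ 0 := by exact_mod_cast (Fact.out : p.Prime).ne_zero
  refine ⟨isPrincipalIdealRing_R0, fun r hr σ hσ => hr.2 σ hσ, fun c hc => ?_, fun c hc hint => ?_⟩
  · by_cases h0 : c = 0
    · exact ⟨1, one_mem _, one_ne_zero, by rw [h0, mul_zero]; exact zero_mem _⟩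
    obtain ⟨n, hn⟩ := exists_zpow_of_fixed hc h0
    refine ⟨(p : Qbar) ^ n.toNat, pow_mem (natCast_mem_R0 p) _, pow_ne_zero _ hpQ, ?_,
      fun σ hσ => ?_⟩
    · rw [nrm_mul, nrm_pow, nrm_natCast_self, hn, inv_pow, ← zpow_natCast, ← zpow_neg,
        ← zpow_add₀ hp0.ne']
      exact zpow_le_one_of_nonpos₀ hp1.le (by have := Int.self_le_toNat n; omega)
    · rw [map_mul, map_pow, map_natCast, hc σ hσ]
  · refine ⟨?_, hc⟩
    obtain ⟨P, hP, hroot⟩ := hint
    refine RingAux.nrm_le_one_of_monic_root (q := p) (P.map (algebraMap (R0 p) Qbar)) (hP.map _)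
      (fun i => ?_) c ?_
    · rw [Polynomial.coeff_map]
      exact (P.coeff i).2.1
    · rw [Polynomial.eval_map]
      exact hroot

end Fermat.Agent.S56.F

end
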