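/-
S56 / F / Torsion : the TORSION LEMMA.   TASK S56/F-Torsion.

`h : Ord R Γ act H`, `R ⊂ A` (`hR`).  If `x ≠ 0`, `p x = 0` then some `f ∈ H` has
`|f x - f 0|^(p-1) ≥ |p|`  (i.e. `v(f x - f 0) ≤ 1/(p-1)`).

PROOF.  `N g := fun y => g (y + x) - g y = fwdDiff x g` (Mathlib `fwdDiff`, notation `Δ_[x]`).
Let `f₀` be as in `Ord.exists_max` for the points `x, 0`, `b := |f₀ x - f₀ 0| > 0` (by `sep`), `b ≤ 1`.
(1) for all `k`, all `f ∈ H`, all `y`: `|(N^k f) y| ≤ b^k`.  Induction on `k` (for all `f`):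
    `N f = ∑ (b_i x - b_i 0) • a_i` (from `comul`: `f (y+x) - f (y+0)`), `N^k` is additive and commutes
    with constants, so `(N^(k+1) f) y = (N^k (N f)) y = ∑ (b_i x - b_i 0) (N^k a_i) y`.
    (`fwdDiff_iter_add`, `fwdDiff_iter_const_smul`, `fwdDiff_iter_finset_sum` or a direct induction;
    `Function.iterate_succ_apply`.)
(2) `shift_eq_sum_fwdDiff_iter` : `f₀ (0 + p • x) = ∑ k ∈ range (p+1), p.choose k • (N^k f₀) 0`.
    The left side is `f₀ 0` = the term `k = 0`; the term `k = 1` is `p (f₀ x - f₀ 0)`; the terms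
    `2 ≤ k ≤ p-1` have norm `≤ |p| b^2` (`p ∣ choose p k`); the last one has norm `≤ b^p`.
    So `|p| b ≤ max (|p| b^2) (b^p)`.  If `b = 1` we are done (`|p| ≤ 1`); if `b < 1` then
    `|p| b^2 < |p| b`, hence `|p| b ≤ b^p`, i.e. `|p| ≤ b^(p-1)`.
-/
import Fermat.Agent.S56.F.Basic

set_option autoImplicit false

noncomputable section

namespace Fermat.Agent.S56.F

open Fermat.Agent.S55.Places

variable {p : ℕ} [Fact p.Prime] {R : Subring Qbar} {Γ : Subgroup GQ} {E : Type} [AddCommGroup E]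
  {act : GQ → E → E} {H : Subalgebra R (E → Qbar)}

/-- step (1). -/
theorem Ord.nrm_fwdDiff_iter_le (hR : ∀ r ∈ R, nrm p r ≤ 1) (h : Ord R Γ act H) {b : ℝ} {x : E}
    (hb : ∀ f ∈ H, nrm p (f x - f 0) ≤ b) (k : ℕ) :
    ∀ f ∈ H, ∀ y : E, nrm p ((fwdDiff x)^[k] f y) ≤ b ^ k := by
  have hb0 : 0 ≤ b := by
    have := hb 0 H.zero_mem
    simpa [nrm] using this
  induction k with
  | zero =>
    intro f hf y
    simpa using h.nrm_le_one hR hf y
  | succ k ih =>
    intro f hf y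
    obtain ⟨ι, _, a, b', ha, hb', hab⟩ := h.comul f hf
    have hN : fwdDiff x f = ∑ i, (b' i x - b' i 0) • a i := by
      funext u
      have h1 := hab u x
      have h2 := hab u 0
      rw [add_zero] at h2
      simp only [fwdDiff, Finset.sum_apply, Pi.smul_apply, smul_eq_mul]
      rw [h1, h2, ← Finset.sum_sub_distrib]
      refine Finset.sum_congr rfl fun i _ => ?_
      ring
    rw [Function.iterate_succ_apply, hN, fwdDiff_iter_finsetSum, Finset.sum_apply]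
    refine nrm_sum_le p _ _ _ (pow_nonneg hb0 _) fun i _ => ?_
    rw [fwdDiff_iter_const_smul, Pi.smul_apply, smul_eq_mul, nrm_mul, pow_succ, mul_comm]
    exact mul_le_mul (ih (a i) (ha i) y) (hb (b' i) (hb' i)) (nrm_nonneg p _) (pow_nonneg hb0 _)

/-- **torsion lemma**. -/
theorem Ord.torsion (hR : ∀ r ∈ R, nrm p r ≤ 1) (h : Ord R Γ act H) {x : E} (hx : x ≠ 0)
    (hpx : p • x = 0) : ∃ f ∈ H, (p : ℝ)⁻¹ ≤ nrm p (f x - f 0) ^ (p - 1) := by
  have hp : p.Prime := Fact.out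
  have hp2 : 2 ≤ p := hp.two_le
  have hpR : (0 : ℝ) < p := by exact_mod_cast hp.pos
  obtain ⟨f₀, hf₀, hmax⟩ := h.exists_max hR x 0
  refine ⟨f₀, hf₀, ?_⟩
  set b : ℝ := nrm p (f₀ x - f₀ 0) with hbdef
  have hbpos : 0 < b := by
    obtain ⟨g, hg, hgne⟩ := h.sep x 0 hx
    have : 0 < nrm p (g x - g 0) := (nrm_pos_iff p).mpr (sub_ne_zero.mpr hgne)
    exact this.trans_le (hmax g hg)
  have hb1 : b ≤ 1 :=
    (nrm_sub_le_max p _ _).trans (max_le (h.nrm_le_one hR hf₀ x) (h.nrm_le_one hR hf₀ 0))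
  have hit := h.nrm_fwdDiff_iter_le hR hmax
  have hsum := shift_eq_sum_fwdDiff_iter x f₀ p 0
  rw [hpx, add_zero, Finset.range_eq_Ico, Finset.sum_eq_sum_Ico_succ_bot (by omega),
    Finset.sum_eq_sum_Ico_succ_bot (by omega)] at hsum
  simp only [Nat.choose_zero_right, Function.iterate_zero, id_eq, one_smul, zero_add,
    Nat.choose_one_right, Function.iterate_one, fwdDiff, nsmul_eq_mul] at hsum
  have hkey : (p : Qbar) * (f₀ x - f₀ 0) =
      - ∑ k ∈ Finset.Ico 2 (p + 1), ((p.choose k : ℕ) : Qbar) * (fwdDiff x)^[k] f₀ 0 := by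
    have h1 : (1 + 1 : ℕ) = 2 := rfl
    rw [h1] at hsum
    linear_combination (-1 : Qbar) * hsum
  have hC : nrm p ((p : Qbar) * (f₀ x - f₀ 0)) ≤ max ((p : ℝ)⁻¹ * b ^ 2) (b ^ p) := by
    rw [hkey, nrm_neg]
    refine nrm_sum_le p _ _ _ (le_max_of_le_right (pow_nonneg hbpos.le _)) fun k hk => ?_
    rw [Finset.mem_Ico] at hk
    rw [nrm_mul]
    rcases Nat.lt_or_ge k p with hkp | hkp
    · refine le_max_of_le_left ?_
      obtain ⟨c, hc⟩ := hp.dvd_choose_self (by omega) hkp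
      have h1 : nrm p ((p.choose k : ℕ) : Qbar) ≤ (p : ℝ)⁻¹ := by
        rw [hc, Nat.cast_mul, nrm_mul, nrm_natCast_self]
        exact mul_le_of_le_one_right (inv_nonneg.mpr hpR.le) (nrm_natCast_le_one p c)
      have h2 : nrm p ((fwdDiff x)^[k] f₀ 0) ≤ b ^ 2 :=
        (hit k f₀ hf₀ 0).trans (pow_le_pow_of_le_one hbpos.le hb1 hk.1)
      exact mul_le_mul h1 h2 (nrm_nonneg p _) (inv_nonneg.mpr hpR.le)
    · refine le_max_of_le_right ?_
      have hkp' : k = p := by omega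
      rw [hkp', Nat.choose_self, Nat.cast_one]
      have : nrm p (1 : Qbar) = 1 := by simp [nrm]
      rw [this, one_mul]
      exact hit p f₀ hf₀ 0
  rw [nrm_mul, nrm_natCast_self, ← hbdef] at hC
  rcases le_max_iff.mp hC with h1 | h1
  · -- `b ≤ b²`, so `b = 1`
    have h2 : b ≤ b ^ 2 := by
      have := mul_le_mul_of_nonneg_left h1 hpR.le
      rwa [← mul_assoc, ← mul_assoc, mul_inv_cancel₀ hpR.ne', one_mul, one_mul] at this
    have h3 : 1 ≤ b := by
      rw [sq] at h2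
      by_contra hlt
      push Not at hlt
      nlinarith
    have h4 : b = 1 := le_antisymm hb1 h3
    rw [h4, one_pow]
    exact inv_le_one_of_one_le₀ (by exact_mod_cast hp.one_le)
  · have h2 : b ^ p = b ^ (p - 1) * b := by
      rw [← pow_succ]; congr 1; omega
    rw [h2] at h1
    exact le_of_mul_le_mul_right h1 hbpos

/-- **torsion lemma, translated**: from `torsion`, `exists_max` and `nrm_le_of_translate`. -/
theorem Ord.torsion' (hR : ∀ r ∈ R, nrm p r ≤ 1) (h : Ord R Γ act H) (x : E) {y : E} (hy : y ≠ 0)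
    (hpy : p • y = 0) : ∃ f ∈ H, (p : ℝ)⁻¹ ≤ nrm p (f (x + y) - f x) ^ (p - 1) := by
  obtain ⟨f, hf, hfle⟩ := h.torsion hR hy hpy
  obtain ⟨f₁, hf₁, hmax⟩ := h.exists_max hR (x + y) x
  refine ⟨f₁, hf₁, hfle.trans ?_⟩
  exact pow_le_pow_left₀ (nrm_nonneg p _) (h.nrm_le_of_translate hR hmax f hf) _

end Fermat.Agent.S56.F

end
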