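/-
S56 / F / Closure : sub-orders and quotient orders, over an arbitrary base `(R, Γ)`.
TASKS S56/F-Sub (of_injective, finite), S56/F-Denom (exists_basis, exists_smul_mem, mem_of_span),
S56/F-Quot (of_surjective).

These are PORTS of helper68's / helper40's sorry-free files for `(ℤ_(ℓ), GQ)`:
  `S19/A/Closure/Inj.lean`   (of_injective: copy verbatim)
  `S19/A/Closure/Basic.lean` (finite)
  `S19/A/Closure/Denom.lean` (exists_smul_mem), `S19/A/OfOrder.lean` (`FlatOrder.exists_basis`)
  `S19/A/Closure/Quot.lean`, `QuotAux.lean`, `Half.lean` (of_surjective)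
The generic lemmas `S19.A.exists_basis_of_order`, `linearIndependent_of_equivariant`,
`coeff_fixed_of_equivariant`, `span_eq_top_of_separates`, `exists_rewrite_basis`, `exists_factor`,
`pullHom` are stated for arbitrary `(R, Ω, T, s, a)`: use them with `T := ↥Γ`,
`s σ := ((σ : GQ) : Qbar →+* Qbar)`, `a σ := act σ`, surjectivity from `Ord.act_surjective`,
`hfix` from `IsBase.frac`, PID instance `haveI := hB.pid`.
-/
import Fermat.Agent.S56.F.Basic
import Fermat.Agent.S19.A.Closure.Quot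

set_option autoImplicit false

noncomputable section

namespace Fermat.Agent.S56.F

open Fermat.Agent.S55.Places

variable {R : Subring Qbar} {Γ : Subgroup GQ} {E : Type} [AddCommGroup E]
  {act : GQ → E → E} {H : Subalgebra R (E → Qbar)}

/-! ### TASK S56/F-Sub -/

/-- `E` is finite (port of `S19.A.FlatOrder.finite`). -/
theorem Ord.finite (h : Ord R Γ act H) : Finite E := by
  classical
  obtain ⟨n, g, hg⟩ := Submodule.fg_iff_exists_fin_generating_family.1 h.fg
  have hmem : ∀ i, g i ∈ H := by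
    intro i
    have : g i ∈ Submodule.span R (Set.range g) := Submodule.subset_span ⟨i, rfl⟩
    rw [hg] at this
    exact this
  have hint : ∀ i, IsIntegral R (g i) := fun i => IsIntegral.of_mem_of_fg H h.fg _ (hmem i)
  have hsep : ∀ x y, (∀ i, g i x = g i y) → x = y := by
    intro x y hxy
    apply h.ext_point
    intro f hf
    have hf' : f ∈ Submodule.span R (Set.range g) := by rw [hg]; exact hf
    clear hf
    induction hf' using Submodule.span_induction with
    | mem f hf => obtain ⟨i, rfl⟩ := hf; exact hxy i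
    | zero => rfl
    | add f g _ _ hf hg => simp only [Pi.add_apply, hf, hg]
    | smul a f _ hf => simp only [Pi.smul_apply, hf]
  choose P hPm hP using hint
  have hroot : ∀ i x, g i x ∈ ((P i).map (algebraMap R Qbar)).roots.toFinset := by
    intro i x
    rw [Multiset.mem_toFinset, Polynomial.mem_roots ((hPm i).map _).ne_zero,
      Polynomial.IsRoot.def, Polynomial.eval_map]
    have := congrArg (Pi.evalAlgHom R (fun _ : E => Qbar) x) (hP i)
    rw [← Polynomial.aeval_def, ← Polynomial.aeval_algHom_apply] at this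
    simpa [Polynomial.aeval_def] using this
  let F : E → (∀ i : Fin n, ((P i).map (algebraMap R Qbar)).roots.toFinset) :=
    fun x i => ⟨g i x, hroot i x⟩
  apply Finite.of_injective F
  intro x y hxy
  apply hsep
  intro i
  exact congrArg Subtype.val (congrFun hxy i)

/-- **sub-order**: restriction of functions along an injective equivariant homomorphism. -/
theorem Ord.of_injective (h : Ord R Γ act H) {P : Type} [AddCommGroup P] {actP : GQ → P → P}
    (j : P →+ E) (hj : Function.Injective j) (hequiv : ∀ σ ∈ Γ, ∀ x, j (actP σ x) = act σ (j x)) :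
    Ord R Γ actP (H.map (S19.A.pullHom R j)) := by
  refine ⟨?_, ?_, ?_, ?_⟩
  · rintro _ ⟨f, hf, rfl⟩ σ hσ x
    show f (j (actP σ x)) = σ (f (j x))
    rw [hequiv σ hσ]
    exact h.equiv f hf σ hσ (j x)
  · rw [Subalgebra.map_toSubmodule]
    exact h.fg.map _
  · intro x y hxy
    obtain ⟨f, hf, hne⟩ := h.sep (j x) (j y) (fun e => hxy (hj e))
    exact ⟨S19.A.pullHom R j f, ⟨f, hf, rfl⟩, hne⟩
  · rintro _ ⟨f, hf, rfl⟩
    obtain ⟨ι, hι, a, b, ha, hb, hab⟩ := h.comul f hf
    refine ⟨ι, hι, fun i => S19.A.pullHom R j (a i), fun i => S19.A.pullHom R j (b i),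
      fun i => ⟨a i, ha i, rfl⟩, fun i => ⟨b i, hb i, rfl⟩, fun x y => ?_⟩
    show f (j (x + y)) = ∑ i, a i (j x) * b i (j y)
    rw [map_add]
    exact hab (j x) (j y)

theorem mem_map_pullHom {P : Type} (j : P → E) (g : P → Qbar) :
    g ∈ H.map (S19.A.pullHom R j) ↔ ∃ f ∈ H, ∀ x, g x = f (j x) := by
  rw [Subalgebra.mem_map]
  constructor
  · rintro ⟨f, hf, rfl⟩
    exact ⟨f, hf, fun _ => rfl⟩
  · rintro ⟨f, hf, hfg⟩
    exact ⟨f, hf, funext fun x => (hfg x).symm⟩

/-! ### TASK S56/F-Denom -/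

/-- an `R`-basis of `H` which is a `Qbar`-basis of all functions. -/
theorem Ord.exists_basis (hB : IsBase R Γ) (h : Ord R Γ act H) :
    ∃ (ι : Type) (_ : Fintype ι) (b : Module.Basis ι R H),
      LinearIndependent Qbar (fun i => (b i : E → Qbar)) ∧
        Submodule.span Qbar (Set.range fun i => (b i : E → Qbar)) = ⊤ := by
  haveI := hB.pid
  haveI := h.finite
  refine S19.A.exists_basis_of_order (R := R) (Ω := Qbar) (X := E) (T := Γ)
    (fun x y hxy => Subtype.ext hxy) (fun σ : Γ => (((σ : GQ) : Qbar ≃ₐ[ℚ] Qbar) : Qbar →+* Qbar))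
    (fun σ : Γ => act (σ : GQ)) (fun σ => h.act_surjective σ.2) ?_ H h.fg
    (fun f hf σ x => h.equiv f hf σ σ.2 x) h.sep
  intro c hc
  obtain ⟨d, hd, hd0, hdc⟩ := hB.frac c (fun σ hσ => hc ⟨σ, hσ⟩)
  exact ⟨⟨d, hd⟩, ⟨d * c, hdc⟩, hd0, rfl⟩

/-- every `Γ`-equivariant function lies in `H` up to a denominator. -/
theorem Ord.exists_smul_mem (hB : IsBase R Γ) (h : Ord R Γ act H) (g : E → Qbar)
    (hg : ∀ σ ∈ Γ, ∀ x : E, g (act σ x) = σ (g x)) : ∃ d : R, d ≠ 0 ∧ d • g ∈ H := by
  classical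
  obtain ⟨ι, _, b, hli, hspan⟩ := h.exists_basis hB
  have hgs : g ∈ Submodule.span Qbar (Set.range fun i => (b i : E → Qbar)) := by
    rw [hspan]; trivial
  obtain ⟨c, hc⟩ := (Submodule.mem_span_range_iff_exists_fun Qbar).mp hgs
  have hfix : ∀ (σ : Γ) (i : ι), (σ : GQ) (c i) = c i :=
    S19.A.coeff_fixed_of_equivariant
      (fun σ : Γ => (((σ : GQ) : Qbar ≃ₐ[ℚ] Qbar) : Qbar →+* Qbar)) (fun σ : Γ => act (σ : GQ))
      (fun σ => h.act_surjective σ.2)
      (fun i => (b i : E → Qbar)) (fun i σ x => h.equiv _ (b i).2 σ σ.2 x) hli g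
      (fun σ x => hg σ σ.2 x) c hc.symm
  have hfr : ∀ i, ∃ d r : R, d ≠ 0 ∧ (d : Qbar) * c i = (r : Qbar) := by
    intro i
    obtain ⟨d, hd, hd0, hdc⟩ := hB.frac (c i) (fun σ hσ => hfix ⟨σ, hσ⟩ i)
    exact ⟨⟨d, hd⟩, ⟨d * c i, hdc⟩, fun h0 => hd0 (congrArg Subtype.val h0), rfl⟩
  choose d r hd hdr using hfr
  refine ⟨∏ i, d i, ?_, ?_⟩
  · rw [Finset.prod_ne_zero_iff]
    intro i _
    exact hd i
  · have h1 : (∏ i, d i) • g
        = ∑ i, ((∏ j ∈ Finset.univ.erase i, d j) * r i) • (b i : E → Qbar) := by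
      rw [← hc, Finset.smul_sum]
      refine Finset.sum_congr rfl fun i _ => ?_
      funext x
      rw [← Finset.mul_prod_erase Finset.univ d (Finset.mem_univ i)]
      show ((d i * ∏ j ∈ Finset.univ.erase i, d j : R) : Qbar) * (c i * (b i : E → Qbar) x)
        = (((∏ j ∈ Finset.univ.erase i, d j) * r i : R) : Qbar) * (b i : E → Qbar) x
      rw [Subring.coe_mul, Subring.coe_mul, ← hdr i]
      ring
    rw [h1]
    exact Subalgebra.sum_mem _ fun i _ => H.smul_mem (b i).2 _

/-- **descent**: a `Γ`-equivariant function which is a combination of elements of `H` with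
coefficients integral over `R` lies in `H`.
(Expand the `a i` in the basis `b`: `g = ∑ c'_j b_j` with `c'_j` integral over `R`
(`IsIntegral.sum`, `IsIntegral.mul`, `isIntegral_algebraMap`); `coeff_fixed_of_equivariant` shows that
the `c'_j` are `Γ`-fixed; `hB.closed`.) -/
theorem Ord.mem_of_span (hB : IsBase R Γ) (h : Ord R Γ act H) (g : E → Qbar)
    (hg : ∀ σ ∈ Γ, ∀ x : E, g (act σ x) = σ (g x)) {ι : Type} [Fintype ι] (c : ι → Qbar)
    (a : ι → E → Qbar) (hc : ∀ i, IsIntegral R (c i)) (ha : ∀ i, a i ∈ H)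
    (hga : ∀ x, g x = ∑ i, c i * a i x) : g ∈ H := by
  classical
  obtain ⟨κ, _, b, hli, -⟩ := h.exists_basis hB
  -- expansion of the `a i`
  have hexp : ∀ i x, a i x = ∑ j, ((b.repr ⟨a i, ha i⟩ j : R) : Qbar) * (b j : E → Qbar) x := by
    intro i x
    have h1 := b.sum_repr ⟨a i, ha i⟩
    have h4 := congrArg (fun u : H => (u : E → Qbar) x) h1
    simp only at h4
    rw [← h4]
    have h5 : ((∑ j, b.repr ⟨a i, ha i⟩ j • b j : H) : E → Qbar)
        = ∑ j, (b.repr ⟨a i, ha i⟩ j) • (b j : E → Qbar) := by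
      have := map_sum (Subalgebra.val H) (fun j => b.repr ⟨a i, ha i⟩ j • b j) Finset.univ
      exact this
    rw [h5, Finset.sum_apply]
    rfl
  let c' : κ → Qbar := fun j => ∑ i, c i * ((b.repr ⟨a i, ha i⟩ j : R) : Qbar)
  have hint : ∀ j, IsIntegral R (c' j) := by
    intro j
    refine IsIntegral.sum _ fun i _ => (hc i).mul ?_
    exact isIntegral_algebraMap (R := R) (A := Qbar) (x := b.repr ⟨a i, ha i⟩ j)
  have hg' : g = ∑ j, c' j • (b j : E → Qbar) := by
    funext x
    rw [hga x, Finset.sum_apply]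
    simp only [Pi.smul_apply, smul_eq_mul, c', Finset.sum_mul]
    rw [Finset.sum_comm]
    refine Finset.sum_congr rfl fun i _ => ?_
    rw [hexp i x, Finset.mul_sum]
    refine Finset.sum_congr rfl fun j _ => ?_
    ring
  have hfix : ∀ (σ : Γ) (j : κ), (σ : GQ) (c' j) = c' j :=
    S19.A.coeff_fixed_of_equivariant
      (fun σ : Γ => (((σ : GQ) : Qbar ≃ₐ[ℚ] Qbar) : Qbar →+* Qbar)) (fun σ : Γ => act (σ : GQ))
      (fun σ => h.act_surjective σ.2)
      (fun i => (b i : E → Qbar)) (fun i σ x => h.equiv _ (b i).2 σ σ.2 x) hli g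
      (fun σ x => hg σ σ.2 x) c' hg'
  have hmem : ∀ j, c' j ∈ R := fun j => hB.closed (c' j) (fun σ hσ => hfix ⟨σ, hσ⟩ j) (hint j)
  have hg'' : g = ∑ j, (⟨c' j, hmem j⟩ : R) • (b j : E → Qbar) := by
    rw [hg']
    rfl
  rw [hg'']
  exact Subalgebra.sum_mem _ fun j _ => H.smul_mem (b j).2 _

/-! ### TASK S56/F-Quot -/

/-- `Γ`-equivariant functions separate the points of an equivariant quotient.
PROOF.  `Tr f (w) := ∑ x with q x = w, f x` (`E` finite).  It is `Γ`-equivariant on `W`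
(`x ↦ act σ x` is a bijection of the fibre of `w` onto the fibre of `actW σ w`).  If `Tr f w = Tr f w'`
for all `f ∈ H`, the same holds for all `f` in the `Qbar`-span of `H`, which is everything
(`S19.A.span_eq_top_of_separates`); the indicator function of the fibre of `w` gives
`(card fibre : Qbar) = 0`, absurd. -/
theorem Ord.exists_equivariant_separating (h : Ord R Γ act H) {W : Type} [AddCommGroup W]
    {actW : GQ → W → W} (q : E →+ W) (hq : Function.Surjective q)
    (hequiv : ∀ σ ∈ Γ, ∀ x, q (act σ x) = actW σ (q x)) {w w' : W} (hne : w ≠ w') :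
    ∃ g : W → Qbar, (∀ σ ∈ Γ, ∀ z : W, g (actW σ z) = σ (g z)) ∧ g w ≠ g w' := by
  classical
  haveI : Finite E := h.finite
  haveI : Fintype E := Fintype.ofFinite E
  let Tr : (E → Qbar) → W → Qbar := fun f z => ∑ x : E, if q x = z then f x else 0
  have hinvW : ∀ σ ∈ Γ, ∀ z, actW σ⁻¹ (actW σ z) = z := by
    intro σ hσ z
    obtain ⟨x, rfl⟩ := hq z
    rw [← hequiv σ hσ, ← hequiv σ⁻¹ (inv_mem hσ), h.act_inv_act hσ]
  have hTr : ∀ f ∈ H, ∀ σ ∈ Γ, ∀ z, Tr f (actW σ z) = σ (Tr f z) := by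
    intro f hf σ hσ z
    show (∑ x : E, if q x = actW σ z then f x else 0) = σ (∑ x : E, if q x = z then f x else 0)
    rw [map_sum]
    let e : E ≃ E := Equiv.ofBijective (act σ) ⟨h.act_injective hσ, h.act_surjective hσ⟩
    rw [← Equiv.sum_comp e]
    refine Finset.sum_congr rfl fun x _ => ?_
    show (if q (act σ x) = actW σ z then f (act σ x) else 0) = σ (if q x = z then f x else 0)
    rw [hequiv σ hσ, h.equiv f hf σ hσ]
    by_cases hx : q x = z
    · rw [if_pos hx, if_pos (by rw [hx])]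
    · rw [if_neg hx, if_neg, map_zero]
      intro h'
      apply hx
      rw [← hinvW σ hσ (q x), h', hinvW σ hσ]
  by_contra hcon
  push Not at hcon
  have hall : ∀ f ∈ H, Tr f w = Tr f w' := fun f hf => hcon (Tr f) (hTr f hf)
  let L : (E → Qbar) →ₗ[Qbar] Qbar :=
    ∑ x : E, ((if q x = w then (1 : Qbar) else 0) - (if q x = w' then (1 : Qbar) else 0)) •
      (LinearMap.proj x : (E → Qbar) →ₗ[Qbar] Qbar)
  have hL : ∀ f, L f = Tr f w - Tr f w' := by
    intro f
    show (∑ x : E, ((if q x = w then (1 : Qbar) else 0) - (if q x = w' then (1 : Qbar) else 0)) •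
      (LinearMap.proj x : (E → Qbar) →ₗ[Qbar] Qbar)) f
      = (∑ x : E, if q x = w then f x else 0) - (∑ x : E, if q x = w' then f x else 0)
    rw [LinearMap.sum_apply, ← Finset.sum_sub_distrib]
    refine Finset.sum_congr rfl fun x _ => ?_
    rw [LinearMap.smul_apply, LinearMap.proj_apply, smul_eq_mul, sub_mul, ite_mul, ite_mul,
      one_mul, zero_mul]
  have hspan : Submodule.span Qbar (H : Set (E → Qbar)) = ⊤ :=
    S19.A.span_eq_top_of_separates _ H.one_mem (fun f hf g hg => H.mul_mem hf hg) h.sep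
  have hker : (⊤ : Submodule Qbar (E → Qbar)) ≤ LinearMap.ker L := by
    rw [← hspan, Submodule.span_le]
    intro f hf
    rw [SetLike.mem_coe, LinearMap.mem_ker, hL, hall f hf, sub_self]
  obtain ⟨x₀, hx₀⟩ := hq w
  have h0 : L (Pi.single x₀ (1 : Qbar)) = 0 := LinearMap.mem_ker.1 (hker Submodule.mem_top)
  have h1 : L (Pi.single x₀ (1 : Qbar)) = 1 := by
    show (∑ x : E, ((if q x = w then (1 : Qbar) else 0) - (if q x = w' then (1 : Qbar) else 0)) •
      (LinearMap.proj x : (E → Qbar) →ₗ[Qbar] Qbar)) (Pi.single x₀ (1 : Qbar)) = 1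
    rw [LinearMap.sum_apply, Finset.sum_eq_single x₀]
    · rw [LinearMap.smul_apply, LinearMap.proj_apply, Pi.single_eq_same, hx₀, if_pos rfl,
        if_neg hne, sub_zero, smul_eq_mul, one_mul]
    · intro x _ hx
      rw [LinearMap.smul_apply, LinearMap.proj_apply, Pi.single_eq_of_ne hx, smul_zero]
    · intro hx
      exact absurd (Finset.mem_univ _) hx
  rw [h1] at h0
  exact one_ne_zero h0

/-- **quotient order**: the functions of `H` which factor through an equivariant surjection. -/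
theorem Ord.of_surjective (hB : IsBase R Γ) (h : Ord R Γ act H) {W : Type} [AddCommGroup W]
    {actW : GQ → W → W} (q : E →+ W) (hq : Function.Surjective q)
    (hequiv : ∀ σ ∈ Γ, ∀ x, q (act σ x) = actW σ (q x)) :
    Ord R Γ actW (H.comap (S19.A.pullHom R q)) := by
  classical
  haveI := hB.pid
  haveI : Finite E := h.finite
  haveI : Finite W := Finite.of_surjective q hq
  have hinj0 : Function.Injective (algebraMap R Qbar) := Subtype.val_injective
  set HW : Subalgebra R (W → Qbar) := H.comap (S19.A.pullHom R q) with hHW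
  have hmem : ∀ f : W → Qbar, f ∈ HW ↔ (fun x => f (q x)) ∈ H := fun f => Iff.rfl
  have hEquiv : ∀ f ∈ HW, ∀ σ ∈ Γ, ∀ w : W, f (actW σ w) = σ (f w) := by
    intro f hf σ hσ w
    obtain ⟨x, rfl⟩ := hq w
    rw [← hequiv σ hσ]
    exact h.equiv _ hf σ hσ x
  have hFg : (Subalgebra.toSubmodule HW).FG := by
    have hN : IsNoetherian R (Subalgebra.toSubmodule H) :=
      isNoetherian_of_fg_of_noetherian _ h.fg
    have hinj : Function.Injective (S19.A.pullHom R q).toLinearMap := by
      intro f g hfg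
      funext w
      obtain ⟨x, rfl⟩ := hq w
      exact congrFun hfg x
    refine Submodule.fg_of_fg_map_injective (S19.A.pullHom R q).toLinearMap hinj ?_
    refine isNoetherian_submodule.1 hN _ ?_
    rintro _ ⟨f, hf, rfl⟩
    exact hf
  have hSep : ∀ w w' : W, w ≠ w' → ∃ f ∈ HW, f w ≠ f w' := by
    intro w w' hne
    obtain ⟨g, hg, hgne⟩ := h.exists_equivariant_separating q hq hequiv hne
    obtain ⟨d, hd, hdm⟩ := h.exists_smul_mem hB (fun x => g (q x))
      (fun σ hσ x => by rw [hequiv σ hσ, hg σ hσ])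
    refine ⟨d • g, hdm, ?_⟩
    intro heq
    apply hgne
    have h1 : (d : Qbar) * g w = (d : Qbar) * g w' := heq
    have h2 : (d : Qbar) ≠ 0 := fun h0 => hd (Subtype.ext h0)
    exact mul_left_cancel₀ h2 h1
  have hsurjW : ∀ σ ∈ Γ, Function.Surjective (actW σ) := by
    intro σ hσ w
    obtain ⟨x, rfl⟩ := hq w
    obtain ⟨y, rfl⟩ := h.act_surjective hσ x
    exact ⟨q y, (hequiv σ hσ y).symm⟩
  refine ⟨hEquiv, hFg, hSep, ?_⟩
  -- comultiplication
  intro f hf
  obtain ⟨ι, _, a, b, ha, hb, hab⟩ := h.comul _ ((hmem f).1 hf)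
  obtain ⟨κ, _, β, hβli, -⟩ := h.exists_basis hB
  obtain ⟨a', ha', hF, hinv⟩ := S19.A.exists_rewrite_basis (Subalgebra.toSubmodule H)
    (Subalgebra.toSubmodule H) (β.map (Subalgebra.toSubmoduleEquiv H).symm) hβli
    (fun x y => f (q (x + y))) a b ha hb hab
  have hfac : ∀ k, ∃ g : W → Qbar, ∀ x, g (q x) = a' k x := by
    intro k
    refine S19.A.exists_factor q hq (a' k) (fun x x' hxx => hinv x x' (fun y => ?_) k)
    show f (q (x + y)) = f (q (x' + y))
    rw [map_add, map_add, hxx]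
  choose α hα using hfac
  have hαm : ∀ k, α k ∈ HW := by
    intro k
    rw [hmem]
    have : (fun x => α k (q x)) = a' k := funext (hα k)
    rw [this]
    exact ha' k
  obtain ⟨κ', _, u, huli, -⟩ := S19.A.exists_basis_of_order hinj0
    (fun σ : Γ => (((σ : GQ) : Qbar ≃ₐ[ℚ] Qbar) : Qbar →+* Qbar)) (fun σ : Γ => actW (σ : GQ))
    (fun σ => hsurjW σ σ.2)
    (fun c hc => by
      obtain ⟨d, hd, hd0, hdc⟩ := hB.frac c (fun σ hσ => hc ⟨σ, hσ⟩)
      exact ⟨⟨d, hd⟩, ⟨d * c, hdc⟩, hd0, rfl⟩)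
    HW hFg (fun f hf σ x => hEquiv f hf σ σ.2 x) hSep
  obtain ⟨γ, hγ, hF2, hinv2⟩ := S19.A.exists_rewrite_basis (Subalgebra.toSubmodule H)
    (Subalgebra.toSubmodule HW) (u.map (Subalgebra.toSubmoduleEquiv HW).symm) huli
    (fun y w => f (w + q y)) (fun k => (β k : E → Qbar)) α (fun k => (β k).2) hαm (by
      intro y w
      obtain ⟨x, rfl⟩ := hq w
      have := hF x y
      show f (q x + q y) = _
      rw [← map_add, this]
      refine Finset.sum_congr rfl (fun k _ => ?_)
      rw [hα, mul_comm]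
      rfl)
  have hfac2 : ∀ m, ∃ g : W → Qbar, ∀ y, g (q y) = γ m y := by
    intro m
    refine S19.A.exists_factor q hq (γ m) (fun y y' hyy => hinv2 y y' (fun w => ?_) m)
    show f (w + q y) = f (w + q y')
    rw [hyy]
  choose δ hδ using hfac2
  have hδm : ∀ m, δ m ∈ HW := by
    intro m
    rw [hmem]
    have : (fun x => δ m (q x)) = γ m := funext (hδ m)
    rw [this]
    exact hγ m
  refine ⟨κ', inferInstance, fun m => (u m : W → Qbar), δ, fun m => (u m).2, hδm, ?_⟩
  intro w w'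
  obtain ⟨y, rfl⟩ := hq w'
  have := hF2 y w
  rw [this]
  refine Finset.sum_congr rfl (fun m _ => ?_)
  rw [hδ, mul_comm]
  rfl

theorem mem_comap_pullHom {W : Type} (q : E → W) (g : W → Qbar) :
    g ∈ H.comap (S19.A.pullHom R q) ↔ (fun x => g (q x)) ∈ H := Iff.rfl

end Fermat.Agent.S56.F

end
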