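/-
S56 / F / OfFlat : from the Prelude's `IsFlatAt` to orders over `R0 p`.
TASKS S56/F-OfFlat (Ord.of_flatOrder), S56/F-Dict (exists_flatOrder_defAct).
-/
import Fermat.Agent.S56.F.R0
import Fermat.Agent.S56.F.Closure
import Fermat.Agent.S19.A.ToOrder
import Fermat.Agent.S19.A.Closure.Adjoin
import Fermat.Agent.S19.A.Closure.Inj

set_option autoImplicit false

noncomputable section

namespace Fermat.Agent.S56.F

open Fermat.Agent.S55.Places

variable {p : ℕ} [Fact p.Prime]

/-- elements of `ℤ_(p)` lie in `R0 p`. -/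
theorem OfFlat_algebraMap_mem_R0 (r : S19.A.Zl p) : algebraMap ℚ Qbar (r : ℚ) ∈ R0 p := by
  refine ⟨?_, fun σ _ => σ.commutes _⟩
  have hr : (r : ℚ).den.Coprime p := r.2
  have h1 : algebraMap ℚ Qbar (r : ℚ) = ((r : ℚ).num : Qbar) / ((r : ℚ).den : Qbar) := by
    conv_lhs => rw [← Rat.num_div_den (r : ℚ)]
    simp
  rw [h1, nrm_div, nrm_natCast_eq_one p hr, div_one]
  exact nrm_intCast_le_one p _

/-- **base change** `ℤ_(p) → R0 p`, `GQ → I_p`.   TASK S56/F-OfFlat.
`H' := Algebra.adjoin (R0 p) (H : Set (E → Qbar))`.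
* `comul`: `S19.A.comulClosed_adjoin` (elements of `H` have `a i, b i ∈ H ⊂ adjoin`).
* `equiv`: `Algebra.adjoin_induction` (constants `r ∈ R0 p` are fixed by `σ ∈ Iq p`).
* `sep`: `H ⊂ H'`.
* `fg`: if `g_1..g_n` span `H` over `ℤ_(p)` they span `H'` over `R0 p`: the `R0`-span `S` of `H` is closed
  under multiplication and contains `1`, so `adjoin ≤ S` (`Algebra.adjoin_induction` or
  `Algebra.adjoin_eq_span` + `Submonoid.closure_eq` for the submonoid `H`), and
  `ℤ_(p)`-combinations are `R0`-combinations: `algebraMap (Zl p) Qbar r ∈ R0 p` (a rational number with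
  denominator prime to `p` has `nrm ≤ 1`: `nrm_algebraMap`, `padicNorm.le_one_iff`-type lemma or
  integrality; it is fixed by every `σ`: `AlgEquiv.commutes`). -/
theorem Ord.of_flatOrder {E : Type} [AddCommGroup E] {act : GQ → E → E}
    {H : Subalgebra (S19.A.Zl p) (E → Qbar)} (h : S19.A.FlatOrder p act H) :
    ∃ H' : Subalgebra (R0 p) (E → Qbar), Ord (R0 p) (Iq p) act H' := by
  refine ⟨Algebra.adjoin (R0 p) (H : Set (E → Qbar)), ?_, ?_, ?_, ?_⟩
  · intro f hf σ hσ x
    induction hf using Algebra.adjoin_induction with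
    | mem f hf => exact h.equiv f hf σ x
    | algebraMap r => exact (r.2.2 σ hσ).symm
    | add f g _ _ ihf ihg => rw [Pi.add_apply, Pi.add_apply, map_add, ihf, ihg]
    | mul f g _ _ ihf ihg => rw [Pi.mul_apply, Pi.mul_apply, map_mul, ihf, ihg]
  · obtain ⟨s, hs⟩ := h.fg
    refine ⟨s, ?_⟩
    rw [Algebra.adjoin_eq_span]
    have hcl : (Submonoid.closure (H : Set (E → Qbar)) : Set (E → Qbar)) = H :=
      congrArg (fun S : Submonoid (E → Qbar) => (S : Set (E → Qbar)))
        (Submonoid.closure_eq H.toSubmonoid)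
    rw [hcl]
    apply le_antisymm
    · apply Submodule.span_mono
      intro f hf
      have h1 : f ∈ Submodule.span (S19.A.Zl p) (s : Set (E → Qbar)) := Submodule.subset_span hf
      rw [hs] at h1
      exact h1
    · rw [Submodule.span_le]
      have key : ∀ f ∈ Submodule.span (S19.A.Zl p) (s : Set (E → Qbar)),
          f ∈ Submodule.span (R0 p) (s : Set (E → Qbar)) := by
        intro f hf
        induction hf using Submodule.span_induction with
        | mem f hf => exact Submodule.subset_span hf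
        | zero => exact zero_mem _
        | add f g _ _ ihf ihg => exact add_mem ihf ihg
        | smul r f _ ihf =>
          have h1 : r • f = (⟨algebraMap ℚ Qbar (r : ℚ), OfFlat_algebraMap_mem_R0 r⟩ : R0 p) • f := by
            funext x
            rw [Pi.smul_apply, Pi.smul_apply, Subring.smul_def, smul_eq_mul, Algebra.smul_def]
            rfl
          rw [h1]
          exact Submodule.smul_mem _ _ ihf
      intro f hf
      apply key
      rw [hs]
      exact hf
  · intro x y hxy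
    obtain ⟨f, hf, hne⟩ := h.sep x y hxy
    exact ⟨f, Algebra.subset_adjoin hf, hne⟩
  · apply S19.A.comulClosed_adjoin
    intro f hf
    obtain ⟨ι, hι, a, b, ha, hb, hab⟩ := h.comul f hf
    exact ⟨ι, hι, a, b, fun i => Algebra.subset_adjoin (ha i),
      fun i => Algebra.subset_adjoin (hb i), hab⟩

variable {k : Type} [Field k] [Finite k]

/-- `(v, w) ↦ v + ε w`, coordinatewise. -/
def OfFlat_c (k : Type) [Field k] : EE k →+ (Fin 2 → DualNumber k) where
  toFun vw := fun i => TrivSqZeroExt.inl (vw.1 i) + TrivSqZeroExt.inr (vw.2 i)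
  map_zero' := by
    funext i
    simp
  map_add' a b := by
    funext i
    simp only [Prod.fst_add, Prod.snd_add, Pi.add_apply, TrivSqZeroExt.inl_add,
      TrivSqZeroExt.inr_add]
    abel

omit [Finite k] in
theorem OfFlat_c_apply (vw : EE k) (i : Fin 2) :
    OfFlat_c k vw i = TrivSqZeroExt.inl (vw.1 i) + TrivSqZeroExt.inr (vw.2 i) := rfl

omit [Finite k] in
theorem OfFlat_c_injective : Function.Injective (OfFlat_c k) := by
  intro a b h
  apply Prod.ext
  · funext i
    have := congrArg TrivSqZeroExt.fst (congrFun h i)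
    simpa [OfFlat_c_apply] using this
  · funext i
    have := congrArg TrivSqZeroExt.snd (congrFun h i)
    simpa [OfFlat_c_apply] using this

omit [Finite k] in
/-- the matrix `inl M + inr (z M)` acts on `v + ε w` by `defAct`. -/
theorem OfFlat_mulVec (M : GQ →* M2 k) (z : GQ → M2 k) (σ : GQ) (A : M2 (DualNumber k))
    (hA : ∀ i j, A i j = TrivSqZeroExt.inl (M σ i j) + TrivSqZeroExt.inr ((z σ * M σ) i j))
    (vw : EE k) : A.mulVec (OfFlat_c k vw) = OfFlat_c k (defAct M z σ vw) := by
  funext i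
  simp only [Matrix.mulVec, dotProduct, Fin.sum_univ_two, hA, OfFlat_c_apply, defAct, Pi.add_apply]
  apply TrivSqZeroExt.ext
  · simp
  · simp
    ring

/-- **dictionary**.   TASK S56/F-Dict.
`hfl.2 ⊥ _` (`DualNumber k ⧸ ⊥` is finite) is, by definition, `S19.A.HasFlatModel p (ρ'.V ⧸ (⊥ • ⊤))
(fun σ => ρ'.levelAction ⊥ σ)`; `S19.A.HasFlatModel.exists_flatOrder`; transport with
`S19.A.FlatOrder.of_injective` along
`j : EE k →+ ρ'.V ⧸ (⊥ • ⊤)`, `j (v, w) = mk (∑ i, (inl (v i) + inr (w i)) • b i)`, `b` the basis of `hz`.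
Injective: `⊥ • ⊤ = ⊥` and `b` is a basis (`TrivSqZeroExt.ext`).  Equivariant: `hz` says that the matrix
of `ρ'.ρ σ` in `b` is `inl (M σ) + inr (z σ * M σ)`; `(inl a + inr a') * (inl v + inr w) =
inl (a v) + inr (a w + a' v)`; `LinearMap.toMatrix_mulVec_repr` / `S53.adicMat_apply`. -/
theorem exists_flatOrder_defAct (M : GQ →* M2 k) (ρ' : GaloisRepAdic (DualNumber k))
    (z : GQ → M2 k) (hz : IsClassOf M ρ' z) (hfl : ρ'.IsFlatAt p) :
    ∃ H : Subalgebra (S19.A.Zl p) (EE k → Qbar), S19.A.FlatOrder p (defAct M z) H := by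
  obtain ⟨b, hb⟩ := hz
  have hfinD : Finite (DualNumber k) := inferInstanceAs (Finite (k × k))
  have hfin : Finite (DualNumber k ⧸ (⊥ : Ideal (DualNumber k))) :=
    Finite.of_surjective (Ideal.Quotient.mk _) Ideal.Quotient.mk_surjective
  have hmodel : S19.A.HasFlatModel p (ρ'.V ⧸ ((⊥ : Ideal (DualNumber k)) • (⊤ : Submodule _ ρ'.V)))
      (fun σ => ρ'.levelAction ⊥ σ) := hfl.2 ⊥ hfin
  obtain ⟨H, hH⟩ := hmodel.exists_flatOrder
  let j : EE k →+ ρ'.V ⧸ ((⊥ : Ideal (DualNumber k)) • (⊤ : Submodule _ ρ'.V)) :=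
    ((Submodule.mkQ ((⊥ : Ideal (DualNumber k)) • (⊤ : Submodule (DualNumber k) ρ'.V))).toAddMonoidHom.comp
      (b.equivFun.symm : (Fin 2 → DualNumber k) →ₗ[DualNumber k] ρ'.V).toAddMonoidHom).comp
      (OfFlat_c k)
  have hj : ∀ vw, j vw = Submodule.Quotient.mk (b.equivFun.symm (OfFlat_c k vw)) := fun _ => rfl
  refine hH.of_injective j ?_ ?_
  · intro x y hxy
    rw [hj, hj, Submodule.Quotient.eq, Submodule.bot_smul, Submodule.mem_bot, sub_eq_zero] at hxy
    exact OfFlat_c_injective (b.equivFun.symm.injective hxy)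
  · intro σ vw
    rw [hj, hj]
    change _ = Submodule.mapQ _ _ (ρ'.ρ σ) _ (Submodule.Quotient.mk _)
    rw [Submodule.mapQ_apply]
    congr 1
    apply b.equivFun.injective
    rw [LinearEquiv.apply_symm_apply,
      ← OfFlat_mulVec M z σ (S53.adicMat ρ' b σ) (fun i j => hb σ i j) vw, S53.adicMat_apply]
    have h1 := LinearMap.toMatrix_mulVec_repr b b (ρ'.ρ σ) (b.equivFun.symm (OfFlat_c k vw))
    have h2 : ∀ x : ρ'.V, (b.repr x : Fin 2 → DualNumber k) = b.equivFun x := fun _ => rfl
    rw [h2, h2, LinearEquiv.apply_symm_apply] at h1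
    exact h1

/-- the entry point of the local theory. -/
theorem exists_ord_defAct (M : GQ →* M2 k) (ρ' : GaloisRepAdic (DualNumber k))
    (z : GQ → M2 k) (hz : IsClassOf M ρ' z) (hfl : ρ'.IsFlatAt p) :
    ∃ H : Subalgebra (R0 p) (EE k → Qbar), Ord (R0 p) (Iq p) (defAct M z) H := by
  obtain ⟨H, hH⟩ := exists_flatOrder_defAct M ρ' z hz hfl
  exact Ord.of_flatOrder hH

/-- the sub-object `ε E ≅ V`. -/
def epsHom (k : Type) [Field k] : (Fin 2 → k) →+ EE k := AddMonoidHom.inr _ _

/-- the quotient `E → E / ε E ≅ V`. -/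
def redHom (k : Type) [Field k] : EE k →+ (Fin 2 → k) := AddMonoidHom.fst _ _

omit [Finite k] in
theorem epsHom_resAct (M : GQ →* M2 k) (z : GQ → M2 k) (σ : GQ) (w : Fin 2 → k) :
    epsHom k (resAct M σ w) = defAct M z σ (epsHom k w) := by
  simp [epsHom, resAct, defAct]

omit [Finite k] in
theorem redHom_defAct (M : GQ →* M2 k) (z : GQ → M2 k) (σ : GQ) (v : EE k) :
    redHom k (defAct M z σ v) = resAct M σ (redHom k v) := rfl

/-- the residual module is flat as well. -/
theorem exists_ord_resAct {M : GQ →* M2 k} {z : GQ → M2 k}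
    {H : Subalgebra (R0 p) (EE k → Qbar)} (h : Ord (R0 p) (Iq p) (defAct M z) H) :
    Ord (R0 p) (Iq p) (resAct M) (H.map (S19.A.pullHom (R0 p) (epsHom k))) :=
  h.of_injective (epsHom k) (fun a b hab => by simpa [epsHom] using hab)
    (fun σ _ w => epsHom_resAct M z σ w)

end Fermat.Agent.S56.F

end
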