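/-
S56 / F / Conn : the connected component.  `E⁰ = I_I · E` for flat `E` killed by `p`, `p` odd.
TASKS S56/F-Conn-a (conn is a subgroup, aug ≤ conn, conn ∩ fixed = 0), S56/F-Conn-b (conn ≤ aug, exports).

`h : Ord (R0 p) (Iq p) act H`.   `hR := nrm_le_one_of_mem_R0`.
-/
import Fermat.Agent.S56.F.R0
import Fermat.Agent.S56.F.Closure
import Fermat.Agent.S56.F.Torsion

set_option autoImplicit false

noncomputable section

namespace Fermat.Agent.S56.F

open Fermat.Agent.S55.Places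

variable {p : ℕ} [Fact p.Prime] {E : Type} [AddCommGroup E] {act : GQ → E → E}
  {H : Subalgebra (R0 p) (E → Qbar)}

/-! ### TASK S56/F-Conn-a -/

theorem Ord.zero_mem_conn (_h : Ord (R0 p) (Iq p) act H) : (0 : E) ∈ conn p H := by
  intro f _
  simp [nrm]

/-- `t := max_f |f x - f 0| < 1` (`Ord.exists_max`), same for `y`; `Ord.second_order`. -/
theorem Ord.add_mem_conn (h : Ord (R0 p) (Iq p) act H) {x y : E} (hx : x ∈ conn p H)
    (hy : y ∈ conn p H) : x + y ∈ conn p H := by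
  have hR := nrm_le_one_of_mem_R0 (p := p)
  obtain ⟨f₀, hf₀, hmax⟩ := h.exists_max hR y 0
  intro f hf
  have h1 := h.nrm_translate_le hR hmax x f hf
  have e : f (x + y) - f 0 = (f (x + y) - f x) + (f x - f 0) := by ring
  rw [e]
  exact lt_of_le_of_lt (nrm_add_le_max p _ _)
    (max_lt (lt_of_le_of_lt h1 (hy f₀ hf₀)) (hx f hf))

/-- `Ord.nrm_le_of_translate` with `x`, `y := -x`: `f (x + -x) - f x = -(f x - f 0)`. -/
theorem Ord.neg_mem_conn (h : Ord (R0 p) (Iq p) act H) {x : E} (hx : x ∈ conn p H) :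
    -x ∈ conn p H := by
  have hR := nrm_le_one_of_mem_R0 (p := p)
  obtain ⟨f₀, hf₀, hmax⟩ := h.exists_max hR x 0
  intro f hf
  have h1 : ∀ g ∈ H, nrm p (g (x + -x) - g x) ≤ nrm p (f₀ x - f₀ 0) := by
    intro g hg
    rw [add_neg_cancel, nrm_sub_comm]
    exact hmax g hg
  exact lt_of_le_of_lt (h.nrm_le_of_translate hR h1 f hf) (hx f₀ hf₀)

/-- `f (x + (σ x - x)) - f x = σ (f x) - f x` has norm `< 1` (`mem_Iq_iff`, `Ord.nrm_le_one`);
`Ord.exists_max` for the points `σ x, x` and `Ord.nrm_le_of_translate`. -/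
theorem Ord.act_sub_mem_conn (h : Ord (R0 p) (Iq p) act H) {σ : GQ} (hσ : σ ∈ Iq p) (x : E) :
    act σ x - x ∈ conn p H := by
  have hR := nrm_le_one_of_mem_R0 (p := p)
  obtain ⟨f₀, hf₀, hmax⟩ := h.exists_max hR (act σ x) x
  intro f hf
  have h1 : ∀ g ∈ H, nrm p (g (x + (act σ x - x)) - g x) ≤ nrm p (f₀ (act σ x) - f₀ x) := by
    intro g hg
    rw [add_sub_cancel]
    exact hmax g hg
  have h2 : nrm p (f₀ (act σ x) - f₀ x) < 1 := by
    rw [h.equiv f₀ hf₀ σ hσ]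
    exact ((mem_Iq_iff p).1 hσ).2 _ (h.nrm_le_one hR hf₀ x)
  exact lt_of_le_of_lt (h.nrm_le_of_translate hR h1 f hf) h2

/-- `AddSubgroup.closure_induction`. -/
theorem Ord.aug_le_conn (h : Ord (R0 p) (Iq p) act H) {x : E} (hx : x ∈ aug (Iq p) act) :
    x ∈ conn p H := by
  unfold aug at hx
  induction hx using AddSubgroup.closure_induction with
  | mem y hy =>
    obtain ⟨σ, hσ, z, rfl⟩ := hy
    exact h.act_sub_mem_conn hσ z
  | zero => exact h.zero_mem_conn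
  | add a b _ _ ha hb => exact h.add_mem_conn ha hb
  | neg a _ ha => exact h.neg_mem_conn ha

/-- a connected point fixed by inertia is `0` (`p` odd): otherwise all `f x - f 0` are `I_p`-fixed
(`h.equiv`, `Ord.act_zero`) of norm `< 1`, hence of norm `≤ 1/p` (`nrm_le_inv_of_fixed`), so
`|f x - f 0|^(p-1) ≤ p^-(p-1) < p^-1` (as `p - 1 ≥ 2`), contradicting `Ord.torsion`. -/
theorem Ord.eq_zero_of_mem_conn_of_fixed (h : Ord (R0 p) (Iq p) act H) (hp2 : p ≠ 2) {x : E}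
    (hx : x ∈ conn p H) (hpx : p • x = 0) (hfix : ∀ σ ∈ Iq p, act σ x = x) : x = 0 := by
  have hR := nrm_le_one_of_mem_R0 (p := p)
  by_contra hx0
  obtain ⟨f, hf, hle⟩ := h.torsion hR hx0 hpx
  have hp : p.Prime := Fact.out
  have hp3 : 3 ≤ p := by
    have := hp.two_le
    omega
  have hpR : (1 : ℝ) < p := by exact_mod_cast hp.one_lt
  have hp0 : (0 : ℝ) < p := by linarith
  have hfixed : ∀ σ ∈ Iq p, σ (f x - f 0) = f x - f 0 := by
    intro σ hσ
    rw [map_sub, ← h.equiv f hf σ hσ, ← h.equiv f hf σ hσ, hfix σ hσ, h.act_zero hσ]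
  have h1 := nrm_le_inv_of_fixed hfixed (hx f hf)
  have hinv1 : (p : ℝ)⁻¹ < 1 := inv_lt_one_of_one_lt₀ hpR
  have hinv0 : (0 : ℝ) < (p : ℝ)⁻¹ := inv_pos.2 hp0
  have h2 : nrm p (f x - f 0) ^ (p - 1) ≤ ((p : ℝ)⁻¹) ^ (p - 1) :=
    pow_le_pow_left₀ (nrm_nonneg p _) h1 _
  have h3 : ((p : ℝ)⁻¹) ^ (p - 1) ≤ ((p : ℝ)⁻¹) ^ 2 :=
    pow_le_pow_of_le_one hinv0.le hinv1.le (by omega)
  have h4 : ((p : ℝ)⁻¹) ^ 2 < (p : ℝ)⁻¹ := by
    rw [pow_two]
    exact mul_lt_of_lt_one_left hinv0 hinv1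
  linarith

/-! ### TASK S56/F-Conn-b -/

/-- `W := E ⧸ aug (Iq p) act` with the TRIVIAL action `fun _ w => w`, `q := QuotientAddGroup.mk'`:
equivariant because `act σ x - x ∈ aug`.  `Ord.of_surjective isBase_R0 h q ..` is an order on `W`; `q x`
is connected for it (its functions `g` satisfy `g ∘ q ∈ H`), fixed by inertia, killed by `p`:
`q x = 0` by `eq_zero_of_mem_conn_of_fixed`. -/
theorem Ord.conn_le_aug (h : Ord (R0 p) (Iq p) act H) (hp2 : p ≠ 2) (hkill : ∀ x : E, p • x = 0)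
    {x : E} (hx : x ∈ conn p H) : x ∈ aug (Iq p) act := by
  set q : E →+ E ⧸ aug (Iq p) act := QuotientAddGroup.mk' (aug (Iq p) act) with hq
  have hqs : Function.Surjective q := QuotientAddGroup.mk'_surjective _
  have hequiv : ∀ σ ∈ Iq p, ∀ y, q (act σ y) = (fun (_ : GQ) (w : E ⧸ aug (Iq p) act) => w) σ (q y) := by
    intro σ hσ y
    change q (act σ y) = q y
    rw [← sub_eq_zero, ← map_sub]
    exact (QuotientAddGroup.eq_zero_iff _).2 (AddSubgroup.subset_closure ⟨σ, hσ, y, rfl⟩)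
  have hW := Ord.of_surjective (actW := fun (_ : GQ) (w : E ⧸ aug (Iq p) act) => w) isBase_R0 h q
    hqs hequiv
  have hconn : q x ∈ conn p (H.comap (S19.A.pullHom (R0 p) q)) := by
    intro g hg
    have h1 := hx _ ((mem_comap_pullHom q g).1 hg)
    simpa using h1
  have h0 : q x = 0 := hW.eq_zero_of_mem_conn_of_fixed hp2 hconn
    (by rw [← map_nsmul, hkill, map_zero]) (fun _ _ => rfl)
  exact (QuotientAddGroup.eq_zero_iff _).1 h0

theorem Ord.mem_conn_iff_mem_aug (h : Ord (R0 p) (Iq p) act H) (hp2 : p ≠ 2)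
    (hkill : ∀ x : E, p • x = 0) (x : E) : x ∈ conn p H ↔ x ∈ aug (Iq p) act :=
  ⟨h.conn_le_aug hp2 hkill, h.aug_le_conn⟩

/-- **EXPORT 1**: `I_I E ∩ S = I_I S` for every `I`-stable subgroup `S`.
`P := ↥S`, `j := S.subtype`, `actP σ x := if hσ : σ ∈ Iq p then ⟨act σ x, hS σ hσ x x.2⟩ else x`;
`Ord.of_injective`; `x` is connected for the restricted order (its functions are `f ∘ j`,
`mem_map_pullHom`), so `x ∈ aug (Iq p) actP` by `conn_le_aug`; map to `E`
(`AddSubgroup.closure_induction`). -/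
theorem Ord.aug_inter (h : Ord (R0 p) (Iq p) act H) (hp2 : p ≠ 2) (hkill : ∀ x : E, p • x = 0)
    (S : AddSubgroup E) (hS : ∀ σ ∈ Iq p, ∀ x ∈ S, act σ x ∈ S) {x : E}
    (hx : x ∈ aug (Iq p) act) (hxS : x ∈ S) : x ∈ augOn (Iq p) act S := by
  classical
  set actP : GQ → S → S := fun σ y => if hσ : σ ∈ Iq p then ⟨act σ y, hS σ hσ y y.2⟩ else y
    with hactP
  have hactP' : ∀ σ ∈ Iq p, ∀ y : S, ((actP σ y : S) : E) = act σ y := by
    intro σ hσ y
    simp only [hactP, dif_pos hσ]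
  have hP := Ord.of_injective (actP := actP) h S.subtype Subtype.val_injective
    (fun σ hσ y => hactP' σ hσ y)
  have hconn : (⟨x, hxS⟩ : S) ∈ conn p (H.map (S19.A.pullHom (R0 p) S.subtype)) := by
    intro g hg
    obtain ⟨f, hf, hgf⟩ := (mem_map_pullHom _ g).1 hg
    rw [hgf, hgf]
    exact h.aug_le_conn hx f hf
  have haug := hP.conn_le_aug hp2 (fun y => Subtype.ext (by simpa using hkill (y : E))) hconn
  have key : ∀ y : S, y ∈ aug (Iq p) actP → (y : E) ∈ augOn (Iq p) act S := by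
    intro y hy
    induction hy using AddSubgroup.closure_induction with
    | mem y hy =>
      obtain ⟨σ, hσ, z, rfl⟩ := hy
      refine AddSubgroup.subset_closure ⟨σ, hσ, z, z.2, ?_⟩
      rw [AddSubgroup.coe_sub, hactP' σ hσ]
    | zero => exact zero_mem _
    | add a b _ _ ha hb => exact add_mem ha hb
    | neg a _ ha => exact neg_mem ha
  exact key _ haug

/-- **EXPORT 2**: `(I_I E)^I = 0`. -/
theorem Ord.aug_fixed (h : Ord (R0 p) (Iq p) act H) (hp2 : p ≠ 2) (hkill : ∀ x : E, p • x = 0)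
    {x : E} (hx : x ∈ aug (Iq p) act) (hfix : ∀ σ ∈ Iq p, act σ x = x) : x = 0 :=
  h.eq_zero_of_mem_conn_of_fixed hp2 (h.aug_le_conn hx) (hkill x) hfix

end Fermat.Agent.S56.F

end
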