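/-
S56 / F / Char : characters of inertia on flat modules killed by `p` over the unramified base.
TASKS S56/F-Char-a (char_of_scalar), S56/F-Char-b (scalar_of_frob).

`cyE p σ : ℕ` is the exponent of the mod `p` cyclotomic character: `σ ζ = ζ ^ cyE p σ` for `ζ^p = 1`
(`S55.cycloChar_spec` in `S55/Arith/Defs.lean`).
-/
import Fermat.Agent.S56.F.Conn
import Fermat.Agent.S55.Places.Residue

set_option autoImplicit false

noncomputable section

namespace Fermat.Agent.S56.F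

open Fermat.Agent.S55.Places ExtCitation

/-- exponent of the mod `p` cyclotomic character. -/
def cyE (p : ℕ) [Fact p.Prime] (σ : GQ) : ℕ := ((cycloChar p σ : (ZMod p)ˣ) : ZMod p).val

variable {p : ℕ} [Fact p.Prime] {E : Type} [AddCommGroup E] {act : GQ → E → E}
  {H : Subalgebra (R0 p) (E → Qbar)}

theorem map_eq_pow_cyE (σ : GQ) {ζ : Qbar} (hζ : ζ ^ p = 1) : σ ζ = ζ ^ cyE p σ := by
  have h0 : ζ ≠ 0 := by
    rintro rfl
    rw [zero_pow (Fact.out : p.Prime).ne_zero] at hζ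
    exact zero_ne_one hζ
  exact Fermat.Agent.S55.cycloChar_spec p σ (Units.mk0 ζ h0) (Units.ext (by simpa using hζ))

theorem Char_nsmul_mod {x : E} (hpx : p • x = 0) (a : ℕ) : a • x = (a % p) • x := by
  conv_lhs => rw [← Nat.div_add_mod a p, add_smul, mul_comm, mul_smul, hpx, smul_zero, zero_add]

theorem Char_nsmul_congr {x : E} (hpx : p • x = 0) {a b : ℕ} (hab : a ≡ b [MOD p]) :
    a • x = b • x := by
  rw [Char_nsmul_mod hpx a, Char_nsmul_mod hpx b, hab]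

theorem Char_dvd_of_nrm_lt_one {z : ℤ} (hz : nrm p (z : Qbar) < 1) : (p : ℤ) ∣ z := by
  have h1 := nrm_ratCast p (z : ℚ)
  rw [Rat.cast_intCast] at h1
  rw [h1] at hz
  have h2 : padicNorm p (z : ℚ) < 1 := by exact_mod_cast hz
  exact (padicNorm.int_lt_one_iff z).1 h2

theorem Ord.Char_nsmul_mem_conn (h : Ord (R0 p) (Iq p) act H) {y : E} (hy : y ∈ conn p H) (k : ℕ) :
    k • y ∈ conn p H := by
  induction k with
  | zero => rw [zero_smul]; exact h.zero_mem_conn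
  | succ k ih => rw [succ_nsmul]; exact h.add_mem_conn ih hy

/-- if `σ₁ x = n₁ x ≠ x` then `x` is connected. -/
theorem Ord.Char_mem_conn (h : Ord (R0 p) (Iq p) act H) {x : E} (hpx : p • x = 0) {σ₁ : GQ}
    (hσ₁ : σ₁ ∈ Iq p) {n₁ : ℕ} (hn₁ : act σ₁ x = n₁ • x) (hne : act σ₁ x ≠ x) : x ∈ conn p H := by
  have hy := h.act_sub_mem_conn hσ₁ x
  have h1 : ((n₁ : ZMod p) - 1) ≠ 0 := by
    intro h0
    apply hne
    rw [hn₁]
    have : n₁ ≡ 1 [MOD p] := by
      rw [← ZMod.natCast_eq_natCast_iff, Nat.cast_one]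
      exact sub_eq_zero.1 h0
    rw [Char_nsmul_congr hpx this, one_smul]
  set k : ℕ := (((n₁ : ZMod p) - 1)⁻¹).val with hk
  have hk' : (k : ZMod p) = ((n₁ : ZMod p) - 1)⁻¹ := by
    rw [hk, ZMod.natCast_val, ZMod.cast_id', id]
  have h2 : k * n₁ ≡ k + 1 [MOD p] := by
    rw [← ZMod.natCast_eq_natCast_iff]
    push_cast
    rw [hk']
    field_simp
    ring
  have h3 : k • (act σ₁ x - x) = x := by
    rw [hn₁, smul_sub, smul_smul, Char_nsmul_congr hpx h2, add_smul, one_smul, add_sub_cancel_left]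
  rw [← h3]
  exact h.Char_nsmul_mem_conn hy k

/-- ultrametric: a perturbation of smaller norm does not change the norm. -/
theorem Char_nrm_eq_of_sub_lt {a c : Qbar} (hac : nrm p (a - c) < nrm p c) : nrm p a = nrm p c := by
  have e : a = (a - c) + c := by ring
  rw [e, nrm_add_eq_max_of_ne p hac.ne, max_eq_right hac.le]

/-- steps (1), (2): the maximal distance `b` satisfies `b^(p-1) = 1/p`. -/
theorem Ord.Char_pow_eq (h : Ord (R0 p) (Iq p) act H) {x : E} (hx : x ≠ 0)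
    (hpx : p • x = 0) (hsc : ∀ σ ∈ Iq p, ∃ n : ℕ, act σ x = n • x) (hconn : x ∈ conn p H)
    {f₀ : E → Qbar} (hf₀ : f₀ ∈ H) (hmax : ∀ g ∈ H, nrm p (g x - g 0) ≤ nrm p (f₀ x - f₀ 0)) :
    nrm p (f₀ x - f₀ 0) ^ (p - 1) = (p : ℝ)⁻¹ := by
  classical
  have hp : p.Prime := Fact.out
  have hR := nrm_le_one_of_mem_R0 (p := p)
  set β := f₀ x - f₀ 0 with hβ
  set b := nrm p β with hb
  have hb1 : b < 1 := hconn f₀ hf₀
  have hb0 : 0 < b := by
    obtain ⟨g, hg, hgne⟩ := h.sep x 0 hx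
    have : 0 < nrm p (g x - g 0) := (nrm_pos_iff p).mpr (sub_ne_zero.mpr hgne)
    exact this.trans_le (hmax g hg)
  have hbb : b * b < b := by nlinarith
  -- (1)
  have h1 : ∀ n : ℕ, ¬ p ∣ n → nrm p (f₀ (n • x) - f₀ 0) = b := by
    intro n hn
    have h2 := h.nsmul_estimate hb1.le hmax n f₀ hf₀
    have h3 : nrm p ((n : Qbar) * β) = b := by
      rw [nrm_mul, nrm_natCast_eq_one p ((Nat.Coprime.symm ((Nat.Prime.coprime_iff_not_dvd hp).2 hn))),
        one_mul]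
    rw [← h3]
    apply Char_nrm_eq_of_sub_lt
    rw [h3]
    exact h2.trans_lt hbb
  -- (2)
  set S : Finset E := (Finset.Ico 1 p).image (fun n => n • x) with hS
  have hScard : S.card ≤ p - 1 := by
    have := Finset.card_image_le (s := Finset.Ico 1 p) (f := fun n => n • x)
    rwa [Nat.card_Ico] at this
  have hxS : x ∈ S := Finset.mem_image.2 ⟨1, Finset.mem_Ico.2 ⟨le_rfl, hp.one_lt⟩, one_smul _ _⟩
  have hSnorm : ∀ y ∈ S, nrm p (f₀ y - f₀ 0) = b := by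
    intro y hy
    obtain ⟨n, hn, rfl⟩ := Finset.mem_image.1 hy
    rw [Finset.mem_Ico] at hn
    exact h1 n (fun hd => by have := Nat.le_of_dvd (by omega) hd; omega)
  set γ : Qbar := ∏ y ∈ S, (f₀ y - f₀ 0) with hγ
  have hγn : nrm p γ = b ^ S.card := by
    rw [hγ, nrm_prod, Finset.prod_congr rfl hSnorm, Finset.prod_const]
  have hγfix : ∀ σ ∈ Iq p, σ γ = γ := by
    intro σ hσ
    obtain ⟨m, hm⟩ := hsc σ hσ
    have hpm : ¬ p ∣ m := by
      rintro ⟨c, rfl⟩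
      rw [mul_comm, mul_smul, hpx, smul_zero, ← h.act_zero hσ] at hm
      exact hx (h.act_injective hσ hm)
    have hsub : S.image (act σ) ⊆ S := by
      intro y hy
      obtain ⟨z, hz, rfl⟩ := Finset.mem_image.1 hy
      obtain ⟨n, hn, rfl⟩ := Finset.mem_image.1 hz
      rw [Finset.mem_Ico] at hn
      have hpn : ¬ p ∣ n := fun hd => by have := Nat.le_of_dvd (by omega) hd; omega
      refine Finset.mem_image.2 ⟨(n * m) % p, Finset.mem_Ico.2 ⟨?_, Nat.mod_lt _ hp.pos⟩, ?_⟩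
      · rw [Nat.one_le_iff_ne_zero]
        intro h0
        rcases (hp.dvd_mul).1 (Nat.dvd_of_mod_eq_zero h0) with hd | hd
        · exact hpn hd
        · exact hpm hd
      · show ((n * m) % p) • x = act σ (n • x)
        rw [← Char_nsmul_mod hpx, h.act_nsmul hσ, hm, mul_smul]
    have himg : S.image (act σ) = S :=
      Finset.eq_of_subset_of_card_le hsub
        (by rw [Finset.card_image_of_injective _ (h.act_injective hσ)])
    rw [hγ, map_prod]
    conv_rhs => rw [← himg]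
    rw [Finset.prod_image (fun a _ b _ hab => h.act_injective hσ hab)]
    refine Finset.prod_congr rfl fun y _ => ?_
    rw [map_sub, ← h.equiv f₀ hf₀ σ hσ, ← h.equiv f₀ hf₀ σ hσ, h.act_zero hσ]
  have hγ1 : nrm p γ < 1 := by
    rw [hγn]
    exact pow_lt_one₀ hb0.le hb1 (Finset.card_ne_zero_of_mem hxS)
  have hle : b ^ (p - 1) ≤ (p : ℝ)⁻¹ := by
    have h2 := nrm_le_inv_of_fixed hγfix hγ1
    rw [hγn] at h2
    exact (pow_le_pow_of_le_one hb0.le hb1.le hScard).trans h2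
  obtain ⟨f, hf, hfle⟩ := h.torsion hR hx hpx
  exact le_antisymm hle (hfle.trans (pow_le_pow_left₀ (nrm_nonneg p _) (hmax f hf) _))

/-- **TASK S56/F-Char-a.**  If inertia acts on `x ≠ 0` (`p x = 0`) through integers, then it fixes `x` or it
acts by the cyclotomic character.
PROOF.  Assume `σ₁ x ≠ x` for some `σ₁ ∈ I`.  Then `σ₁ x - x = (n₁ - 1) x` with `p ∤ n₁ - 1`, so `x` is a
multiple of an element of `conn p H` (`act_sub_mem_conn`), so `x ∈ conn p H` (`add_mem_conn`, induction).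
Let `f₀` be as in `Ord.exists_max` for `x, 0`, `β := f₀ x - f₀ 0`, `b := |β|`, `0 < b < 1`.
(1) `Ord.nsmul_estimate`: `|f₀ (n x) - f₀ 0 - n β| ≤ b²`; so `|f₀ (n x) - f₀ 0| = b` for `p ∤ n`.
(2) `γ := ∏_{n=1}^{p-1} (f₀ (n x) - f₀ 0)` is fixed by `I` (`σ` permutes the `n x`, `1 ≤ n ≤ p-1`, because
    `σ x = m x`, `p ∤ m`) and has norm `b^(p-1) < 1`, so `b^(p-1) ≤ 1/p` (`nrm_le_inv_of_fixed`).
    With `Ord.torsion` (and maximality of `b`): `b^(p-1) = 1/p = |1 - ζ|^(p-1)` (`nrm_one_sub_zeta` with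
    `n = 0`), `ζ` a primitive `p`-th root of unity; so `u := β / (ζ - 1)` has norm `1`.
(3) for `σ ∈ I`, `σ x = m x`: `σ β = f₀ (m x) - f₀ 0 = m β + O(b²)`, so `|σ β / β - m| < 1`.
    `σ (ζ - 1) / (ζ - 1) = 1 + ζ + .. + ζ^(c-1) ≡ c` with `c = cyE p σ`; `|σ u - u| < 1` (`mem_Iq_iff`), so
    `|σ β / β - c| < 1`.  Hence `|(m : Qbar) - c| < 1`, i.e. `p ∣ m - c` (`nrm_natCast_le_iff` /
    `nrm_natCast_eq_one`), and `m x = c x`. -/
theorem Ord.char_of_scalar (h : Ord (R0 p) (Iq p) act H) (hp2 : p ≠ 2) {x : E} (hx : x ≠ 0)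
    (hpx : p • x = 0) (hsc : ∀ σ ∈ Iq p, ∃ n : ℕ, act σ x = n • x) :
    (∀ σ ∈ Iq p, act σ x = x) ∨ (∀ σ ∈ Iq p, act σ x = cyE p σ • x) := by
  by_cases hfix : ∀ σ ∈ Iq p, act σ x = x
  · exact Or.inl hfix
  right
  push Not at hfix
  obtain ⟨σ₁, hσ₁, hne⟩ := hfix
  obtain ⟨n₁, hn₁⟩ := hsc σ₁ hσ₁
  have hconn : x ∈ conn p H := h.Char_mem_conn hpx hσ₁ hn₁ hne
  have hp : p.Prime := Fact.out
  have hR := nrm_le_one_of_mem_R0 (p := p)
  obtain ⟨f₀, hf₀, hmax⟩ := h.exists_max hR x 0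
  have hpow := h.Char_pow_eq hx hpx hsc hconn hf₀ hmax
  set β := f₀ x - f₀ 0 with hβ
  set b := nrm p β with hb
  have hb1 : b < 1 := hconn f₀ hf₀
  have hb0 : 0 < b := by
    obtain ⟨g, hg, hgne⟩ := h.sep x 0 hx
    have : 0 < nrm p (g x - g 0) := (nrm_pos_iff p).mpr (sub_ne_zero.mpr hgne)
    exact this.trans_le (hmax g hg)
  have hbb : b * b < b := by nlinarith
  have : NeZero p := ⟨hp.ne_zero⟩
  obtain ⟨ζ, hζ⟩ := cyclo_exists_primitiveRoot p
  have hζp : ζ ^ p = 1 := hζ.pow_eq_one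
  have hπn : nrm p (1 - ζ) = b := by
    have h1 := nrm_one_sub_zeta (p := p) (n := 0) (ζ := ζ) (by simpa using hζ)
    rw [pow_zero, one_mul, ← hpow] at h1
    exact (pow_left_inj₀ (nrm_nonneg p _) hb0.le (by have := hp.two_le; omega)).1 h1
  set π := 1 - ζ with hπ
  have hπ0 : π ≠ 0 := (nrm_pos_iff p).1 (by rw [hπn]; exact hb0)
  set u := β / π with hu
  have hun : nrm p u = 1 := by
    rw [hu, nrm_div, hπn, ← hb, div_self hb0.ne']
  have hβu : β = u * π := by rw [hu, div_mul_cancel₀ _ hπ0]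
  intro σ hσ
  obtain ⟨m, hm⟩ := hsc σ hσ
  set c := cyE p σ with hc
  -- `σ β = f₀ (m x) - f₀ 0`
  have hσβ : σ β = f₀ (m • x) - f₀ 0 := by
    rw [hβ, map_sub, ← h.equiv f₀ hf₀ σ hσ, ← h.equiv f₀ hf₀ σ hσ, h.act_zero hσ, hm]
  have h1 : nrm p (σ β - m * β) ≤ b * b := by
    rw [hσβ]
    exact h.nsmul_estimate hb1.le hmax m f₀ hf₀
  set s : Qbar := ∑ j ∈ Finset.range c, ζ ^ j with hs
  have hσπ : σ π = s * π := by
    rw [hπ, map_sub, map_one, map_eq_pow_cyE σ hζp]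
    have := geom_sum_mul ζ c
    linear_combination this
  have hsn : nrm p s ≤ 1 := by
    apply nrm_sum_le p _ _ 1 zero_le_one
    intro j _
    rw [nrm_pow, nrm_eq_one_of_pow_eq_one p hp.ne_zero hζp, one_pow]
  have hsc' : nrm p (s - c) < 1 := by
    have e : s - c = ∑ j ∈ Finset.range c, (ζ ^ j - 1) := by
      rw [Finset.sum_sub_distrib, Finset.sum_const, Finset.card_range, nsmul_eq_mul, mul_one]
    rw [e]
    refine (nrm_sum_le p _ _ b hb0.le fun j _ => ?_).trans_lt hb1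
    rw [nrm_sub_comm, ← hπn]
    exact cyclo_nrm_one_sub_pow_le p hp.ne_zero hζp j
  have hσu : nrm p (σ u - u) < 1 := ((mem_Iq_iff p).1 hσ).2 u hun.le
  have h2 : nrm p (σ β - c * β) < b := by
    have e : σ β - c * β = π * ((σ u - u) * s + u * (s - c)) := by
      rw [hβu, map_mul, hσπ]; ring
    rw [e, nrm_mul, hπn]
    have h3 : nrm p ((σ u - u) * s + u * (s - c)) < 1 := by
      refine (nrm_add_le_max p _ _).trans_lt (max_lt ?_ ?_)
      · rw [nrm_mul]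
        exact (mul_le_of_le_one_right (nrm_nonneg p _) hsn).trans_lt hσu
      · rw [nrm_mul, hun, one_mul]; exact hsc'
    nlinarith
  have h3 : nrm p (((m : ℤ) - (c : ℤ) : ℤ) : Qbar) < 1 := by
    have e : ((((m : ℤ) - (c : ℤ) : ℤ) : Qbar)) * β = (σ β - c * β) - (σ β - m * β) := by
      push_cast; ring
    have h4 : nrm p (((((m : ℤ) - (c : ℤ) : ℤ) : Qbar)) * β) < b := by
      rw [e]
      exact (nrm_sub_le_max p _ _).trans_lt (max_lt h2 (h1.trans_lt hbb))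
    rw [nrm_mul, ← hb] at h4
    by_contra hcon
    rw [not_lt] at hcon
    nlinarith
  have h4 : c ≡ m [MOD p] := (Nat.modEq_iff_dvd).2 (Char_dvd_of_nrm_lt_one h3)
  rw [hm, Char_nsmul_congr hpx h4]

/-- an element of norm `≤ 1` with `t^p ≡ t` is congruent to a natural number. -/
theorem Char_exists_natCast {t : Qbar} (ht : nrm p t ≤ 1) (h : nrm p (t ^ p - t) < 1) :
    ∃ n : ℕ, nrm p (t - n) < 1 := by
  have h1 : residueRes p t ht ^ p = residueRes p t ht := by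
    rw [← residueRes_pow p ht, residueRes_eq_iff]
    exact h
  obtain ⟨n, hn⟩ := (mem_bot_iff_intCast p (ResidueKq p)).1
    ((Subfield.mem_bot_iff_pow_eq_self (ResidueKq p) p).2 h1)
  refine ⟨(n : ZMod p).val, ?_⟩
  rw [← residueRes_eq_iff p ht (nrm_natCast_le_one p _), ← hn]
  have h2 : residueRes p (((n : ZMod p).val : ℕ) : Qbar) (nrm_natCast_le_one p _) =
      (((n : ZMod p).val : ℕ) : ResidueKq p) := by
    unfold residueRes
    rw [← map_natCast (IsLocalRing.residue (padicPlace p))]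
    rfl
  rw [h2, ZMod.natCast_val, ZMod.cast_intCast']

/-- **TASK S56/F-Char-b.**  `E ≠ 0` a vector space over a field `k`, inertia acts by scalars `θ σ ∈ k`, and
conjugation by a Frobenius does not change the action (e.g. `E` is a `D_p`-stable `k`-line).  Then the
scalars are integers.
PROOF.  `E` is finite (`Ord.finite`).  Choose `(f₀, x₀)` with `b := |f₀ x₀ - f₀ 0|` maximal among all
`|f x - f 0|`, `f ∈ H`, `x ∈ E` (`Ord.exists_max` for each `x`, then a maximum over the finite set `E`);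
`b > 0` (`sep`, `E` nontrivial).  `β := f₀ x₀ - f₀ 0`.  Fix `σ ∈ I`.
CASE `b = 1`... is covered by: if `b = 1` take `n = 1`: `σ x - x ∈ conn p H ≠ E` for all `x`.
CASE `b < 1`.  (i) for all `f ∈ H`, `x`: `|(f (σ x) - f 0) - (σ β / β) (f x - f 0)| < b`
   [`w := (f x - f 0)/β` has norm `≤ 1`, `f (σ x) - f 0 = σ (w β) = σ w · σ β`, `|σ w - w| < 1`, `|σ β| = b`].
 (ii) the same for `σ' := φ σ φ⁻¹ ∈ I` (`Iq_conj_mem`), and `|σ' β / β - (σ β / β)^p| < 1`:
   `β' := φ⁻¹ β`, `|β'| = b`, `β' = u β` with `|u| = 1`, `σ β'/β' = (σ u / u)(σ β / β)`, `|σ u / u - 1| < 1`;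
   `σ' β / β = φ (σ β' / β')` and `|φ t - t^p| < 1` for `|t| ≤ 1` (`IsFrob`).
 (iii) `hconj` at `x₀`, `f₀`: `|σ' β/β - σ β/β| < 1`.  So `t := σ β / β` satisfies `|t^p - t| < 1`, hence
   `|t - n| < 1` for some `n ∈ {0..p-1}` (`∏_{n<p} (t - n) ≡ t^p - t` mod `p`; or: the residue field has
   characteristic `p` and `X^p - X = ∏ (X - n)` there: `ResidueKq`, `residueRes_eq_iff`, `FiniteField`/`ZMod`
   `X_pow_card_sub_X`...).
 (iv) so `|f (σ x) - f 0 - n (f x - f 0)| < b` and (`Ord.nsmul_estimate`, `b² < b`)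
   `|f (σ x) - f (n x)| < b` for all `f, x`; by `Ord.exists_max` + `Ord.nrm_le_of_translate`
   `y := σ x - n x` satisfies `|f y - f 0| < b` for all `f`.
 END (both cases): `y = (θ σ - n) • x`.  If `c := θ σ - n ≠ 0` then `x := c⁻¹ • x₀` gives `y = x₀`,
   contradicting `|f₀ x₀ - f₀ 0| = b`.  So `θ σ = n` in `k` and `σ x = n • x` (`Nat.cast_smul_eq_nsmul`). -/
theorem Ord.scalar_of_frob (h : Ord (R0 p) (Iq p) act H) {k : Type} [Field k] [Module k E]
    [Nontrivial E] (θ : GQ → k) (hθ : ∀ σ ∈ Iq p, ∀ x, act σ x = θ σ • x) {φ : GQ}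
    (hφ : IsFrob p φ) (hconj : ∀ σ ∈ Iq p, ∀ x, act (φ * σ * φ⁻¹) x = act σ x) :
    ∀ σ ∈ Iq p, ∃ n : ℕ, ∀ x, act σ x = n • x := by
  intro σ hσ
  have hR := nrm_le_one_of_mem_R0 (p := p)
  have hfin : Finite E := h.finite
  -- the maximum
  choose F hFH hFmax using fun x : E => h.exists_max hR x 0
  obtain ⟨x₀, hx₀⟩ := Finite.exists_max (fun x : E => nrm p (F x x - F x 0))
  obtain ⟨f₀, hf₀⟩ : ∃ f₀, f₀ = F x₀ := ⟨_, rfl⟩
  obtain ⟨β, hβ⟩ : ∃ β : Qbar, β = f₀ x₀ - f₀ 0 := ⟨_, rfl⟩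
  obtain ⟨b, hb⟩ : ∃ b : ℝ, b = nrm p β := ⟨_, rfl⟩
  have hf₀H : f₀ ∈ H := hf₀ ▸ hFH x₀
  have hmax : ∀ f ∈ H, ∀ x, nrm p (f x - f 0) ≤ b := fun f hf x => by
    rw [hb, hβ, hf₀]
    exact (hFmax x f hf).trans (hx₀ x)
  have hb0 : 0 < b := by
    obtain ⟨x, hx⟩ := exists_ne (0 : E)
    obtain ⟨f, hf, hne⟩ := h.sep x 0 hx
    exact ((nrm_pos_iff p).2 (sub_ne_zero.2 hne)).trans_le (hmax f hf x)
  have hβ0 : β ≠ 0 := (nrm_pos_iff p).1 (hb ▸ hb0)
  have hb1 : b ≤ 1 := by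
    rw [hb, hβ]
    exact (nrm_sub_le_max p _ _).trans
      (max_le (h.nrm_le_one hR hf₀H _) (h.nrm_le_one hR hf₀H _))
  -- reduction to the key estimate
  suffices key : ∃ n : ℕ, ∀ x, ∀ f ∈ H, nrm p (f (act σ x - n • x) - f 0) < b by
    obtain ⟨n, hn⟩ := key
    refine ⟨n, fun x => ?_⟩
    have hc : θ σ - (n : k) = 0 := by
      by_contra hc
      have h1 := hn ((θ σ - (n : k))⁻¹ • x₀) f₀ hf₀H
      rw [hθ σ hσ, ← Nat.cast_smul_eq_nsmul k n, ← sub_smul, smul_smul, mul_inv_cancel₀ hc,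
        one_smul, ← hβ, ← hb] at h1
      exact lt_irrefl _ h1
    rw [hθ σ hσ, sub_eq_zero.1 hc, Nat.cast_smul_eq_nsmul]
  rcases hb1.eq_or_lt with hb1' | hb1'
  · refine ⟨1, fun x f hf => ?_⟩
    rw [one_smul, hb1']
    exact h.act_sub_mem_conn hσ x f hf
  · have hσD : σ ∈ Dq p := Iq_le_Dq p hσ
    have hσI := ((mem_Iq_iff p).1 hσ).2
    obtain ⟨t, ht⟩ : ∃ t : Qbar, t = σ β / β := ⟨_, rfl⟩
    have hσβ : nrm p (σ β) = b := by rw [nrm_map_of_mem_Dq p hσD β, hb]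
    have hσβ0 : σ β ≠ 0 := (nrm_pos_iff p).1 (hσβ ▸ hb0)
    have ht1 : nrm p t = 1 := by rw [ht, nrm_div, hσβ, ← hb, div_self hb0.ne']
    -- values
    have hval : ∀ τ ∈ Iq p, ∀ f ∈ H, ∀ x, f (act τ x) - f 0 = τ (f x - f 0) := by
      intro τ hτ f hf x
      rw [map_sub, ← h.equiv f hf τ hτ, ← h.equiv f hf τ hτ, h.act_zero hτ]
    -- (i)
    have hi : ∀ f ∈ H, ∀ x, nrm p ((f (act σ x) - f 0) - t * (f x - f 0)) < b := by
      intro f hf x
      obtain ⟨w, hw⟩ : ∃ w : Qbar, w = (f x - f 0) / β := ⟨_, rfl⟩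
      have hw1 : nrm p w ≤ 1 := by
        rw [hw, nrm_div, ← hb]
        exact (div_le_one hb0).2 (hmax f hf x)
      have e : (f (act σ x) - f 0) - t * (f x - f 0) = (σ w - w) * σ β := by
        have e1 : f x - f 0 = w * β := by rw [hw, div_mul_cancel₀ _ hβ0]
        rw [hval σ hσ f hf x, e1, map_mul, ht]
        field_simp
      rw [e, nrm_mul, hσβ]
      exact mul_lt_of_lt_one_left hb0 (hσI w hw1)
    -- (ii), (iii)
    have hφD : φ ∈ Dq p := hφ.1
    have hφD' : φ⁻¹ ∈ Dq p := (Dq p).inv_mem hφD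
    have hσ' : φ * σ * φ⁻¹ ∈ Iq p := Iq_conj_mem p hφD hσ
    have hσ'β : (φ * σ * φ⁻¹) β = σ β := by
      rw [hβ, ← hval _ hσ' f₀ hf₀H x₀, ← hval σ hσ f₀ hf₀H x₀, hconj σ hσ]
    obtain ⟨β', hβ'⟩ : ∃ β' : Qbar, β' = φ⁻¹ β := ⟨_, rfl⟩
    have hβ'n : nrm p β' = b := by rw [hβ', nrm_map_of_mem_Dq p hφD' β, hb]
    have hβ'0 : β' ≠ 0 := (nrm_pos_iff p).1 (hβ'n ▸ hb0)
    have hφβ' : φ β' = β := by
      rw [hβ', ← AlgEquiv.mul_apply, mul_inv_cancel, AlgEquiv.one_apply]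
    obtain ⟨u, hu⟩ : ∃ u : Qbar, u = β' / β := ⟨_, rfl⟩
    have hu1 : nrm p u = 1 := by rw [hu, nrm_div, hβ'n, ← hb, div_self hb0.ne']
    have hu0 : u ≠ 0 := (nrm_pos_iff p).1 (hu1 ▸ one_pos)
    obtain ⟨s, hs⟩ : ∃ s : Qbar, s = σ β' / β' := ⟨_, rfl⟩
    have hs1 : nrm p s = 1 := by
      rw [hs, nrm_div, nrm_map_of_mem_Dq p hσD, hβ'n, div_self hb0.ne']
    have hst : nrm p (s - t) < 1 := by
      have e : s - t = (σ u - u) / u * t := by
        have e1 : β' = u * β := by rw [hu, div_mul_cancel₀ _ hβ0]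
        rw [hs, ht, e1, map_mul]
        field_simp
      rw [e, nrm_mul, nrm_div, hu1, ht1, div_one, mul_one]
      exact hσI u hu1.le
    have hφs : φ s = t := by
      rw [hs, map_div₀, hφβ', ht, ← hσ'β, hβ', AlgEquiv.mul_apply, AlgEquiv.mul_apply]
    have h1 : nrm p (t - s ^ p) < 1 := by
      rw [← hφs]
      exact hφ.2 s hs1.le
    have h2 : nrm p (s ^ p - t ^ p) < 1 := nrm_pow_sub_pow_lt_one hs1.le ht1.le p hst
    have h3 : nrm p (t ^ p - t) < 1 := by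
      have e : t ^ p - t = -((t - s ^ p) + (s ^ p - t ^ p)) := by ring
      rw [e, nrm_neg]
      exact (nrm_add_le_max p _ _).trans_lt (max_lt h1 h2)
    obtain ⟨n, hn⟩ := Char_exists_natCast ht1.le h3
    refine ⟨n, fun x => ?_⟩
    -- (iv)
    have hiv : ∀ f ∈ H, nrm p (f (act σ x) - f (n • x)) < b := by
      intro f hf
      have e : f (act σ x) - f (n • x) = ((f (act σ x) - f 0) - t * (f x - f 0)) +
          ((t - n) * (f x - f 0) - (f (n • x) - f 0 - n * (f x - f 0))) := by ring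
      rw [e]
      refine (nrm_add_le_max p _ _).trans_lt (max_lt (hi f hf x)
        ((nrm_sub_le_max p _ _).trans_lt (max_lt ?_ ?_)))
      · rw [nrm_mul]
        calc nrm p (t - n) * nrm p (f x - f 0) ≤ nrm p (t - n) * b :=
              mul_le_mul_of_nonneg_left (hmax f hf x) (nrm_nonneg p _)
          _ < b := mul_lt_of_lt_one_left hb0 hn
      · exact (h.nsmul_estimate hb1 (fun g hg => hmax g hg x) n f hf).trans_lt
          (mul_lt_of_lt_one_left hb0 hb1')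
    obtain ⟨f₁, hf₁, hmax₁⟩ := h.exists_max hR (act σ x) (n • x)
    intro f hf
    refine lt_of_le_of_lt (h.nrm_le_of_translate hR (x := n • x) (y := act σ x - n • x)
      (t := nrm p (f₁ (act σ x) - f₁ (n • x))) ?_ f hf) (hiv f₁ hf₁)
    intro g hg
    rw [add_sub_cancel]
    exact hmax₁ g hg

end Fermat.Agent.S56.F

end
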