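/-
S56 / F / Line : if the flat residual representation `V = k²` has a `D_p`-stable line then
`I_I V` is a `k`-line.      TASKS S56/F-Line-a (aug_smul_mem, line_char), S56/F-Line-b (aug_resAct_eq_line).
-/
import Fermat.Agent.S56.F.Char
import Fermat.Agent.S56.F.OfFlat
import Fermat.Agent.S56.Loc.Arith3

set_option autoImplicit false

noncomputable section

namespace Fermat.Agent.S56.F

open Fermat.Agent.S55.Places ExtCitation

variable {p : ℕ} [Fact p.Prime] {k : Type} [Field k] [Finite k] [Algebra (ZMod p) k]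

omit [Finite k] [Algebra (ZMod p) k] in
/-- `I_Γ V` is a `k`-subspace (`AddSubgroup.closure_induction`; `a • (M σ x - x) = M σ (a • x) - a • x`,
`Matrix.mulVec_smul`). -/
theorem aug_smul_mem (M : GQ →* M2 k) (Γ : Subgroup GQ) (a : k) {x : Fin 2 → k}
    (hx : x ∈ aug Γ (resAct M)) : a • x ∈ aug Γ (resAct M) := by
  unfold aug at hx ⊢
  induction hx using AddSubgroup.closure_induction with
  | mem y hy =>
    obtain ⟨σ, hσ, z, rfl⟩ := hy
    apply AddSubgroup.subset_closure
    refine ⟨σ, hσ, a • z, ?_⟩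
    unfold resAct
    rw [Matrix.mulVec_smul, smul_sub]
  | zero => rw [smul_zero]; exact zero_mem _
  | add y z _ _ hy hz => rw [smul_add]; exact add_mem hy hz
  | neg y _ hy => rw [smul_neg]; exact neg_mem hy

/-- **TASK S56/F-Line-a**: inertia acts on a `D_p`-stable line trivially or by the cyclotomic character.
PROOF.  `χ σ` := the scalar of `hstab` (`Classical.choose`, for `σ ∈ Dq p`).  Restrict the order to the line:
`j : k →+ (Fin 2 → k)`, `a ↦ a • v`, `actP σ a := χ σ * a` (`Ord.of_injective`; only `σ ∈ Iq p ≤ Dq p` matters).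
`Ord.scalar_of_frob` with `E := k`, `θ := χ`, `φ` a Frobenius (`exists_isFrob`): `hconj` holds because
`M (φ σ φ⁻¹) v = χ φ χ σ (χ φ)⁻¹ v` (`M` multiplicative, `v ≠ 0`; `φ σ φ⁻¹ ∈ Iq p` by `Iq_conj_mem`).
So `σ` acts on `1 ∈ k` by an integer; `Ord.char_of_scalar` at `x = 1` (`p • 1 = 0` in `k`: `CharP k p` from
`Algebra (ZMod p) k`). -/
theorem line_char (hp2 : p ≠ 2) (M : GQ →* M2 k) {H : Subalgebra (R0 p) ((Fin 2 → k) → Qbar)}
    (h : Ord (R0 p) (Iq p) (resAct M) H) {v : Fin 2 → k} (hv : v ≠ 0)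
    (hstab : ∀ σ ∈ Dq p, ∃ a : k, (M σ).mulVec v = a • v) :
    (∀ σ ∈ Iq p, (M σ).mulVec v = v) ∨ (∀ σ ∈ Iq p, (M σ).mulVec v = cyE p σ • v) := by
  classical
  have hex : ∀ σ : GQ, ∃ a : k, σ ∈ Dq p → (M σ).mulVec v = a • v := by
    intro σ
    by_cases hσ : σ ∈ Dq p
    · obtain ⟨a, ha⟩ := hstab σ hσ
      exact ⟨a, fun _ => ha⟩
    · exact ⟨0, fun h => absurd h hσ⟩
  choose χ hχ using hex
  let j : k →+ (Fin 2 → k) :=
    { toFun := fun a => a • v
      map_zero' := zero_smul _ _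
      map_add' := fun a b => add_smul a b v }
  have hj : Function.Injective j := fun a b hab => smul_left_injective k hv hab
  let actP : GQ → k → k := fun σ a => χ σ * a
  have hequiv : ∀ σ ∈ Iq p, ∀ x, j (actP σ x) = resAct M σ (j x) := by
    intro σ hσ x
    show (χ σ * x) • v = (M σ).mulVec (x • v)
    rw [Matrix.mulVec_smul, hχ σ (Iq_le_Dq p hσ), smul_smul, mul_comm]
  have hP := h.of_injective (actP := actP) j hj hequiv
  obtain ⟨φ, hφ⟩ := exists_isFrob p
  have hχmul : ∀ σ ∈ Dq p, ∀ τ ∈ Dq p, χ (σ * τ) = χ σ * χ τ := by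
    intro σ hσ τ hτ
    apply smul_left_injective k hv
    show χ (σ * τ) • v = (χ σ * χ τ) • v
    rw [← hχ _ (mul_mem hσ hτ), map_mul, ← Matrix.mulVec_mulVec, hχ τ hτ, Matrix.mulVec_smul,
      hχ σ hσ, smul_smul, mul_comm]
  have hχone : χ 1 = 1 := by
    apply smul_left_injective k hv
    show χ 1 • v = (1 : k) • v
    rw [← hχ _ (one_mem _), map_one, Matrix.one_mulVec, one_smul]
  have hconj : ∀ σ ∈ Iq p, ∀ x, actP (φ * σ * φ⁻¹) x = actP σ x := by
    intro σ hσ x
    show χ (φ * σ * φ⁻¹) * x = χ σ * x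
    have hφD := hφ.1
    rw [hχmul _ (mul_mem hφD (Iq_le_Dq p hσ)) _ (inv_mem hφD), hχmul _ hφD _ (Iq_le_Dq p hσ)]
    have h1 : χ φ * χ φ⁻¹ = 1 := by
      rw [← hχmul _ hφD _ (inv_mem hφD), mul_inv_cancel, hχone]
    calc χ φ * χ σ * χ φ⁻¹ * x = (χ φ * χ φ⁻¹) * χ σ * x := by ring
      _ = χ σ * x := by rw [h1, one_mul]
  have hsc := hP.scalar_of_frob (k := k) χ (fun σ _ x => rfl) hφ hconj
  have hchar : CharP k p := charP_of_injective_algebraMap (algebraMap (ZMod p) k).injective p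
  have hpx : p • (1 : k) = 0 := by rw [nsmul_eq_mul, CharP.cast_eq_zero, zero_mul]
  rcases hP.char_of_scalar hp2 one_ne_zero hpx
    (fun σ hσ => (hsc σ hσ).imp (fun n hn => hn 1)) with h1 | h1
  · left
    intro σ hσ
    have h2 : χ σ * 1 = 1 := h1 σ hσ
    rw [mul_one] at h2
    rw [hχ σ (Iq_le_Dq p hσ), h2, one_smul]
  · right
    intro σ hσ
    have h2 : χ σ * 1 = cyE p σ • (1 : k) := h1 σ hσ
    rw [mul_one, nsmul_eq_mul, mul_one] at h2
    rw [hχ σ (Iq_le_Dq p hσ), h2, Nat.cast_smul_eq_nsmul]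

/-- the determinant form on `k²`. -/
def Line_w {k : Type} [Field k] (x y : Fin 2 → k) : k := x 0 * y 1 - x 1 * y 0

theorem Line_w_mulVec {k : Type} [Field k] (N : M2 k) (x y : Fin 2 → k) :
    Line_w (N.mulVec x) (N.mulVec y) = N.det * Line_w x y := by
  simp only [Line_w, Matrix.det_fin_two, Matrix.mulVec, dotProduct, Fin.sum_univ_two]
  ring

theorem Line_w_add {k : Type} [Field k] (v x y : Fin 2 → k) :
    Line_w v (x + y) = Line_w v x + Line_w v y := by
  simp only [Line_w, Pi.add_apply]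
  ring

theorem Line_w_sub {k : Type} [Field k] (v x y : Fin 2 → k) :
    Line_w v (x - y) = Line_w v x - Line_w v y := by
  simp only [Line_w, Pi.sub_apply]
  ring

theorem Line_w_neg {k : Type} [Field k] (v x : Fin 2 → k) : Line_w v (-x) = -Line_w v x := by
  simp only [Line_w, Pi.neg_apply]
  ring

theorem Line_w_smul_left {k : Type} [Field k] (a : k) (v x : Fin 2 → k) :
    Line_w (a • v) x = a * Line_w v x := by
  simp only [Line_w, Pi.smul_apply, smul_eq_mul]
  ring

theorem Line_w_smul_right {k : Type} [Field k] (a : k) (v x : Fin 2 → k) :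
    Line_w v (a • x) = a * Line_w v x := by
  simp only [Line_w, Pi.smul_apply, smul_eq_mul]
  ring

theorem Line_w_self {k : Type} [Field k] (v : Fin 2 → k) : Line_w v v = 0 := by
  simp only [Line_w]
  ring

theorem Line_exists_smul {k : Type} [Field k] {v x : Fin 2 → k} (hv : v ≠ 0)
    (h : Line_w v x = 0) : ∃ a : k, x = a • v := by
  simp only [Line_w] at h
  by_cases h0 : v 0 = 0
  · have h1 : v 1 ≠ 0 := by
      intro h1
      apply hv
      funext i
      fin_cases i
      · exact h0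
      · exact h1
    refine ⟨x 1 / v 1, ?_⟩
    have hx0 : x 0 = 0 := by
      rw [h0, zero_mul, zero_sub, neg_eq_zero] at h
      exact (mul_eq_zero.1 h).resolve_left h1
    funext i
    fin_cases i
    · show x 0 = x 1 / v 1 * v 0
      rw [h0, hx0, mul_zero]
    · show x 1 = x 1 / v 1 * v 1
      rw [div_mul_cancel₀ _ h1]
  · refine ⟨x 0 / v 0, ?_⟩
    funext i
    fin_cases i
    · show x 0 = x 0 / v 0 * v 0
      rw [div_mul_cancel₀ _ h0]
    · show x 1 = x 0 / v 0 * v 1
      field_simp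
      linear_combination h

theorem Line_decomp {k : Type} [Field k] {v e : Fin 2 → k} (h : Line_w v e ≠ 0) (x : Fin 2 → k) :
    x = (Line_w x e / Line_w v e) • v + (Line_w v x / Line_w v e) • e := by
  funext i
  have key : ∀ i, Line_w v e * x i = Line_w x e * v i + Line_w v x * e i := by
    intro i
    fin_cases i
    · simp only [Line_w]
      show (v 0 * e 1 - v 1 * e 0) * x 0 = (x 0 * e 1 - x 1 * e 0) * v 0 +
        (v 0 * x 1 - v 1 * x 0) * e 0
      ring
    · simp only [Line_w]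
      show (v 0 * e 1 - v 1 * e 0) * x 1 = (x 0 * e 1 - x 1 * e 0) * v 1 +
        (v 0 * x 1 - v 1 * x 0) * e 1
      ring
  simp only [Pi.add_apply, Pi.smul_apply, smul_eq_mul]
  field_simp
  linear_combination key i

/-- **TASK S56/F-Line-b.  EXPORT 5.**
PROOF.  `A := aug (Iq p) (resAct M)` is a `k`-subspace of `k²` (`aug_smul_mem`).  `σ₀ ∈ Iq p` with
`cycloChar p σ₀ ≠ 1` (`Loc.exists_mem_Ip_cycloChar_ne_one`).  `det (M σ) = cycloChar σ` (`hM.det`).
CASE 1 (`line_char`): `M σ v = cyE σ • v` on `I`.  Complete `v` to a basis `v, v'`: `M σ v' = d v' + * v` with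
 `det = cyE σ * d`, so `d = 1`: `M σ x - x ∈ k v` for all `x`, so `A ≤ k v`; and `(cyE σ₀ - 1) v ∈ A` is nonzero,
 so `A = k v` (`aug_smul_mem`).  Take `e = v`.
CASE 2: `M σ v = v` on `I`.  `A ∩ k v = 0` by `Ord.aug_fixed` (elements of `k v` are `I`-fixed).  `A ≠ 0`, otherwise
 `M σ₀ = 1`, `det = 1`.  Pick `e ∈ A`, `e ≠ 0`; `v, e` is a basis of `k²`; if `x = a v + b e ∈ A` then `a v ∈ A`, so
 `a = 0`. -/
theorem aug_resAct_eq_line (hp2 : p ≠ 2) (M : GQ →* M2 k) (hM : ResHyp p M)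
    {H : Subalgebra (R0 p) ((Fin 2 → k) → Qbar)} (h : Ord (R0 p) (Iq p) (resAct M) H)
    {v : Fin 2 → k} (hv : v ≠ 0) (hstab : ∀ σ ∈ Dq p, ∃ a : k, (M σ).mulVec v = a • v) :
    ∃ e : Fin 2 → k, e ≠ 0 ∧ ∀ x, x ∈ aug (Iq p) (resAct M) ↔ ∃ a : k, x = a • e := by
  have hp : p.Prime := Fact.out
  have hne : NeZero p := ⟨hp.ne_zero⟩
  obtain ⟨σ₀, hσ₀, hσ₀1⟩ := Loc.exists_mem_Ip_cycloChar_ne_one (p := p) hp2
  -- the determinant
  have hdet : ∀ σ, (M σ).det = ((cyE p σ : ℕ) : k) := by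
    intro σ
    rw [hM.det σ, cyE]
    conv_lhs => rw [← ZMod.natCast_zmod_val ((cycloChar p σ : (ZMod p)ˣ) : ZMod p), map_natCast]
  have hc0 : ∀ σ, ((cyE p σ : ℕ) : k) ≠ 0 := by
    intro σ
    rw [← hdet σ, hM.det σ]
    exact (map_ne_zero _).2 (Units.ne_zero _)
  have hc1 : ((cyE p σ₀ : ℕ) : k) ≠ 1 := by
    rw [← hdet σ₀, hM.det σ₀]
    intro h1
    apply hσ₀1
    apply Units.ext
    apply (algebraMap (ZMod p) k).injective
    rw [h1, Units.val_one, map_one]
  have hgen : ∀ σ ∈ Iq p, ∀ x : Fin 2 → k, (M σ).mulVec x - x ∈ aug (Iq p) (resAct M) :=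
    fun σ hσ x => AddSubgroup.subset_closure ⟨σ, hσ, x, rfl⟩
  rcases line_char hp2 M h hv hstab with hcase | hcase
  · -- CASE 2 of the docstring: inertia fixes `v`
    have hchar : CharP k p := charP_of_injective_algebraMap (algebraMap (ZMod p) k).injective p
    have hkill : ∀ x : Fin 2 → k, p • x = 0 := by
      intro x
      rw [← Nat.cast_smul_eq_nsmul k, CharP.cast_eq_zero, zero_smul]
    have hcap : ∀ a : k, a • v ∈ aug (Iq p) (resAct M) → a • v = 0 := by
      intro a ha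
      refine h.aug_fixed hp2 hkill ha fun σ hσ => ?_
      show (M σ).mulVec (a • v) = a • v
      rw [Matrix.mulVec_smul, hcase σ hσ]
    obtain ⟨x₀, hx₀⟩ : ∃ x₀ : Fin 2 → k, (M σ₀).mulVec x₀ - x₀ ≠ 0 := by
      by_contra hcon
      push Not at hcon
      have h1 : M σ₀ = 1 := by
        apply Matrix.mulVec_injective
        funext x
        rw [Matrix.one_mulVec]
        exact sub_eq_zero.1 (hcon x)
      apply hc1
      rw [← hdet σ₀, h1, Matrix.det_one]
    set e : Fin 2 → k := (M σ₀).mulVec x₀ - x₀ with he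
    have heA : e ∈ aug (Iq p) (resAct M) := hgen σ₀ hσ₀ x₀
    have hw : Line_w v e ≠ 0 := by
      intro h0
      obtain ⟨a, ha⟩ := Line_exists_smul hv h0
      apply hx₀
      rw [ha]
      apply hcap
      rw [← ha]
      exact heA
    refine ⟨e, hx₀, fun x => ⟨fun hx => ?_, ?_⟩⟩
    · have hdec := Line_decomp hw x
      have h1 : (Line_w x e / Line_w v e) • v ∈ aug (Iq p) (resAct M) := by
        have h2 : (Line_w x e / Line_w v e) • v = x - (Line_w v x / Line_w v e) • e := by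
          rw [eq_sub_iff_add_eq]
          exact hdec.symm
        rw [h2]
        exact sub_mem hx (aug_smul_mem M _ _ heA)
      rw [hcap _ h1, zero_add] at hdec
      exact ⟨_, hdec⟩
    · rintro ⟨a, rfl⟩
      exact aug_smul_mem M _ a heA
  · -- CASE 1 of the docstring: inertia acts on `v` by the cyclotomic character
    have hcase' : ∀ σ ∈ Iq p, (M σ).mulVec v = ((cyE p σ : ℕ) : k) • v := by
      intro σ hσ
      rw [hcase σ hσ, Nat.cast_smul_eq_nsmul]
    have hA : ∀ x ∈ aug (Iq p) (resAct M), Line_w v x = 0 := by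
      intro x hx
      unfold aug at hx
      induction hx using AddSubgroup.closure_induction with
      | mem y hy =>
        obtain ⟨σ, hσ, x, rfl⟩ := hy
        have h1 := Line_w_mulVec (M σ) v x
        rw [hcase' σ hσ, Line_w_smul_left, hdet σ] at h1
        have h2 := mul_left_cancel₀ (hc0 σ) h1
        show Line_w v ((M σ).mulVec x - x) = 0
        rw [Line_w_sub, h2, sub_self]
      | zero => simp [Line_w]
      | add a b _ _ ha hb => rw [Line_w_add, ha, hb, add_zero]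
      | neg a _ ha => rw [Line_w_neg, ha, neg_zero]
    have hvA : (((cyE p σ₀ : ℕ) : k) - 1) • v ∈ aug (Iq p) (resAct M) := by
      have h1 := hgen σ₀ hσ₀ v
      rwa [hcase' σ₀ hσ₀, ← one_smul k v, smul_smul, mul_one, ← sub_smul] at h1
    refine ⟨v, hv, fun x => ⟨fun hx => Line_exists_smul hv (hA x hx), ?_⟩⟩
    rintro ⟨a, rfl⟩
    have h2 := aug_smul_mem M (Iq p) (a / (((cyE p σ₀ : ℕ) : k) - 1)) hvA
    rwa [smul_smul, div_mul_cancel₀ _ (sub_ne_zero.2 hc1)] at h2

end Fermat.Agent.S56.F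

end
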