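/-
S56 / F / Peu : a flat extension of an étale module by a `μ_p`-type module is PEU RAMIFIÉE.
TASKS S56/F-Peu-a (tres_estimate), S56/F-Peu-b (exists_kummer), S56/F-Peu-c (peu_rank_one),
S56/F-Peu-d (peu).

`I = Iq p`, `|.| = nrm p`, `ζ` a primitive `p`-th root of unity, `cyE p σ` the cyclotomic exponent.
`Ipeu p` = elements of `I` fixing every `w` with `w^p ∈ R0 p`, `|w| = 1`.
-/
import Fermat.Agent.S56.F.Char
import Fermat.Agent.S55.Arith.H90

set_option autoImplicit false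

noncomputable section

namespace Fermat.Agent.S56.F

open Fermat.Agent.S55.Places ExtCitation

variable {p : ℕ} [Fact p.Prime]

/-- `m ↦ ζ^m` on `ZMod p`. -/
def Peu_E (ζ : Qbar) (m : ZMod p) : Qbar := ζ ^ m.val

theorem Peu_E_natCast {ζ : Qbar} (hζ : ζ ^ p = 1) (k : ℕ) :
    Peu_E ζ (k : ZMod p) = ζ ^ k := by
  rw [Peu_E, ZMod.val_natCast, ← pow_eq_pow_mod _ hζ]

theorem Peu_E_zero (ζ : Qbar) : Peu_E ζ (0 : ZMod p) = 1 := by
  rw [Peu_E, ZMod.val_zero, pow_zero]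

theorem Peu_E_add {ζ : Qbar} (hζ : ζ ^ p = 1) (m m' : ZMod p) :
    Peu_E ζ (m + m') = Peu_E ζ m * Peu_E ζ m' := by
  have h : m + m' = ((m.val + m'.val : ℕ) : ZMod p) := by
    push_cast
    rw [ZMod.natCast_zmod_val, ZMod.natCast_zmod_val]
  rw [h, Peu_E_natCast hζ, pow_add]
  rfl

theorem Peu_map_E {ζ : Qbar} (hζ : ζ ^ p = 1) (σ : GQ) {c : ℕ} (hc : σ ζ = ζ ^ c) (m : ZMod p) :
    σ (Peu_E ζ m) = Peu_E ζ ((c : ZMod p) * m) := by
  have h : (c : ZMod p) * m = ((c * m.val : ℕ) : ZMod p) := by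
    push_cast
    rw [ZMod.natCast_zmod_val]
  rw [h, Peu_E_natCast hζ, Peu_E, map_pow, hc, ← pow_mul]

theorem Peu_E_eq_one_iff {ζ : Qbar} (hζ : IsPrimitiveRoot ζ p) (k : ZMod p) :
    Peu_E ζ k = 1 ↔ k = 0 := by
  constructor
  · intro h
    rw [Peu_E, hζ.pow_eq_one_iff_dvd] at h
    have h1 := Nat.eq_zero_of_dvd_of_lt h (ZMod.val_lt k)
    exact (ZMod.val_eq_zero k).1 h1
  · rintro rfl
    exact Peu_E_zero ζ

theorem Peu_sum_E {ζ : Qbar} (hζ : IsPrimitiveRoot ζ p) (k : ZMod p) :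
    ∑ i : ZMod p, Peu_E ζ (i * k) = if k = 0 then (p : Qbar) else 0 := by
  split_ifs with hk
  · subst hk
    simp only [mul_zero, Peu_E_zero, Finset.sum_const, Finset.card_univ, ZMod.card, nsmul_eq_mul,
      mul_one]
  · have h1 : Peu_E ζ k * ∑ i : ZMod p, Peu_E ζ (i * k) = ∑ i : ZMod p, Peu_E ζ (i * k) := by
      rw [Finset.mul_sum]
      refine Eq.trans ?_ (Equiv.sum_comp (Equiv.addRight (1 : ZMod p)) fun i => Peu_E ζ (i * k))
      refine Finset.sum_congr rfl fun i _ => ?_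
      rw [← Peu_E_add hζ.pow_eq_one, Equiv.coe_addRight]
      congr 1
      ring
    have h2 : (Peu_E ζ k - 1) * ∑ i : ZMod p, Peu_E ζ (i * k) = 0 := by
      rw [sub_mul, h1, one_mul, sub_self]
    rcases mul_eq_zero.1 h2 with h3 | h3
    · exact absurd ((Peu_E_eq_one_iff hζ k).1 (sub_eq_zero.1 h3)) hk
    · exact h3

/-- ultrametric: a finite sum whose non zero terms have pairwise distinct norms dominates its terms. -/
theorem Peu_nrm_le_sum_of_distinct {ι : Type*} (s : Finset ι) (f : ι → Qbar)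
    (hd : ∀ i ∈ s, ∀ j ∈ s, i ≠ j → f i ≠ 0 → nrm p (f i) ≠ nrm p (f j)) :
    (∀ i ∈ s, nrm p (f i) ≤ nrm p (∑ i ∈ s, f i)) ∧
      (nrm p (∑ i ∈ s, f i) = 0 ∨ ∃ i ∈ s, nrm p (∑ i ∈ s, f i) = nrm p (f i)) := by
  classical
  induction s using Finset.induction_on with
  | empty => simp
  | insert a s ha ih =>
    obtain ⟨ih1, ih2⟩ := ih fun i hi j hj =>
      hd i (Finset.mem_insert_of_mem hi) j (Finset.mem_insert_of_mem hj)
    rw [Finset.sum_insert ha]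
    by_cases h0 : f a = 0
    · rw [h0, zero_add]
      refine ⟨fun i hi => ?_, ?_⟩
      · rcases Finset.mem_insert.1 hi with rfl | hi
        · rw [h0, nrm_zero]; exact nrm_nonneg p _
        · exact ih1 i hi
      · rcases ih2 with h | ⟨i, hi, h⟩
        · exact Or.inl h
        · exact Or.inr ⟨i, Finset.mem_insert_of_mem hi, h⟩
    · have hpos : 0 < nrm p (f a) := (nrm_pos_iff p).2 h0
      have hne : nrm p (f a) ≠ nrm p (∑ i ∈ s, f i) := by
        rcases ih2 with h | ⟨i, hi, h⟩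
        · rw [h]; exact hpos.ne'
        · rw [h]
          refine hd a (Finset.mem_insert_self a s) i (Finset.mem_insert_of_mem hi) ?_ h0
          rintro rfl
          exact ha hi
      rw [nrm_add_eq_max_of_ne p hne]
      refine ⟨fun i hi => ?_, ?_⟩
      · rcases Finset.mem_insert.1 hi with rfl | hi
        · exact le_max_left _ _
        · exact (ih1 i hi).trans (le_max_right _ _)
      · right
        rcases le_total (nrm p (∑ i ∈ s, f i)) (nrm p (f a)) with h | h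
        · exact ⟨a, Finset.mem_insert_self a s, max_eq_left h⟩
        · rcases ih2 with h' | ⟨i, hi, h'⟩
          · rw [h'] at h; exact absurd h (not_le.2 hpos)
          · exact ⟨i, Finset.mem_insert_of_mem hi, by rw [max_eq_right h, h']⟩

/-- Fourier coefficient of `g`. -/
def Peu_t (ζ : Qbar) (g : ZMod p → Qbar) (i : ZMod p) : Qbar :=
  (p : Qbar)⁻¹ * ∑ m : ZMod p, g m * Peu_E ζ (-(i * m))

theorem Peu_inversion {ζ : Qbar} (hζ : IsPrimitiveRoot ζ p) (g : ZMod p → Qbar) (n : ZMod p) :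
    g n = ∑ i : ZMod p, Peu_t ζ g i * Peu_E ζ (i * n) := by
  have hp0 : (p : Qbar) ≠ 0 := by exact_mod_cast (Fact.out : p.Prime).ne_zero
  have h1 : ∀ i : ZMod p, Peu_t ζ g i * Peu_E ζ (i * n) =
      (p : Qbar)⁻¹ * ∑ m : ZMod p, g m * Peu_E ζ (i * (n - m)) := by
    intro i
    rw [Peu_t, mul_assoc, Finset.sum_mul]
    congr 1
    refine Finset.sum_congr rfl fun m _ => ?_
    rw [mul_assoc, ← Peu_E_add hζ.pow_eq_one]
    congr 2
    ring
  simp_rw [h1]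
  rw [← Finset.mul_sum, Finset.sum_comm]
  simp_rw [← Finset.mul_sum, Peu_sum_E hζ, sub_eq_zero]
  rw [Finset.sum_eq_single n]
  · rw [if_pos rfl, mul_comm (g n), inv_mul_cancel_left₀ hp0]
  · intro m _ hm
    rw [if_neg (Ne.symm hm), mul_zero]
  · intro h
    exact absurd (Finset.mem_univ n) h

theorem Peu_map_t {ζ : Qbar} (hζ : ζ ^ p = 1) (g : ZMod p → Qbar) (σ : GQ) {a c : ℕ}
    (hc : σ ζ = ζ ^ c) (hc0 : (c : ZMod p) ≠ 0)
    (hg : ∀ n : ZMod p, σ (g n) = g (a + c * n)) (i : ZMod p) :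
    σ (Peu_t ζ g i) = Peu_E ζ ((a : ZMod p) * i) * Peu_t ζ g i := by
  rw [Peu_t, map_mul, map_inv₀, map_natCast, map_sum, mul_left_comm]
  congr 1
  rw [Finset.mul_sum]
  refine Eq.trans ?_ (Equiv.sum_comp
    ((Equiv.mulLeft₀ (c : ZMod p) hc0).trans (Equiv.addLeft (a : ZMod p)))
    fun m => Peu_E ζ ((a : ZMod p) * i) * (g m * Peu_E ζ (-(i * m))))
  refine Finset.sum_congr rfl fun m _ => ?_
  rw [map_mul, hg, Peu_map_E hζ σ hc]
  simp only [Equiv.trans_apply, Equiv.mulLeft₀_apply, Equiv.coe_addLeft]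
  rw [mul_left_comm, ← Peu_E_add hζ]
  congr 2
  ring

/-- **TASK S56/F-Peu-a** (pure `S55/Places` computation, no orders).
`w^p = p u`, `u` a unit of `R0 p`; `g : ZMod p → Qbar` integral valued and `I`-equivariant for the affine
action `n ↦ a + c n` (`σ w = ζ^a w`, `σ ζ = ζ^c`).  Then `|g 1 - g 0| ≤ |ζ - 1| |w|`.
PROOF.  `c_i := p⁻¹ ∑_n g n ζ^(-i n) w^(-i)`, `0 ≤ i < p` (write `ζ^(-in)` as `(ζ^(i n.val))⁻¹`).
(1) `c_i` is fixed by `I`: for `σ ∈ I` there are `a, c` with `σ w = ζ^a w` (`(σ w / w)^p = 1`, primitive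
    root: `IsPrimitiveRoot.eq_pow_of_pow_eq_one`), `σ ζ = ζ^c`, `p ∤ c`; `σ` maps the `n`-th summand to the
    summand with index `a + c n` (`Equiv.sum_comp` for the bijection `n ↦ a + c n` of `ZMod p`).
(2) `g n = ∑_i c_i ζ^(i n) w^i` (orthogonality: `∑_i ζ^(i (n - m)) = p` or `0`,
    `IsPrimitiveRoot.geom_sum_eq_zero`).
(3) `|w|^p = 1/p`, `|c_i| ∈ p^ℤ ∪ {0}` (`exists_zpow_of_fixed`), so the norms `|c_i w^i|` of the nonzero terms are
    pairwise distinct (compare `p`-th powers: `p^(p n_i - i)`), so `|g 0| = max_i |c_i w^i|`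
    (`nrm_add_eq_max_of_ne`, induction; or: the unique largest term dominates).  Hence `|c_i w^i| ≤ 1`, and
    `|c_i| ≤ 1` (`|c_i|^p ≤ p^i < p^p`).
(4) `g 1 - g 0 = ∑_{i ≥ 1} c_i (ζ^i - 1) w^i`, `|ζ^i - 1| ≤ |ζ - 1|`, `|w^i| ≤ |w|`. -/
theorem tres_estimate {ζ w u : Qbar} (hζ : IsPrimitiveRoot ζ p) (hu : u ∈ R0 p)
    (hu1 : nrm p u = 1) (hw : w ^ p = p * u) (g : ZMod p → Qbar) (hg1 : ∀ n, nrm p (g n) ≤ 1)
    (hg : ∀ σ ∈ Iq p, ∀ a c : ℕ, σ w = ζ ^ a * w → σ ζ = ζ ^ c →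
      ∀ n : ZMod p, σ (g n) = g (a + c * n)) :
    nrm p (g 1 - g 0) ≤ nrm p (ζ - 1) * nrm p w := by
  have hp : p.Prime := Fact.out
  have hp0 : (p : Qbar) ≠ 0 := by exact_mod_cast hp.ne_zero
  have hpR : (1 : ℝ) < p := by exact_mod_cast hp.one_lt
  have hpR0 : (0 : ℝ) < p := by linarith
  have hζ1 := hζ.pow_eq_one
  have hu0 : u ≠ 0 := by
    rintro rfl
    rw [nrm_zero] at hu1
    exact zero_ne_one hu1
  have hw0 : w ≠ 0 := by
    rintro rfl
    rw [zero_pow hp.ne_zero] at hw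
    exact mul_ne_zero hp0 hu0 hw.symm
  have hwp : nrm p w ^ p = (p : ℝ)⁻¹ := by
    rw [← nrm_pow, hw, nrm_mul, nrm_natCast_self, hu1, mul_one]
  have hw1 : nrm p w ≤ 1 := by
    rw [← pow_le_one_iff_of_nonneg (nrm_nonneg p w) hp.ne_zero, hwp]
    exact inv_le_one_of_one_le₀ hpR.le
  -- (1) the coefficients are fixed by inertia
  have hfix : ∀ i : ZMod p, ∀ σ ∈ Iq p,
      σ (Peu_t ζ g i / w ^ i.val) = Peu_t ζ g i / w ^ i.val := by
    intro i σ hσ
    have h1 : (σ w / w) ^ p = 1 := by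
      rw [div_pow, ← map_pow, hw, map_mul, map_natCast, hu.2 σ hσ,
        div_self (mul_ne_zero hp0 hu0)]
    have : NeZero p := ⟨hp.ne_zero⟩
    obtain ⟨a, -, ha⟩ := hζ.eq_pow_of_pow_eq_one h1
    have ha' : σ w = ζ ^ a * w := by rw [ha, div_mul_cancel₀ _ hw0]
    have hc := map_eq_pow_cyE σ hζ1
    have hc0 : ((cyE p σ : ℕ) : ZMod p) ≠ 0 := by
      rw [cyE, ZMod.natCast_zmod_val]
      exact Units.ne_zero _
    have h2 : Peu_E ζ ((a : ZMod p) * i) = ζ ^ (a * i.val) := by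
      rw [← Peu_E_natCast hζ1]
      congr 1
      push_cast
      rw [ZMod.natCast_zmod_val]
    rw [map_div₀, Peu_map_t hζ1 g σ hc hc0 (hg σ hσ a _ ha' hc) i, map_pow, ha', mul_pow,
      ← pow_mul, h2, mul_div_mul_left _ _ (pow_ne_zero _ (hζ.ne_zero hp.ne_zero))]
  -- (3) norms
  have hnorm : ∀ i : ZMod p, Peu_t ζ g i ≠ 0 →
      ∃ n : ℤ, nrm p (Peu_t ζ g i) = (p : ℝ) ^ n * nrm p w ^ i.val := by
    intro i hi
    obtain ⟨n, hn⟩ := exists_zpow_of_fixed (hfix i) (div_ne_zero hi (pow_ne_zero _ hw0))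
    refine ⟨n, ?_⟩
    rw [nrm_div, nrm_pow] at hn
    rw [← hn, div_mul_cancel₀]
    exact pow_ne_zero _ ((nrm_pos_iff p).2 hw0).ne'
  have hnormp : ∀ (i : ZMod p) (n : ℤ), nrm p (Peu_t ζ g i) = (p : ℝ) ^ n * nrm p w ^ i.val →
      nrm p (Peu_t ζ g i) ^ p = (p : ℝ) ^ ((p : ℤ) * n - i.val) := by
    intro i n h
    rw [h, mul_pow, ← pow_mul, mul_comm i.val p, pow_mul, hwp, inv_pow,
      ← zpow_natCast ((p : ℝ) ^ n), ← zpow_mul, zpow_sub₀ hpR0.ne', zpow_natCast, mul_comm n,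
      div_eq_mul_inv]
  have hd : ∀ i ∈ (Finset.univ : Finset (ZMod p)), ∀ j ∈ (Finset.univ : Finset (ZMod p)),
      i ≠ j → Peu_t ζ g i ≠ 0 → nrm p (Peu_t ζ g i) ≠ nrm p (Peu_t ζ g j) := by
    intro i _ j _ hij hi heq
    have hj : Peu_t ζ g j ≠ 0 := by
      rw [← nrm_pos_iff p, ← heq, nrm_pos_iff]
      exact hi
    obtain ⟨n, hn⟩ := hnorm i hi
    obtain ⟨m, hm⟩ := hnorm j hj
    have h1 := hnormp i n hn
    have h2 := hnormp j m hm
    rw [heq, h2] at h1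
    have h3 : (p : ℤ) * m - j.val = p * n - i.val := zpow_right_injective₀ hpR0 hpR.ne' h1
    apply hij
    apply ZMod.val_injective
    have hi' := ZMod.val_lt i
    have hj' := ZMod.val_lt j
    have h4 : (p : ℤ) ∣ (j.val : ℤ) - i.val := ⟨m - n, by linarith⟩
    have h5 := Int.eq_zero_of_abs_lt_dvd h4 (by rw [abs_lt]; constructor <;> omega)
    omega
  obtain ⟨hle, -⟩ := Peu_nrm_le_sum_of_distinct Finset.univ (Peu_t ζ g) hd
  have hg0 : g 0 = ∑ i, Peu_t ζ g i := by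
    have h := Peu_inversion hζ g 0
    simpa only [mul_zero, Peu_E_zero, mul_one] using h
  have ht1 : ∀ i, nrm p (Peu_t ζ g i) ≤ 1 := fun i =>
    (hle i (Finset.mem_univ i)).trans (by rw [← hg0]; exact hg1 0)
  have htw : ∀ i : ZMod p, i ≠ 0 → nrm p (Peu_t ζ g i) ≤ nrm p w := by
    intro i hi0
    by_cases hi : Peu_t ζ g i = 0
    · rw [hi, nrm_zero]
      exact nrm_nonneg p w
    obtain ⟨n, hn⟩ := hnorm i hi
    have h1 := hnormp i n hn
    have hn0 : n ≤ 0 := by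
      by_contra hcon
      rw [not_le] at hcon
      have h2 : nrm p (Peu_t ζ g i) ^ p ≤ 1 := pow_le_one₀ (nrm_nonneg p _) (ht1 i)
      rw [h1] at h2
      have h3 : (0 : ℤ) < p * n - i.val := by
        have h4 := ZMod.val_lt i
        have h5 : (i.val : ℤ) < p := by exact_mod_cast h4
        nlinarith
      have h6 := one_lt_zpow₀ hpR h3
      linarith
    rw [hn]
    have h4 : (p : ℝ) ^ n ≤ 1 := zpow_le_one_of_nonpos₀ hpR.le hn0
    have h5 : nrm p w ^ i.val ≤ nrm p w :=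
      pow_le_of_le_one (nrm_nonneg p w) hw1 (by rwa [Ne, ZMod.val_eq_zero])
    calc (p : ℝ) ^ n * nrm p w ^ i.val ≤ 1 * nrm p w :=
          mul_le_mul h4 h5 (pow_nonneg (nrm_nonneg p w) _) zero_le_one
      _ = nrm p w := one_mul _
  -- (4)
  have hdiff : g 1 - g 0 = ∑ i, Peu_t ζ g i * (Peu_E ζ i - 1) := by
    have h1 := Peu_inversion hζ g 1
    have h0 := Peu_inversion hζ g 0
    rw [h1, h0, ← Finset.sum_sub_distrib]
    refine Finset.sum_congr rfl fun i _ => ?_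
    rw [mul_one, mul_zero, Peu_E_zero, mul_sub]
  have hC : 0 ≤ nrm p (ζ - 1) * nrm p w := mul_nonneg (nrm_nonneg p _) (nrm_nonneg p _)
  rw [hdiff]
  apply nrm_sum_le p _ _ _ hC
  intro i _
  by_cases hi0 : i = 0
  · rw [hi0, Peu_E_zero, sub_self, mul_zero, nrm_zero]
    exact hC
  · rw [nrm_mul, mul_comm]
    refine mul_le_mul ?_ (htw i hi0) (nrm_nonneg p _) (nrm_nonneg p _)
    rw [Peu_E, nrm_sub_comm, nrm_sub_comm p ζ]
    exact cyclo_nrm_one_sub_pow_le p hp.ne_zero hζ1 _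

variable {E : Type} [AddCommGroup E] {act : GQ → E → E} {H : Subalgebra (R0 p) (E → Qbar)}

/-- **TASK S56/F-Peu-b** (Hilbert 90).  `σ x - x = a σ • y₀`, `σ y₀ = cyE σ • y₀` on `I`.  Then
`σ ↦ ζ^(a σ)` is a level 1-cocycle `I → Qbarˣ` (`a (σ τ) ≡ a σ + cyE σ * a τ` mod `p` because `y₀ ≠ 0`,
`p y₀ = 0`; it is right invariant under the stabiliser of `x`, which contains
`I ∩ (fixing subgroup of the number field generated by the values h_j x of finitely many generators)`: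
`Ord.act_eq_iff`, `h.fg`), hence a coboundary: `S55.h90_Gm (Iq p)`. -/
theorem Ord.exists_kummer (h : Ord (R0 p) (Iq p) act H) {ζ : Qbar} (hζ : IsPrimitiveRoot ζ p)
    {x y₀ : E} (hy₀ : y₀ ≠ 0) (hpy : p • y₀ = 0) (hy : ∀ σ ∈ Iq p, act σ y₀ = cyE p σ • y₀)
    (a : GQ → ℕ) (ha : ∀ σ ∈ Iq p, act σ x - x = a σ • y₀) :
    ∃ w : Qbar, w ≠ 0 ∧ ∀ σ ∈ Iq p, σ w = ζ ^ a σ * w := by
  classical
  have hp : p.Prime := Fact.out
  have hord : addOrderOf y₀ = p := addOrderOf_eq_prime hpy hy₀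
  have hmod : ∀ n m : ℕ, n • y₀ = m • y₀ → ζ ^ n = ζ ^ m := by
    intro n m hnm
    have h1 : n ≡ m [MOD p] := by
      rw [← hord]
      exact nsmul_eq_nsmul_iff_modEq.1 hnm
    rw [pow_eq_pow_mod n hζ.pow_eq_one, pow_eq_pow_mod m hζ.pow_eq_one, h1]
  have hζp : ζ ^ p = 1 := hζ.pow_eq_one
  have hζ0 : ζ ≠ 0 := hζ.ne_zero hp.ne_zero
  -- the cocycle relation
  have hcoc : ∀ σ ∈ Iq p, ∀ τ ∈ Iq p, ζ ^ a (σ * τ) = σ (ζ ^ a τ) * ζ ^ a σ := by
    intro σ hσ τ hτ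
    rw [map_pow, map_eq_pow_cyE σ hζp, ← pow_mul, ← pow_add]
    apply hmod
    rw [← ha (σ * τ) (mul_mem hσ hτ), h.act_mul hσ hτ]
    have h1 : act τ x = x + a τ • y₀ := by rw [← ha τ hτ]; abel
    rw [h1, h.act_add hσ, h.act_nsmul hσ, hy σ hσ, add_smul, ← ha σ hσ, smul_smul, mul_comm]
    abel
  -- stabiliser of `x`
  obtain ⟨T, hT⟩ := h.fg
  let E' : IntermediateField ℚ Qbar := IntermediateField.adjoin ℚ ((fun f : E → Qbar => f x) '' (T : Set (E → Qbar)))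
  have hfinS : Finite ((fun f : E → Qbar => f x) '' (T : Set (E → Qbar))) :=
    (T.finite_toSet.image _).to_subtype
  have hAC := isAlgClosureQbar
  have hE' : FiniteDimensional ℚ E' :=
    IntermediateField.finiteDimensional_adjoin (fun z _ => (Algebra.IsAlgebraic.isAlgebraic (R := ℚ) z).isIntegral)
  have hstab : ∀ s ∈ Iq p, s ∈ E'.fixingSubgroup → act s x = x := by
    intro s hs hsE
    rw [h.act_eq_iff hs x]
    intro f hf
    have hf' : f ∈ Submodule.span (R0 p) (T : Set (E → Qbar)) := by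
      rw [hT]
      exact hf
    clear hf
    induction hf' using Submodule.span_induction with
    | mem g hg =>
      exact (IntermediateField.mem_fixingSubgroup_iff E' s).1 hsE _
        (IntermediateField.subset_adjoin ℚ _ ⟨g, hg, rfl⟩)
    | zero => exact map_zero s
    | add g g' _ _ ih ih' =>
      show s (g x + g' x) = g x + g' x
      rw [map_add, ih, ih']
    | smul r g _ ih =>
      show s ((r : Qbar) * g x) = (r : Qbar) * g x
      rw [map_mul, ih, (mem_R0.1 r.2).2 s hs]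
  have hlevel : ∀ g ∈ Iq p, ∀ s ∈ Iq p, s ∈ E'.fixingSubgroup → ζ ^ a (g * s) = ζ ^ a g := by
    intro g hg s hs hsE
    have h1 : ζ ^ a s = 1 := by
      rw [← pow_zero ζ]
      apply hmod
      rw [← ha s hs, hstab s hs hsE, sub_self, zero_smul]
    rw [hcoc g hg s hs, h1, map_one, one_mul]
  -- Hilbert 90
  let ζu : Qbarˣ := Units.mk0 ζ hζ0
  let c : ↥(Iq p) → Additive Qbarˣ := fun σ => Additive.ofMul (ζu ^ a (σ : GQ))
  have hc : c ∈ Fermat.Agent.S55.Z1 (Fermat.Agent.S55.Lall.sub (Iq p))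
      (Fermat.Agent.S55.rsub Fermat.Agent.S55.Gm (Iq p)) := by
    rw [Fermat.Agent.S55.mem_Z1]
    refine ⟨fun σ τ => ?_, E'.fixingSubgroup.subgroupOf (Iq p),
      ⟨E'.fixingSubgroup, Fermat.Agent.S55.Lall_isOpen_iff.2 ⟨E', hE', le_rfl⟩, le_rfl⟩,
      fun g s hs => ?_⟩
    · apply Additive.toMul.injective
      apply Units.ext
      have := hcoc σ σ.2 τ τ.2
      simpa [c, ζu] using this
    · apply Additive.toMul.injective
      apply Units.ext
      have := hlevel g g.2 s s.2 hs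
      simpa [c, ζu] using this
  obtain ⟨b, hb⟩ := Fermat.Agent.S55.mem_B1.mp (Fermat.Agent.S55.h90_Gm (Iq p) hc)
  refine ⟨((b.toMul : Qbarˣ) : Qbar), Units.ne_zero _, fun σ hσ => ?_⟩
  have h1 := hb ⟨σ, hσ⟩
  have h2 : c ⟨σ, hσ⟩ + b = Fermat.Agent.S55.Gm σ b := by
    rw [h1]
    show Fermat.Agent.S55.Gm σ b - b + b = _
    abel
  have h3 := congrArg (fun z : Additive Qbarˣ => ((z.toMul : Qbarˣ) : Qbar)) h2
  simp only [toMul_add, Units.val_mul, Fermat.Agent.S55.Gm_apply] at h3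
  rw [← h3]
  simp [c, ζu]

theorem Peu_modEq_of_pow_eq {ζ : Qbar} (hζ : IsPrimitiveRoot ζ p) {a b : ℕ} (hab : ζ ^ a = ζ ^ b) :
    a ≡ b [MOD p] := by
  have h0 : ζ ≠ 0 := hζ.ne_zero (Fact.out : p.Prime).ne_zero
  have h1 : ζ ^ ((b : ℤ) - (a : ℤ)) = 1 := by
    rw [zpow_sub₀ h0, zpow_natCast, zpow_natCast, hab, div_self (pow_ne_zero _ h0)]
  exact (Nat.modEq_iff_dvd).2 ((hζ.zpow_eq_one_iff_dvd _).1 h1)

/-- the "très ramifiée" case is impossible. -/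
theorem Ord.Peu_tres_false (h : Ord (R0 p) (Iq p) act H) {y₀ : E} (hy₀ : y₀ ≠ 0)
    (hpy : p • y₀ = 0) (hy : ∀ σ ∈ Iq p, act σ y₀ = cyE p σ • y₀) {x' : E} {ζ w' u' : Qbar}
    (hζ : IsPrimitiveRoot ζ p) (hu : u' ∈ R0 p) (hu1 : nrm p u' = 1) (hw : w' ^ p = p * u')
    (b : GQ → ℕ) (hb : ∀ σ ∈ Iq p, act σ x' - x' = b σ • y₀)
    (hbw : ∀ σ ∈ Iq p, σ w' = ζ ^ b σ * w') : False := by
  have hp : p.Prime := Fact.out
  have hpR : (0 : ℝ) < p := by exact_mod_cast hp.pos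
  have hp1 : (1 : ℝ) < p := by exact_mod_cast hp.one_lt
  have hR := nrm_le_one_of_mem_R0 (p := p)
  have : NeZero p := ⟨hp.ne_zero⟩
  have hw0 : w' ≠ 0 := by
    rintro rfl
    rw [zero_pow hp.ne_zero] at hw
    have h1 := congrArg (nrm p) hw
    rw [nrm_zero, nrm_mul, hu1, mul_one, nrm_natCast_self] at h1
    exact (inv_pos.2 hpR).ne h1
  obtain ⟨f, hf, hfle⟩ := h.torsion' hR x' hy₀ hpy
  set g : ZMod p → Qbar := fun n => f (x' + n.val • y₀) with hg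
  have hg1 : ∀ n, nrm p (g n) ≤ 1 := fun n => h.nrm_le_one hR hf _
  have hgeq : ∀ σ ∈ Iq p, ∀ a c : ℕ, σ w' = ζ ^ a * w' → σ ζ = ζ ^ c →
      ∀ n : ZMod p, σ (g n) = g (a + c * n) := by
    intro σ hσ a c ha hc n
    have h1 : b σ ≡ a [MOD p] := by
      apply Peu_modEq_of_pow_eq hζ
      rw [hbw σ hσ] at ha
      exact mul_right_cancel₀ hw0 ha
    have h2 : cyE p σ ≡ c [MOD p] := by
      apply Peu_modEq_of_pow_eq hζ
      rw [← map_eq_pow_cyE σ hζ.pow_eq_one, hc]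
    have h3 : act σ x' = x' + b σ • y₀ := by
      rw [← hb σ hσ]; abel
    show σ (f (x' + n.val • y₀)) = f (x' + ((a : ZMod p) + c * n).val • y₀)
    rw [← h.equiv f hf σ hσ, h.act_add hσ, h.act_nsmul hσ, hy σ hσ, h3, add_assoc, smul_smul,
      ← add_smul]
    congr 2
    apply Char_nsmul_congr hpy
    rw [← ZMod.natCast_eq_natCast_iff]
    push_cast
    rw [ZMod.natCast_zmod_val, ZMod.natCast_zmod_val, (ZMod.natCast_eq_natCast_iff _ _ _).2 h1,
      (ZMod.natCast_eq_natCast_iff _ _ _).2 h2]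
    ring
  have hest := tres_estimate hζ hu hu1 hw g hg1 hgeq
  have e1 : g 1 = f (x' + y₀) := by
    show f (x' + (1 : ZMod p).val • y₀) = _
    rw [ZMod.val_one'' hp.ne_one, one_smul]
  have e0 : g 0 = f x' := by
    show f (x' + (0 : ZMod p).val • y₀) = _
    rw [ZMod.val_zero, zero_smul, add_zero]
  rw [e1, e0] at hest
  have hζn : nrm p (ζ - 1) ^ (p - 1) = (p : ℝ)⁻¹ := by
    have h1 := nrm_one_sub_zeta (p := p) (n := 0) (ζ := ζ) (by simpa using hζ)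
    rwa [pow_zero, one_mul, nrm_sub_comm] at h1
  have hwn : nrm p w' < 1 := by
    have h1 := congrArg (nrm p) hw
    rw [nrm_pow, nrm_mul, hu1, mul_one, nrm_natCast_self] at h1
    rw [← pow_lt_one_iff_of_nonneg (nrm_nonneg p _) hp.ne_zero, h1]
    exact inv_lt_one_of_one_lt₀ hp1
  have hp1' : p - 1 ≠ 0 := by have := hp.two_le; omega
  have hwn' : nrm p w' ^ (p - 1) < 1 := pow_lt_one₀ (nrm_nonneg p _) hwn hp1'
  have h4 : nrm p (f (x' + y₀) - f x') ^ (p - 1) ≤ (p : ℝ)⁻¹ * nrm p w' ^ (p - 1) := by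
    rw [← hζn, ← mul_pow]
    exact pow_le_pow_left₀ (nrm_nonneg p _) hest _
  have h5 : (p : ℝ)⁻¹ * nrm p w' ^ (p - 1) < (p : ℝ)⁻¹ :=
    mul_lt_of_lt_one_right (inv_pos.2 hpR) hwn'
  linarith

/-- **TASK S56/F-Peu-c** (rank one case).
PROOF.  `ζ` primitive (`cyclo_exists_primitiveRoot`), `a σ` chosen from `hx`, `w` from `exists_kummer`.
`w^p` is fixed by `I`, so `w^p = p^m u`, `u` a unit of `R0` (`exists_zpow_mul_unit`).
CASE `p ∣ m`, `m = p m'`: `w' := w / p^m'` has `w'^p = u`, `|w'| = 1`: `τ w' = w'`, `τ w = w`, `ζ^(a τ) = 1`,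
  `p ∣ a τ`, `τ x = x`.
CASE `p ∤ m`: `j m + l p = 1` (`j ∈ ℕ`, `1 ≤ j < p`, `l ∈ ℤ`).  `w' := w^j p^l`, `w'^p = p u^j`,
  `σ w' = ζ^(j a σ) w'`; `x' := j • x`, `σ x' - x' = (j a σ) • y₀`.  `Ord.torsion'` gives `f ∈ H` with
  `1/p ≤ |f (x' + y₀) - f x'|^(p-1)`.  `g n := f (x' + n.val • y₀)` satisfies the hypotheses of
  `tres_estimate` [if `σ w' = ζ^a w'`, `σ ζ = ζ^c` then `a ≡ j a σ`, `c ≡ cyE σ` mod `p` and
  `σ (g n) = f (σ x' + n σ y₀) = f (x' + (a + c n) y₀)`], so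
  `|g 1 - g 0|^(p-1) ≤ |ζ-1|^(p-1) |w'|^(p-1) = (1/p) |w'|^(p-1) < 1/p` (`nrm_one_sub_zeta`): contradiction. -/
theorem Ord.peu_rank_one (h : Ord (R0 p) (Iq p) act H) (hp2 : p ≠ 2) {y₀ : E} (hy₀ : y₀ ≠ 0)
    (hpy : p • y₀ = 0) (hy : ∀ σ ∈ Iq p, act σ y₀ = cyE p σ • y₀) {x : E}
    (hx : ∀ σ ∈ Iq p, ∃ n : ℕ, act σ x - x = n • y₀) : ∀ τ ∈ Ipeu p, act τ x = x := by
  classical
  have hp : p.Prime := Fact.out
  have hpQ : (p : Qbar) ≠ 0 := by exact_mod_cast hp.ne_zero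
  have : NeZero p := ⟨hp.ne_zero⟩
  obtain ⟨ζ, hζ⟩ := cyclo_exists_primitiveRoot p
  set a : GQ → ℕ := fun σ => if hσ : σ ∈ Iq p then (hx σ hσ).choose else 0 with ha_def
  have ha : ∀ σ ∈ Iq p, act σ x - x = a σ • y₀ := by
    intro σ hσ
    rw [ha_def]
    simp only [dif_pos hσ]
    exact (hx σ hσ).choose_spec
  obtain ⟨w, hw0, hw⟩ := h.exists_kummer hζ hy₀ hpy hy a ha
  have hwp : ∀ σ ∈ Iq p, σ (w ^ p) = w ^ p := by
    intro σ hσ
    rw [map_pow, hw σ hσ, mul_pow, ← pow_mul, mul_comm (a σ) p, pow_mul, hζ.pow_eq_one, one_pow,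
      one_mul]
  obtain ⟨m, u, hu, hu1, hwu⟩ := exists_zpow_mul_unit hwp (pow_ne_zero p hw0)
  by_cases hpm : (p : ℤ) ∣ m
  · obtain ⟨m', rfl⟩ := hpm
    intro τ hτ
    set w' := w / (p : Qbar) ^ m' with hw'
    have hw'p : w' ^ p = u := by
      rw [hw', div_pow, hwu, ← zpow_natCast ((p : Qbar) ^ m') p, ← zpow_mul, mul_comm m' (p : ℤ),
        mul_div_cancel_left₀ _ (zpow_ne_zero _ hpQ)]
    have hw'n : nrm p w' = 1 := by
      have h1 := congrArg (nrm p) hw'p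
      rw [nrm_pow, hu1] at h1
      exact (pow_eq_one_iff_of_nonneg (nrm_nonneg p _) hp.ne_zero).1 h1
    have h1 := hτ.2 w' (by rw [hw'p]; exact hu) hw'n
    have h2 : τ w = w := by
      rw [hw', map_div₀, map_zpow₀, map_natCast] at h1
      exact (div_left_inj' (zpow_ne_zero _ hpQ)).1 h1
    rw [hw τ hτ.1] at h2
    have h3 : ζ ^ a τ = 1 := mul_right_cancel₀ hw0 (h2.trans (one_mul w).symm)
    obtain ⟨c, hc⟩ := (hζ.pow_eq_one_iff_dvd _).1 h3
    have h4 := ha τ hτ.1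
    rw [hc, mul_comm, mul_smul, hpy, smul_zero] at h4
    exact sub_eq_zero.1 h4
  · exfalso
    have hm0 : (m : ZMod p) ≠ 0 := by
      rwa [Ne, ZMod.intCast_zmod_eq_zero_iff_dvd]
    set j : ℕ := ((m : ZMod p)⁻¹).val with hj
    have hjm : (((j : ℤ) * m : ℤ) : ZMod p) = ((1 : ℤ) : ZMod p) := by
      push_cast
      rw [hj, ZMod.natCast_zmod_val, inv_mul_cancel₀ hm0]
    obtain ⟨l, hl⟩ := (ZMod.intCast_eq_intCast_iff_dvd_sub _ _ _).1 hjm
    -- `1 - j m = p l`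
    refine h.Peu_tres_false (x' := j • x) (ζ := ζ) (w' := w ^ j * (p : Qbar) ^ l) (u' := u ^ j)
      hy₀ hpy hy hζ (pow_mem hu j) (by rw [nrm_pow, hu1, one_pow]) ?_ (fun σ => j * a σ) ?_ ?_
    · rw [mul_pow, ← pow_mul, mul_comm j p, pow_mul, hwu, mul_pow, ← zpow_natCast ((p : Qbar) ^ m) j,
        ← zpow_mul, ← zpow_natCast ((p : Qbar) ^ l) p, ← zpow_mul, mul_right_comm,
        ← zpow_add₀ hpQ]
      have e : m * (j : ℤ) + l * (p : ℤ) = 1 := by linarith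
      rw [e, zpow_one]
    · intro σ hσ
      show act σ (j • x) - j • x = (j * a σ) • y₀
      rw [h.act_nsmul hσ, ← smul_sub, ha σ hσ, smul_smul]
    · intro σ hσ
      show σ (w ^ j * (p : Qbar) ^ l) = ζ ^ (j * a σ) * (w ^ j * (p : Qbar) ^ l)
      rw [map_mul, map_pow, map_zpow₀, map_natCast, hw σ hσ, mul_pow, ← pow_mul, mul_comm (a σ) j,
        mul_assoc]

theorem Peu_exists_addHom_aux {E' : Type} [AddCommGroup E'] [Module (ZMod p) E'] {y : E'}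
    (hy : y ≠ 0) : ∃ lam : E' →+ ZMod p, lam y ≠ 0 := by
  by_contra hcon
  push Not at hcon
  have h1 : ∀ φ : Module.Dual (ZMod p) E', φ y = 0 := fun φ => hcon φ.toAddMonoidHom
  exact hy ((Module.forall_dual_apply_eq_zero_iff (ZMod p) y).1 h1)

/-- an additive form on a group killed by `p` which does not vanish at a given nonzero element. -/
theorem Peu_exists_addHom {E' : Type} [AddCommGroup E'] (hkill : ∀ x : E', p • x = 0) {y : E'}
    (hy : y ≠ 0) : ∃ lam : E' →+ ZMod p, lam y ≠ 0 :=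
  @Peu_exists_addHom_aux p _ E' _ (AddCommGroup.zmodModule hkill) y hy

/-- **TASK S56/F-Peu-d.  EXPORT 3**: if inertia acts on `I_I E` by the cyclotomic character then `Ipeu`
acts trivially on `E`.
PROOF.  Suppose `y₁ := τ x - x ≠ 0`; `y₁ ∈ A := aug (Iq p) act`.  `A` is killed by `p`, so it is a
`ZMod p`-vector space (`AddCommGroup.zmodModule`) and there is an additive `λ : A →+ ZMod p` with
`λ y₁ ≠ 0` (`Module.exists_dual_forall_apply_ne_zero`-type lemma / extend `y₁` to a basis).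
`K := (ker λ).map A.subtype`, an `I`-stable subgroup of `E` (`I` acts on `A` by integers).
`W := E ⧸ K`, `q := QuotientAddGroup.mk' K`, `actW σ w := q (act σ w.out)`; `q (act σ x) = actW σ (q x)` for
`σ ∈ I` (`Ord.act_sub`, stability of `K`).  `Ord.of_surjective isBase_R0 h q ..` is an order on `W`.
`y₀ := q y₁ ≠ 0`; every `q (σ x' - x')` is a multiple of `y₀` (`A / ker λ` has order `p`: `a - (λ a / λ y₁) y₁ ∈ ker λ`);
`peu_rank_one` in `W` gives `actW τ (q x) = q x`, i.e. `q y₁ = 0`: contradiction. -/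
theorem Ord.peu (h : Ord (R0 p) (Iq p) act H) (hp2 : p ≠ 2) (hkill : ∀ x : E, p • x = 0)
    (hω : ∀ σ ∈ Iq p, ∀ y ∈ aug (Iq p) act, act σ y = cyE p σ • y) :
    ∀ τ ∈ Ipeu p, ∀ x : E, act τ x = x := by
  intro τ hτ x
  by_contra hne
  have hτI : τ ∈ Iq p := hτ.1
  set y₁ : E := act τ x - x with hy₁
  have hy₁0 : y₁ ≠ 0 := fun h0 => hne (sub_eq_zero.1 h0)
  have hmemA : ∀ σ ∈ Iq p, ∀ z : E, act σ z - z ∈ aug (Iq p) act := fun σ hσ z =>
    AddSubgroup.subset_closure ⟨σ, hσ, z, rfl⟩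
  obtain ⟨lam, hlam⟩ := Peu_exists_addHom hkill hy₁0
  set K : AddSubgroup E := aug (Iq p) act ⊓ lam.ker with hK
  -- `K` is stable
  have hstab : ∀ σ ∈ Iq p, ∀ k ∈ K, act σ k ∈ K := by
    intro σ hσ k hk
    rw [hω σ hσ k hk.1]
    exact K.nsmul_mem hk _
  let q : E →+ E ⧸ K := QuotientAddGroup.mk' K
  have hq : Function.Surjective q := QuotientAddGroup.mk'_surjective K
  have hq0 : ∀ z : E, q z = 0 ↔ z ∈ K := fun z => QuotientAddGroup.eq_zero_iff z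
  let actW : GQ → E ⧸ K → E ⧸ K := fun σ w => q (act σ w.out)
  have hequiv : ∀ σ ∈ Iq p, ∀ z, q (act σ z) = actW σ (q z) := by
    intro σ hσ z
    show q (act σ z) = q (act σ (q z).out)
    rw [← sub_eq_zero, ← map_sub, ← h.act_sub hσ, hq0]
    apply hstab σ hσ
    rw [← hq0, map_sub, sub_eq_zero]
    exact (QuotientAddGroup.out_eq' (q z)).symm
  have hW := Ord.of_surjective isBase_R0 h q hq hequiv
  have hy₀ : q y₁ ≠ 0 := by
    rw [Ne, hq0]
    exact fun hk => hlam (AddMonoidHom.mem_ker.1 hk.2)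
  have hpy : p • q y₁ = 0 := by rw [← map_nsmul, hkill, map_zero]
  have hy : ∀ σ ∈ Iq p, actW σ (q y₁) = cyE p σ • q y₁ := by
    intro σ hσ
    rw [← hequiv σ hσ, hω σ hσ y₁ (hmemA τ hτI x), map_nsmul]
  have hx : ∀ σ ∈ Iq p, ∃ n : ℕ, actW σ (q x) - q x = n • q y₁ := by
    intro σ hσ
    refine ⟨(lam (act σ x - x) / lam y₁).val, ?_⟩
    rw [← hequiv σ hσ, ← map_sub, ← map_nsmul, ← sub_eq_zero, ← map_sub, hq0]
    refine AddSubgroup.mem_inf.2
      ⟨sub_mem (hmemA σ hσ x) (AddSubgroup.nsmul_mem _ (hmemA τ hτI x) _), ?_⟩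
    rw [AddMonoidHom.mem_ker, map_sub, map_nsmul, nsmul_eq_mul, ZMod.natCast_zmod_val,
      div_mul_cancel₀ _ hlam, sub_self]
  have hfin := Ord.peu_rank_one hW hp2 hy₀ hpy hy hx τ hτ
  apply hy₀
  rw [hy₁, map_sub, hequiv τ hτI, hfin, sub_self]

end Fermat.Agent.S56.F

end
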