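/-
S56 / F / PeuK : `p^(1/p)` is not contained in `L0(units^(1/p))`:  some `τ ∈ Ipeu p` moves `p^(1/p)`.
TASKS S56/F-PeuK-a (mem_Iq_of_fixes), -b (kummer_descent), -c (no_root), -d (exists_mem_Ipeu_moving).
-/
import Fermat.Agent.S56.F.R0
import Fermat.Agent.S56.F.Char
import Fermat.Agent.S55.Places.Roots

set_option autoImplicit false

noncomputable section

namespace Fermat.Agent.S56.F

open Fermat.Agent.S55.Places ExtCitation

variable {p : ℕ} [Fact p.Prime]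

/-- **TASK S56/F-PeuK-a**: `I_p` is closed: an automorphism fixing `L0 = Qbar^{I_p}` pointwise lies in `I_p`.
PROOF.  (1) `τ ∈ Dq p`: `Dq p` is closed for the Krull topology [`g ∈ Dq p ↔ ∀ x, |g x| = |x|` (`mem_Dq_iff`); if
`g ∉ Dq p`, `|g x| ≠ |x|`, the coset `g • (ℚ⟮x⟯).fixingSubgroup` is an open neighbourhood missing `Dq p`], so
`Dq p = fixingSubgroup (fixedField (Dq p))` (`InfiniteGalois.fixingSubgroup_fixedField` for the
`ClosedSubgroup`), and `fixedField (Dq p) ≤ fixedField (Iq p)` (`Iq_le_Dq`).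
ALTERNATIVE for (1) and (2) at once: do the same directly with `Iq p` (`mem_Iq_iff` is also a family of
conditions each depending on one value `g x`).
(2) `|τ x - x| < 1` for `|x| ≤ 1`. -/
theorem mem_Iq_of_fixes {τ : GQ} (hτ : ∀ x : Qbar, (∀ σ ∈ Iq p, σ x = x) → τ x = x) :
    τ ∈ Iq p := by
  -- for every `x` there is `σ ∈ I` with `σ x = τ x` (density, `exists_mem_eqOn`)
  have key : ∀ x : Qbar, ∃ σ ∈ Iq p, σ x = τ x := by
    intro x
    have := cyclo_finiteDimensional_adjoin x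
    obtain ⟨E', hfd, hgal, hle⟩ := exists_galois_ge (IntermediateField.adjoin ℚ {x} : NF)
    obtain ⟨σ, hσ, hσx⟩ := exists_mem_eqOn (Iq p) E' τ (fun y _ hy =>
      hτ y (fun σ hσ => (mem_Fix_iff.1 hy) σ hσ))
    exact ⟨σ, hσ, hσx x (hle (IntermediateField.mem_adjoin_simple_self ℚ x))⟩
  rw [mem_Iq_iff]
  refine ⟨(mem_Dq_iff p).2 fun x => ?_, fun x hx => ?_⟩
  · obtain ⟨σ, hσ, h⟩ := key x
    rw [← h]
    exact nrm_map_of_mem_Dq p (Iq_le_Dq p hσ) x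
  · obtain ⟨σ, hσ, h⟩ := key x
    rw [← h]
    exact ((mem_Iq_iff p).1 hσ).2 x hx

/-- one step of `kummer_descent`. -/
theorem PeuK_step {ζ : Qbar} (hζ : IsPrimitiveRoot ζ p) (Γ : Subgroup GQ)
    (hΓζ : ∀ τ ∈ Γ, τ ζ = ζ) (y : Qbar) (hy0 : y ≠ 0) (hy : ∀ τ ∈ Γ, τ (y ^ p) = y ^ p)
    (π : Qbar) (hπ0 : π ≠ 0) (hπ : ∀ τ ∈ Γ, τ (π ^ p) = π ^ p)
    (hfix : ∀ τ ∈ Γ, τ y = y → τ π = π) :
    ∃ a : ℕ, ∀ τ ∈ Γ, τ (π / y ^ a) = π / y ^ a := by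
  have hp : p.Prime := Fact.out
  have : NeZero p := ⟨hp.ne_zero⟩
  by_cases hall : ∀ τ ∈ Γ, τ y = y
  · exact ⟨0, fun τ hτ => by rw [pow_zero, div_one, hfix τ hτ (hall τ hτ)]⟩
  push Not at hall
  obtain ⟨s, hs, hsy⟩ := hall
  -- roots of unity are fixed
  have hμ : ∀ ξ : Qbar, ξ ^ p = 1 → ∀ τ ∈ Γ, τ ξ = ξ := by
    intro ξ hξ τ hτ
    obtain ⟨i, -, rfl⟩ := hζ.eq_pow_of_pow_eq_one hξ
    rw [map_pow, hΓζ τ hτ]
  have hquot : ∀ x : Qbar, x ≠ 0 → ∀ τ : GQ, τ (x ^ p) = x ^ p → (τ x / x) ^ p = 1 := by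
    intro x hx τ h
    rw [div_pow, ← map_pow, h, div_self (pow_ne_zero _ hx)]
  obtain ⟨η, hη⟩ : ∃ η : Qbar, η = s y / y := ⟨_, rfl⟩
  have hηp : η ^ p = 1 := hη ▸ hquot y hy0 s (hy s hs)
  have hη1 : η ≠ 1 := by
    intro h
    rw [hη] at h
    exact hsy ((div_eq_one_iff_eq hy0).1 h)
  have hηprim : IsPrimitiveRoot η p := by
    have h1 := IsPrimitiveRoot.orderOf η
    rwa [orderOf_eq_prime hηp hη1] at h1
  have hsy' : s y = η * y := by rw [hη, div_mul_cancel₀ _ hy0]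
  obtain ⟨a, -, ha⟩ := hηprim.eq_pow_of_pow_eq_one (hquot π hπ0 s (hπ s hs))
  have hsπ : s π = η ^ a * π := by rw [ha, div_mul_cancel₀ _ hπ0]
  have hsw : s (π / y ^ a) = π / y ^ a := by
    rw [map_div₀, map_pow, hsπ, hsy', mul_pow]
    have h0 : η ^ a ≠ 0 := pow_ne_zero _ (hηprim.ne_zero hp.ne_zero)
    field_simp
  have hspow : ∀ r : ℕ, (s ^ r) y = η ^ r * y ∧ (s ^ r) (π / y ^ a) = π / y ^ a := by
    intro r
    induction r with
    | zero => simp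
    | succ r ih =>
      rw [pow_succ', AlgEquiv.mul_apply, AlgEquiv.mul_apply, ih.1, ih.2, map_mul, map_pow,
        hμ η hηp s hs, hsy', hsw]
      exact ⟨by ring, rfl⟩
  refine ⟨a, fun τ hτ => ?_⟩
  obtain ⟨r, -, hr⟩ := hηprim.eq_pow_of_pow_eq_one (hquot y hy0 τ (hy τ hτ))
  have hτy : τ y = (s ^ r) y := by rw [(hspow r).1, hr, div_mul_cancel₀ _ hy0]
  obtain ⟨ρ, hρ⟩ : ∃ ρ : GQ, ρ = (s ^ r)⁻¹ * τ := ⟨_, rfl⟩
  have hρΓ : ρ ∈ Γ := hρ ▸ Γ.mul_mem (Γ.inv_mem (Γ.pow_mem hs r)) hτ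
  have hρy : ρ y = y := by
    rw [hρ, AlgEquiv.mul_apply, hτy, ← AlgEquiv.mul_apply, inv_mul_cancel, AlgEquiv.one_apply]
  have hρπ : ρ π = π := hfix ρ hρΓ hρy
  have hτ' : τ = s ^ r * ρ := by rw [hρ, mul_inv_cancel_left]
  rw [hτ', AlgEquiv.mul_apply, map_div₀ ρ, map_pow, hρy, hρπ, (hspow r).2]

/-- **TASK S56/F-PeuK-b** (finite Kummer theory, pure group theory; NO field theory).
`Γ` a subgroup of `GQ` fixing a primitive `p`-th root of unity `ζ`, all `z i ^ p` and `π ^ p`.  If every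
`τ ∈ Γ` fixing all `z i` fixes `π`, then `π / ∏ z i ^ e i` is fixed by `Γ` for suitable exponents.
PROOF.  Induction on `n` (generalising `π`).  `Γ' := {τ ∈ Γ | τ (z i) = z i for i < n}` (first `n` of `n+1`).
On `Γ'` the maps `κ_z τ := τ (z n) / z n`, `κ_π τ := τ π / π` are homomorphisms to `μ_p` (values are `p`-th roots
of unity, fixed by `Γ`), and `κ_z τ = 1 → κ_π τ = 1`.  If `κ_z = 1` on `Γ'` take `e n = 0`.  Otherwise pick
`s ∈ Γ'` with `κ_z s = ζ^b`, `p ∤ b`, replace `s` by a power so that `κ_z s = ζ`; `κ_π s = ζ^a`; for `τ ∈ Γ'`,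
`κ_z τ = ζ^m`, `τ s^(-m)` fixes `z n`, so `κ_π τ = ζ^(a m)`: `π / z n ^ a` is fixed by `Γ'`.  Apply the
induction hypothesis to `π / z n ^ a`. -/
theorem kummer_descent {ζ : Qbar} (hζ : IsPrimitiveRoot ζ p) (Γ : Subgroup GQ)
    (hΓζ : ∀ τ ∈ Γ, τ ζ = ζ) (n : ℕ) (z : Fin n → Qbar) (hz0 : ∀ i, z i ≠ 0)
    (hz : ∀ i, ∀ τ ∈ Γ, τ (z i ^ p) = z i ^ p) (π : Qbar) (hπ0 : π ≠ 0)
    (hπ : ∀ τ ∈ Γ, τ (π ^ p) = π ^ p)
    (hfix : ∀ τ ∈ Γ, (∀ i, τ (z i) = z i) → τ π = π) :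
    ∃ e : Fin n → ℕ, ∀ τ ∈ Γ, τ (π / ∏ i, z i ^ e i) = π / ∏ i, z i ^ e i := by
  induction n generalizing π with
  | zero =>
    exact ⟨fun i => i.elim0, fun τ hτ => by simp [hfix τ hτ (fun i => i.elim0)]⟩
  | succ n ih =>
    let Γ' : Subgroup GQ :=
      { carrier := {τ | τ ∈ Γ ∧ ∀ i : Fin n, τ (z i.castSucc) = z i.castSucc}
        mul_mem' := fun {a b} ha hb => ⟨Γ.mul_mem ha.1 hb.1, fun i => by
          rw [AlgEquiv.mul_apply, hb.2, ha.2]⟩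
        one_mem' := ⟨Γ.one_mem, fun i => rfl⟩
        inv_mem' := fun {a} ha => ⟨Γ.inv_mem ha.1, fun i => by
          conv_lhs => rw [← ha.2 i]
          rw [← AlgEquiv.mul_apply, inv_mul_cancel, AlgEquiv.one_apply]⟩ }
    obtain ⟨a, ha⟩ := PeuK_step hζ Γ' (fun τ hτ => hΓζ τ hτ.1) (z (Fin.last n)) (hz0 _)
      (fun τ hτ => hz _ τ hτ.1) π hπ0 (fun τ hτ => hπ τ hτ.1)
      (fun τ hτ h => hfix τ hτ.1 (Fin.lastCases h hτ.2))
    obtain ⟨e, he⟩ := ih (fun i => z i.castSucc) (fun i => hz0 _) (fun i => hz _)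
      (π / z (Fin.last n) ^ a) (div_ne_zero hπ0 (pow_ne_zero _ (hz0 _)))
      (fun τ hτ => by
        rw [div_pow, map_div₀, hπ τ hτ, ← pow_mul, mul_comm, pow_mul, map_pow, hz _ τ hτ])
      (fun τ hτ h => ha τ ⟨hτ, h⟩)
    refine ⟨Fin.snoc e a, fun τ hτ => ?_⟩
    have e1 : π / ∏ i, z i ^ (Fin.snoc e a : Fin (n + 1) → ℕ) i =
        π / z (Fin.last n) ^ a / ∏ i : Fin n, z i.castSucc ^ e i := by
      rw [Fin.prod_univ_castSucc, div_div, mul_comm]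
      simp only [Fin.snoc_castSucc, Fin.snoc_last]
    rw [e1]
    exact he τ hτ

/-- **TASK S56/F-PeuK-c**: no `y` fixed by `I₁ = {σ ∈ I | σ ζ = ζ}` has `y^p ∈ L0` and `|y|^p = 1/p`.
PROOF.  For `σ ∈ I`: `ξ σ := σ y / y ∈ μ_p`, `ξ (σ τ) = ξ σ · σ (ξ τ)`, `ξ = 1` on `I₁`.  Pick `σ₀ ∈ I` with
`c₀ := cyE p σ₀ ≢ 1` mod `p` (`S56.Loc.exists_mem_Ip_cycloChar_ne_one`, file `S56/Loc/Arith3.lean`; if its import is
inconvenient reprove: otherwise `ζ` is `I`-fixed, but `|1 - ζ|^(p-1) = 1/p` is not in `p^((p-1)ℤ)`...).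
`ξ σ₀ = ζ^a`; `η := ζ^b` with `b (c₀ - 1) ≡ a`; `y₁ := y / η` is fixed by `σ₀` and by `I₁`.  For `σ ∈ I`:
`σ σ₀ = σ₀ σ τ`, `τ ∈ I₁` (the cyclotomic character is abelian), so `ξ₁ σ = ξ₁ (σ σ₀) = ξ₁ (σ₀ σ) = (ξ₁ σ)^c₀`,
hence `ξ₁ σ = 1`.  So `y₁` is `I`-fixed, `|y₁| = |y| ∈ p^ℤ` (`exists_zpow_of_fixed`), contradiction with
`|y|^p = p^(-1)`. -/
theorem no_root (hp2 : p ≠ 2) {ζ : Qbar} (hζ : IsPrimitiveRoot ζ p) {y : Qbar}
    (hy : ∀ σ ∈ Iq p, σ ζ = ζ → σ y = y) (hyp : ∀ σ ∈ Iq p, σ (y ^ p) = y ^ p)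
    (hn : nrm p y ^ p = (p : ℝ)⁻¹) : False := by
  classical
  have hp : p.Prime := Fact.out
  have hp0 : (0 : ℝ) < p := by exact_mod_cast hp.pos
  have hp1 : (p : ℝ) ≠ 1 := by exact_mod_cast hp.one_lt.ne'
  have hy0 : y ≠ 0 := by
    rintro rfl
    rw [nrm_zero, zero_pow hp.ne_zero] at hn
    exact (inv_ne_zero hp0.ne') hn.symm
  -- representatives of `I / I₁`
  let rep : (ZMod p)ˣ → GQ := fun c =>
    if h : ∃ σ ∈ Iq p, cycloChar p σ = c then h.choose else 1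
  have hrepI : ∀ c, rep c ∈ Iq p := by
    intro c
    by_cases h : ∃ σ ∈ Iq p, cycloChar p σ = c
    · simp only [rep, dif_pos h]
      exact h.choose_spec.1
    · simp only [rep, dif_neg h]
      exact (Iq p).one_mem
  have hrepc : ∀ σ ∈ Iq p, cycloChar p (rep (cycloChar p σ)) = cycloChar p σ := by
    intro σ hσ
    have h : ∃ τ ∈ Iq p, cycloChar p τ = cycloChar p σ := ⟨σ, hσ, rfl⟩
    simp only [rep, dif_pos h]
    exact h.choose_spec.2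
  have K : ∀ σ ∈ Iq p, σ y = rep (cycloChar p σ) y := by
    intro σ hσ
    obtain ⟨ρ, hρ⟩ : ∃ ρ, ρ = rep (cycloChar p σ) := ⟨_, rfl⟩
    rw [← hρ]
    have hρI : ρ ∈ Iq p := hρ ▸ hrepI _
    have hρc : cycloChar p ρ = cycloChar p σ := hρ ▸ hrepc σ hσ
    have h1 : (ρ⁻¹ * σ : GQ) ζ = ζ := by
      have e1 : σ ζ = ρ ζ := by
        rw [map_eq_pow_cyE σ hζ.pow_eq_one, map_eq_pow_cyE ρ hζ.pow_eq_one, cyE, cyE, hρc]
      rw [AlgEquiv.mul_apply, e1, ← AlgEquiv.mul_apply, inv_mul_cancel, AlgEquiv.one_apply]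
    have h2 := hy _ ((Iq p).mul_mem ((Iq p).inv_mem hρI) hσ) h1
    rw [AlgEquiv.mul_apply] at h2
    have h3 := congrArg ρ h2
    rwa [← AlgEquiv.mul_apply, mul_inv_cancel, AlgEquiv.one_apply] at h3
  -- the orbit of `y`
  let S : Finset Qbar := Finset.univ.image (fun c : (ZMod p)ˣ => rep c y)
  have hS : ∀ z, z ∈ S ↔ ∃ σ ∈ Iq p, z = σ y := by
    intro z
    constructor
    · intro hz
      obtain ⟨c, -, rfl⟩ := Finset.mem_image.mp hz
      exact ⟨rep c, hrepI c, rfl⟩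
    · rintro ⟨σ, hσ, rfl⟩
      rw [K σ hσ]
      exact Finset.mem_image.mpr ⟨_, Finset.mem_univ _, rfl⟩
  have hcard1 : S.card ≤ p - 1 := by
    have := Finset.card_image_le (s := (Finset.univ : Finset (ZMod p)ˣ)) (f := fun c => rep c y)
    rwa [Finset.card_univ, ZMod.card_units] at this
  have hcard0 : 0 < S.card := Finset.card_pos.mpr ⟨y, (hS y).mpr ⟨1, (Iq p).one_mem, rfl⟩⟩
  obtain ⟨N, hN⟩ : ∃ N : Qbar, N = ∏ z ∈ S, z := ⟨_, rfl⟩
  have hNfix : ∀ σ ∈ Iq p, σ N = N := by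
    intro σ hσ
    have hsub : S.image σ ⊆ S := by
      intro z hz
      obtain ⟨w, hw, rfl⟩ := Finset.mem_image.mp hz
      obtain ⟨τ, hτ, rfl⟩ := (hS w).mp hw
      exact (hS _).mpr ⟨σ * τ, (Iq p).mul_mem hσ hτ, rfl⟩
    have himg : S.image σ = S := Finset.eq_of_subset_of_card_le hsub
      (by rw [Finset.card_image_of_injective _ σ.injective])
    rw [hN, map_prod]
    conv_rhs => rw [← himg]
    rw [Finset.prod_image (fun a _ b _ hab => σ.injective hab)]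
  have hSn : ∀ z ∈ S, nrm p z = nrm p y := by
    intro z hz
    obtain ⟨σ, hσ, rfl⟩ := (hS z).mp hz
    exact nrm_map_of_mem_Dq p (Iq_le_Dq p hσ) y
  have hNn : nrm p N = nrm p y ^ S.card := by
    rw [hN, nrm_prod, Finset.prod_congr rfl hSn, Finset.prod_const]
  have hN0 : N ≠ 0 := by
    rw [← nrm_pos_iff p, hNn]
    exact pow_pos ((nrm_pos_iff p).mpr hy0) _
  obtain ⟨k, hk⟩ := exists_zpow_of_fixed hNfix hN0
  rw [hNn] at hk
  have e : (nrm p y ^ S.card) ^ p = ((p : ℝ) ^ k) ^ p := by rw [hk]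
  rw [← pow_mul, mul_comm, pow_mul, hn, inv_pow, ← zpow_natCast (p : ℝ) S.card, ← zpow_neg,
    ← zpow_natCast ((p : ℝ) ^ k) p, ← zpow_mul] at e
  have e3 := zpow_right_injective₀ hp0 hp1 e
  have hdvd : (p : ℤ) ∣ (S.card : ℤ) := ⟨-k, by linarith⟩
  have h5 := Nat.le_of_dvd hcard0 (Int.natCast_dvd_natCast.mp hdvd)
  have h6 := hp.two_le
  omega

/-- **TASK S56/F-PeuK-d.  EXPORT 4.**
PROOF.  Suppose every `τ ∈ Ipeu p` fixes `w`.  `S := {x | ∀ σ ∈ Iq p, σ x = x} ∪ {v | v^p ∈ R0 p ∧ |v| = 1}`,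
`K := IntermediateField.adjoin ℚ S`.  `K.fixingSubgroup ≤ Ipeu p` (`mem_Iq_of_fixes`), so `w` is fixed by
`K.fixingSubgroup`, so `w ∈ K` (`InfiniteGalois.fixedField_fixingSubgroup`;
`attribute [local instance] isAlgClosureQbar` / `isGalois_Qbar`).  `IntermediateField.exists_finset_of_mem_adjoin`:
`w ∈ adjoin ℚ T`, `T ⊂ S` finite; an automorphism fixing `T` pointwise fixes `w`.  Enumerate the elements
`z_1..z_n` of `T` of the second kind.  `Γ := {σ ∈ Iq p | σ ζ = ζ}`: `kummer_descent` gives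
`y = w / ∏ z_i^(e_i)` fixed by `Γ`, `y^p = p / ∏ (z_i^p)^(e_i)` is `I`-fixed, `|y|^p = 1/p`: `no_root`. -/
theorem exists_mem_Ipeu_moving (hp2 : p ≠ 2) {w : Qbar} (hw : w ^ p = p) :
    ∃ τ ∈ Ipeu p, τ w ≠ w := by
  classical
  by_contra hcon
  have hall : ∀ τ ∈ Ipeu p, τ w = w := by
    intro τ hτ
    by_contra hne
    exact hcon ⟨τ, hτ, hne⟩
  have hp : p.Prime := Fact.out
  have hgal := isGalois_Qbar
  have hζ : IsPrimitiveRoot ((S55.zeta p : Qbarˣ) : Qbar) p :=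
    IsPrimitiveRoot.coe_units_iff.2 (S55.zeta_spec p)
  set ζ : Qbar := ((S55.zeta p : Qbarˣ) : Qbar) with hζdef
  set S1 : Set Qbar := {x | ∀ σ ∈ Iq p, σ x = x} with hS1
  set S2 : Set Qbar := {v | v ^ p ∈ R0 p ∧ nrm p v = 1} with hS2
  -- `w ∈ K`
  have hwK : w ∈ IntermediateField.adjoin ℚ (S1 ∪ S2) := by
    rw [← InfiniteGalois.fixedField_fixingSubgroup (IntermediateField.adjoin ℚ (S1 ∪ S2)),
      IntermediateField.mem_fixedField_iff]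
    intro τ hτ
    rw [Roots_mem_fixingSubgroup_adjoin] at hτ
    refine hall τ ⟨mem_Iq_of_fixes fun x hx => hτ x (Or.inl hx), fun v hv h1 => ?_⟩
    exact hτ v (Or.inr ⟨hv, h1⟩)
  obtain ⟨T, hTS, hwT⟩ := IntermediateField.exists_finset_of_mem_adjoin hwK
  have hfixT : ∀ τ : GQ, (∀ x ∈ T, τ x = x) → τ w = w := by
    intro τ hτ
    have h1 : τ ∈ (IntermediateField.adjoin ℚ (T : Set Qbar)).fixingSubgroup :=
      Roots_mem_fixingSubgroup_adjoin.2 fun x hx => hτ x hx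
    exact (IntermediateField.mem_fixingSubgroup_iff _ _).1 h1 w hwT
  -- the elements of the second kind
  set T2 : Finset Qbar := T.filter (· ∈ S2) with hT2
  set z : Fin T2.card → Qbar := fun i => ((T2.equivFin.symm i : T2) : Qbar) with hz
  have hzS2 : ∀ i, z i ∈ S2 := fun i => (Finset.mem_filter.1 (T2.equivFin.symm i).2).2
  have hz0 : ∀ i, z i ≠ 0 := by
    intro i h0
    have h1 := (hzS2 i).2
    rw [h0, nrm_zero] at h1
    exact zero_ne_one h1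
  have hw0 : w ≠ 0 := by
    rintro rfl
    rw [zero_pow hp.ne_zero] at hw
    exact hp.ne_zero (by exact_mod_cast hw.symm)
  set Γ : Subgroup GQ := Iq p ⊓ MulAction.stabilizer GQ ζ with hΓ
  have hΓmem : ∀ τ : GQ, τ ∈ Γ ↔ τ ∈ Iq p ∧ τ ζ = ζ := by
    intro τ
    rw [hΓ, Subgroup.mem_inf, MulAction.mem_stabilizer_iff]
    rfl
  obtain ⟨e, he⟩ := kummer_descent hζ Γ (fun τ hτ => ((hΓmem τ).1 hτ).2) T2.card z hz0
    (fun i τ hτ => (hzS2 i).1.2 τ ((hΓmem τ).1 hτ).1) w hw0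
    (fun τ _ => by rw [hw, map_natCast])
    (fun τ hτ hfix => hfixT τ fun x hx => by
      rcases hTS hx with h1 | h2
      · exact h1 τ ((hΓmem τ).1 hτ).1
      · have hx2 : x ∈ T2 := Finset.mem_filter.2 ⟨hx, h2⟩
        have h3 := hfix (T2.equivFin ⟨x, hx2⟩)
        simpa [hz] using h3)
  refine no_root hp2 hζ (y := w / ∏ i, z i ^ e i)
    (fun σ hσ hσζ => he σ ((hΓmem σ).2 ⟨hσ, hσζ⟩)) (fun σ hσ => ?_) ?_
  · rw [div_pow, hw, ← Finset.prod_pow, map_div₀, map_natCast, map_prod]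
    congr 1
    refine Finset.prod_congr rfl fun i _ => ?_
    rw [← pow_mul, mul_comm, pow_mul, map_pow, (hzS2 i).1.2 σ hσ]
  · rw [nrm_div, nrm_prod]
    have h1 : ∏ i, nrm p (z i ^ e i) = 1 := by
      refine Finset.prod_eq_one fun i _ => ?_
      rw [nrm_pow, (hzS2 i).2, one_pow]
    rw [h1, div_one, ← nrm_pow, hw, nrm_natCast_self]

end Fermat.Agent.S56.F

end
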