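/-
S56 / F / Export : everything the REDUCIBLE case (helper14, `S56/F/Red/`) consumes from the foundation.

  exists_ord_defAct      : IsFlatAt + IsClassOf ⇒ ∃ H, Ord (R0 p) (Iq p) (defAct M z) H          (OfFlat)
  exists_ord_resAct      : ... ⇒ Ord (R0 p) (Iq p) (resAct M) _                                   (OfFlat)
  Ord.aug_inter          : x ∈ aug I act → x ∈ S → x ∈ augOn I act S   (S an I-stable subgroup)   (Conn)
  Ord.aug_fixed          : x ∈ aug I act → I fixes x → x = 0                                       (Conn)
  Ord.peu                : I acts on aug by cyE ⇒ Ipeu acts trivially                              (Peu)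
  exists_mem_Ipeu_moving : w ^ p = p ⇒ ∃ τ ∈ Ipeu p, τ w ≠ w                                       (PeuK)
  aug_resAct_eq_line     : a D_p-stable line ⇒ aug I (resAct M) is a k-line                        (Line)
  line_char, Ord.char_of_scalar, Ord.scalar_of_frob                                               (Line, Char)
-/
import Fermat.Agent.S56.F.OfFlat
import Fermat.Agent.S56.F.Conn
import Fermat.Agent.S56.F.Peu
import Fermat.Agent.S56.F.PeuK
import Fermat.Agent.S56.F.Line
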